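import Mathlib
import Fermat.Agent.Lib.TorsionCard

/-!
# S58 / [FQ-small] — framework for explicit point computations on Weierstrass curves

Helper lemmas for the Frobenius quadratic equation on Weierstrass curves over `𝔽_2` and `𝔽_3`
(owner: helper11).

* `dbl_frac`, `chord_frac`, `neg_frac`: the duplication, chord addition and negation of affine
  points whose coordinates are given as fractions, with all hypotheses in denominator-free form.
* `eq_zero_of_generic`: an additive endomorphism of `E(K)` (`K` algebraically closed) which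
  vanishes at all affine points whose `x`-coordinate is not a root of a fixed nonzero polynomial
  vanishes identically.
-/

set_option autoImplicit false
set_option linter.unusedSectionVars false

namespace Fermat.Agent.S58.FQS.Basic

open WeierstrassCurve WeierstrassCurve.Affine

section Frac

variable {k : Type*} [Field k] [DecidableEq k] (W : Affine k)

/-- Transport of an affine point along equalities of coordinates. -/
theorem some_congr {x y x' y' : k} (h : W.Nonsingular x y) (hx : x = x') (hy : y = y') :
    ∃ h' : W.Nonsingular x' y', Point.some x y h = Point.some x' y' h' := by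
  subst hx hy
  exact ⟨h, rfl⟩

/-- Equality of affine points from equality of coordinates. -/
theorem some_eq_some {x y x' y' : k} (h : W.Nonsingular x y) (h' : W.Nonsingular x' y')
    (hx : x = x') (hy : y = y') : Point.some x y h = Point.some x' y' h' := by
  subst hx hy
  rfl

/-- Duplication of an affine point `(x, y)`, the result being given by fractions. -/
theorem dbl_frac (a1 a2 a3 a4 : k) (e1 : W.a₁ = a1) (e2 : W.a₂ = a2) (e3 : W.a₃ = a3)
    (e4 : W.a₄ = a4) {x y : k} (h : W.Nonsingular x y) (Ln Ld x3n x3d y3n y3d : k)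
    (hLd : Ld ≠ 0) (h3d : x3d ≠ 0) (hy3d : y3d ≠ 0)
    (hψ : 2 * y + a1 * x + a3 ≠ 0)
    (HL : Ln * (2 * y + a1 * x + a3) = Ld * (3 * x ^ 2 + 2 * a2 * x + a4 - a1 * y))
    (HX : x3n * Ld ^ 2 = x3d * (Ln ^ 2 + a1 * Ln * Ld - a2 * Ld ^ 2 - 2 * x * Ld ^ 2))
    (HY : y3n * (Ld * x3d) =
      -y3d * (Ln * (x3n - x * x3d) + y * Ld * x3d + a1 * x3n * Ld + a3 * Ld * x3d)) :
    ∃ h₃ : W.Nonsingular (x3n / x3d) (y3n / y3d),
      Point.some x y h + Point.some x y h = Point.some _ _ h₃ := by
  subst e1 e2 e3 e4
  have hy : y ≠ W.negY x y := by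
    intro h0
    apply hψ
    rw [negY] at h0
    linear_combination h0
  have hden : y - W.negY x y ≠ 0 := sub_ne_zero.mpr hy
  have hden' : y - W.negY x y = 2 * y + W.a₁ * x + W.a₃ := by rw [negY]; ring
  have hL : W.slope x x y y = Ln / Ld := by
    rw [slope_of_Y_ne rfl hy, div_eq_div_iff hden hLd, hden']
    linear_combination -HL
  have hX : W.addX x x (W.slope x x y y) = x3n / x3d := by
    rw [hL, addX, eq_div_iff h3d]
    field_simp
    linear_combination -HX
  have hY : W.addY x x y (W.slope x x y y) = y3n / y3d := by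
    rw [addY, negY, negAddY, hX, hL, eq_div_iff hy3d]
    field_simp
    linear_combination -HY
  rw [Point.add_self_of_Y_ne hy]
  exact some_congr W _ hX hY

/-- Chord addition of an affine point `(xa, ya)` and an affine point with fractional coordinates,
the result being given by fractions. -/
theorem chord_frac (a1 a2 a3 : k) (e1 : W.a₁ = a1) (e2 : W.a₂ = a2) (e3 : W.a₃ = a3)
    {xa ya : k} (ha : W.Nonsingular xa ya) (x2n x2d y2n y2d : k) (h2d : x2d ≠ 0) (hy2d : y2d ≠ 0)
    (hb : W.Nonsingular (x2n / x2d) (y2n / y2d)) (Ln Ld x3n x3d y3n y3d : k)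
    (hLd : Ld ≠ 0) (h3d : x3d ≠ 0) (hy3d : y3d ≠ 0)
    (hx : xa * x2d - x2n ≠ 0)
    (HL : Ln * (xa * x2d - x2n) * y2d = Ld * (ya * y2d - y2n) * x2d)
    (HX : x3n * (Ld ^ 2 * x2d) =
      x3d * (Ln ^ 2 * x2d + a1 * Ln * Ld * x2d - a2 * Ld ^ 2 * x2d - xa * Ld ^ 2 * x2d
        - x2n * Ld ^ 2))
    (HY : y3n * (Ld * x3d) =
      -y3d * (Ln * (x3n - xa * x3d) + ya * Ld * x3d + a1 * x3n * Ld + a3 * Ld * x3d)) :
    ∃ h₃ : W.Nonsingular (x3n / x3d) (y3n / y3d),
      Point.some xa ya ha + Point.some _ _ hb = Point.some _ _ h₃ := by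
  subst e1 e2 e3
  have hne : xa ≠ x2n / x2d := by
    intro h0
    apply hx
    rw [h0, div_mul_cancel₀ _ h2d, sub_self]
  have hden : xa - x2n / x2d ≠ 0 := sub_ne_zero.mpr hne
  have hL : W.slope xa (x2n / x2d) ya (y2n / y2d) = Ln / Ld := by
    rw [slope_of_X_ne hne, div_eq_div_iff hden hLd]
    field_simp
    linear_combination -HL
  have hX : W.addX xa (x2n / x2d) (W.slope xa (x2n / x2d) ya (y2n / y2d)) = x3n / x3d := by
    rw [hL, addX, eq_div_iff h3d]
    field_simp
    linear_combination -HX
  have hY : W.addY xa (x2n / x2d) ya (W.slope xa (x2n / x2d) ya (y2n / y2d)) = y3n / y3d := by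
    rw [addY, negY, negAddY, hX, hL, eq_div_iff hy3d]
    field_simp
    linear_combination -HY
  rw [Point.add_of_X_ne hne]
  exact some_congr W _ hX hY

/-- Negation of an affine point with fractional coordinates. -/
theorem neg_frac (a1 a3 : k) (e1 : W.a₁ = a1) (e3 : W.a₃ = a3)
    (xn xd yn yd : k) (hxd : xd ≠ 0) (hyd : yd ≠ 0)
    (h : W.Nonsingular (xn / xd) (yn / yd)) :
    ∃ h' : W.Nonsingular (xn / xd) ((-yn * xd - a1 * xn * yd - a3 * yd * xd) / (yd * xd)),
      -Point.some _ _ h = Point.some _ _ h' := by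
  subst e1 e3
  rw [Point.neg_some]
  refine some_congr W _ rfl ?_
  rw [negY]
  field_simp

end Frac

section Smul

variable {G : Type*} [AddCommGroup G]

theorem one_zsmul_eq (P : G) : (1 : ℤ) • P = P := one_zsmul P

theorem two_zsmul_eq (P : G) : (2 : ℤ) • P = P + P := two_zsmul P

theorem three_zsmul_eq (P : G) : (3 : ℤ) • P = P + (P + P) := by
  rw [show (3 : ℤ) = 1 + 2 by norm_num, add_zsmul, one_zsmul, two_zsmul]

theorem neg_one_zsmul_eq (P : G) : (-1 : ℤ) • P = -P := by
  rw [neg_zsmul, one_zsmul]

theorem neg_two_zsmul_eq (P : G) : (-2 : ℤ) • P = -(P + P) := by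
  rw [neg_zsmul, two_zsmul]

theorem neg_three_zsmul_eq (P : G) : (-3 : ℤ) • P = -(P + (P + P)) := by
  rw [neg_zsmul, three_zsmul_eq]

end Smul

section Generic

variable {K : Type*} [Field K] [IsAlgClosed K] [DecidableEq K] (W : Affine K)

/-- The affine points with a given `x`-coordinate form a finite set. -/
theorem finite_fibre (x : K) :
    {P : W.Point | ∃ (y : K) (h : W.Nonsingular x y), P = Point.some x y h}.Finite := by
  by_cases hne : ∃ (y : K) (h : W.Nonsingular x y), True
  · obtain ⟨y₀, h₀, -⟩ := hne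
    refine Set.Finite.subset (Set.toFinite {Point.some x y₀ h₀, -Point.some x y₀ h₀}) ?_
    rintro P ⟨y, h, rfl⟩
    rcases (Point.X_eq_iff (h₁ := h) (h₂ := h₀)).mp rfl with e | e
    · exact Or.inl e
    · exact Or.inr e
  · convert Set.finite_empty
    ext P
    simp only [Set.mem_ofPred_eq, Set.mem_empty_iff_false, iff_false]
    rintro ⟨y, h, -⟩
    exact hne ⟨y, h, trivial⟩

/-- `E(K)` is infinite for `K` algebraically closed. -/
theorem infinite_point (hΔ : W.Δ ≠ 0) : Infinite W.Point := by
  have hex : ∀ x : K, ∃ y : K, W.Nonsingular x y := fun x =>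
    Fermat.Agent.Lib.TorsionCard.exists_point (W := W) hΔ x
  choose f hf using hex
  refine Infinite.of_injective (fun x : K => Point.some x (f x) (hf x)) ?_
  intro x x' hxx
  simp only [Point.some.injEq] at hxx
  exact hxx.1

/-- A subgroup with finite complement of an infinite additive group is everything. -/
theorem mem_of_finite_compl {G : Type*} [AddCommGroup G] [Infinite G] (H : AddSubgroup G)
    (hfin : {g : G | g ∉ H}.Finite) (g : G) : g ∈ H := by
  by_contra hg
  have hHfin : (H : Set G).Finite := by
    refine Set.Finite.of_finite_image (f := fun h => g + h) (Set.Finite.subset hfin ?_) ?_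
    · rintro _ ⟨h, hh, rfl⟩
      intro hgh
      exact hg (by simpa using H.sub_mem hgh hh)
    · intro a _ b _ hab
      exact add_left_cancel hab
  have huniv : (Set.univ : Set G).Finite := by
    refine Set.Finite.subset (hHfin.union hfin) ?_
    intro a _
    by_cases ha : a ∈ H
    · exact Or.inl ha
    · exact Or.inr ha
  exact Set.infinite_univ huniv

/-- An additive endomorphism of `E(K)` vanishing at all affine points whose `x`-coordinate is not
a root of a given nonzero polynomial vanishes identically. -/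
theorem eq_zero_of_generic (hΔ : W.Δ ≠ 0) (ψ : W.Point →+ W.Point) (Q : Polynomial K)
    (hQ : Q ≠ 0)
    (hgen : ∀ (x y : K) (h : W.Nonsingular x y), Q.eval x ≠ 0 → ψ (Point.some x y h) = 0)
    (P : W.Point) : ψ P = 0 := by
  have := infinite_point W hΔ
  have hfin : {g : W.Point | g ∉ ψ.ker}.Finite := by
    have hsub : {g : W.Point | g ∉ ψ.ker} ⊆
        ⋃ x ∈ {x : K | Q.IsRoot x},
          {P : W.Point | ∃ (y : K) (h : W.Nonsingular x y), P = Point.some x y h} := by
      intro g hg
      rcases g with _ | ⟨x, y, h⟩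
      · exact absurd (ψ.ker.zero_mem) hg
      · have hx : Q.eval x = 0 := by
          by_contra hx
          exact hg (AddMonoidHom.mem_ker.mpr (hgen x y h hx))
        exact Set.mem_biUnion (show x ∈ {x : K | Q.IsRoot x} from hx) ⟨y, h, rfl⟩
    exact Set.Finite.subset
      (Set.Finite.biUnion (Polynomial.finite_setOfPred_isRoot hQ) fun x _ => finite_fibre W x) hsub
  exact AddMonoidHom.mem_ker.mp (mem_of_finite_compl ψ.ker hfin P)

end Generic

end Fermat.Agent.S58.FQS.Basic
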