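import Mathlib
import Fermat.Agent.S58.FQS.Basic

/-!
# S58 / [FQ-small] — the Frobenius quadratic equation on the normal forms in characteristic 2

Machine-generated certificates (owner: helper11).  For each Weierstrass normal form over `𝔽_2`
(`y² + xy = x³ + a₂x² + 1`, `y² + y = x³ + a₄x + a₆`) with `#E(𝔽_2) = 2 + 1 - a`:

* `gen_*`: for a generic affine point `P = (x, y)`, the explicit duplication and one chord
  addition give `φ² P + 2 P = φ (a P)`; every step is a polynomial identity modulo the curve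
  equation and `2`, closed by `linear_combination`;
* `quad_*`: the relation `φ² - a φ + 2 = 0` on all of `E(K)`, `K` algebraically closed
  (`Basic.eq_zero_of_generic`).
-/

set_option autoImplicit false
set_option linter.unusedVariables false

namespace Fermat.Agent.S58.FQS.Char2

open WeierstrassCurve WeierstrassCurve.Affine Fermat.Agent.S58.FQS.Basic

/-- generic point computation for `c2o0` (`p = 2`, `#E(𝔽_p) = 4`, trace `-1`). -/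
theorem gen_c2o0 {k : Type*} [Field k] [DecidableEq k] (W : WeierstrassCurve k)
    (h1 : W.a₁ = 1) (h2 : W.a₂ = 0) (h3 : W.a₃ = 0) (h4 : W.a₄ = 0) (h6 : W.a₆ = 1)
    (hp : (2 : k) = 0) (φ : W.toAffine.Point →+ W.toAffine.Point)
    (hφ : ∀ (x y : k) (h : W.toAffine.Nonsingular x y),
      ∃ h' : W.toAffine.Nonsingular (x ^ 2) (y ^ 2), φ (Point.some x y h) = Point.some _ _ h')
    (x y : k) (h : W.toAffine.Nonsingular x y)
    (hg1 : x ≠ 0)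
    (hg2 : x ^ 3 + x ^ 2 + 1 ≠ 0)
    : φ (φ (Point.some x y h)) - (-1 : ℤ) • φ (Point.some x y h) + (2 : ℤ) • Point.some x y h = 0 := by
  have hE : y ^ 2 + 1 * x * y + 0 * y = x ^ 3 + 0 * x ^ 2 + 0 * x + 1 := by
    have := (W.toAffine.equation_iff x y).mp h.1
    rwa [h1, h2, h3, h4, h6] at this
  obtain ⟨hD, eD⟩ := dbl_frac W.toAffine 1 0 0 0 h1 h2 h3 h4 h
    (y + x ^ 2) x (x ^ 4 + 1) (x ^ 2) (x ^ 4 * y + y + x ^ 6 + x ^ 2 + x) (x ^ 3)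
    hg1 (pow_ne_zero 2 hg1) (pow_ne_zero 3 hg1)
    (fun h0 => hg1 (by linear_combination (1) * h0 + (-y) * hp))
    (by linear_combination (2) * hE + (x ^ 2 * y + 1) * hp)
    (by linear_combination (-x ^ 2) * hE + (-x ^ 4 * y) * hp)
    (by linear_combination (x ^ 7 * y + x ^ 3 * y + x ^ 9 + x ^ 5 + x ^ 4) * hp)
  obtain ⟨hF1, eF1⟩ := hφ x y h
  obtain ⟨hF2, eF2⟩ := hφ _ _ hF1
  obtain ⟨hC, eC⟩ := chord_frac W.toAffine 1 0 0 h1 h2 h3 hF2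
    (x ^ 4 + 1) (x ^ 2) (x ^ 4 * y + y + x ^ 6 + x ^ 2 + x) (x ^ 3) (pow_ne_zero 2 hg1) (pow_ne_zero 3 hg1) hD
    (y + x ^ 3 + x ^ 2 + x) x (x ^ 2) 1 (((-(y ^ 2)) - (1 * (x ^ 2))) - 0) 1
    hg1 one_ne_zero one_ne_zero
    (fun h0 => (pow_ne_zero 2 hg2) (by linear_combination (1) * h0 + (x ^ 5 + x ^ 4 + x ^ 3 + x ^ 2 + 1) * hp))
    (by linear_combination (-x ^ 6 * y ^ 2 + x ^ 7 * y - x ^ 9 - x ^ 8 - x ^ 6) * hE + (x ^ 10 * y + x ^ 9 * y + x ^ 7 * y - x ^ 9 - x ^ 8 - x ^ 6) * hp)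
    (by linear_combination (-x ^ 2) * hE + (-x ^ 5 * y - x ^ 4 * y - x ^ 3 * y - x ^ 7 - x ^ 6 - 2 * x ^ 5 - x ^ 4) * hp)
    (by linear_combination (x * y ^ 2 - x ^ 2 * y + x ^ 4 + x ^ 3) * hE + (-x ^ 5 * y - x ^ 4 * y + x ^ 4 + x ^ 3) * hp)
  have key : φ (φ (Point.some x y h)) + (2 : ℤ) • Point.some x y h = (-1 : ℤ) • φ (Point.some x y h) := by
    rw [← map_zsmul φ, two_zsmul_eq, neg_one_zsmul_eq]
    rw [eD, map_neg, eF1, eF2, eC, Point.neg_some]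
    refine some_eq_some W.toAffine _ _ (div_one _) ?_
    rw [div_one, negY, h1, h3]
  rw [sub_add_eq_add_sub, key, sub_self]

/-- The Frobenius quadratic equation on `c2o0` (`p = 2`, trace `-1`). -/
theorem quad_c2o0 {K : Type*} [Field K] [IsAlgClosed K] [DecidableEq K] (W : WeierstrassCurve K)
    (h1 : W.a₁ = 1) (h2 : W.a₂ = 0) (h3 : W.a₃ = 0) (h4 : W.a₄ = 0) (h6 : W.a₆ = 1)
    (hΔ : W.Δ ≠ 0) (hp : (2 : K) = 0) (φ : W.toAffine.Point →+ W.toAffine.Point)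
    (hφ : ∀ (x y : K) (h : W.toAffine.Nonsingular x y),
      ∃ h' : W.toAffine.Nonsingular (x ^ 2) (y ^ 2), φ (Point.some x y h) = Point.some _ _ h')
    (P : W.toAffine.Point) :
    φ (φ P) - (-1 : ℤ) • φ P + (2 : ℤ) • P = 0 := by
  refine eq_zero_of_generic W.toAffine hΔ
    (φ.comp φ - (-1 : ℤ) • φ + (2 : ℤ) • AddMonoidHom.id _)
    ((Polynomial.X : Polynomial K) * (Polynomial.X ^ 3 + Polynomial.X ^ 2 + 1 : Polynomial K))
    (Polynomial.Monic.ne_zero (Polynomial.Monic.mul (by monicity! : Polynomial.Monic (Polynomial.X : Polynomial K)) (by monicity! : Polynomial.Monic (Polynomial.X ^ 3 + Polynomial.X ^ 2 + 1 : Polynomial K)))) (fun x y h hx => ?_) P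
  have hx' := hx
  rw [Polynomial.eval_mul] at hx'
  have q2 := right_ne_zero_of_mul hx'
  replace hx' := left_ne_zero_of_mul hx'
  have q1 := hx'
  have e1 : Polynomial.eval x (Polynomial.X : Polynomial K) = x := by simp
  rw [e1] at q1
  have e2 : Polynomial.eval x (Polynomial.X ^ 3 + Polynomial.X ^ 2 + 1 : Polynomial K) = x ^ 3 + x ^ 2 + 1 := by simp
  rw [e2] at q2
  exact gen_c2o0 W h1 h2 h3 h4 h6 hp φ hφ x y h q1 q2

/-- generic point computation for `c2o1` (`p = 2`, `#E(𝔽_p) = 2`, trace `1`). -/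
theorem gen_c2o1 {k : Type*} [Field k] [DecidableEq k] (W : WeierstrassCurve k)
    (h1 : W.a₁ = 1) (h2 : W.a₂ = 1) (h3 : W.a₃ = 0) (h4 : W.a₄ = 0) (h6 : W.a₆ = 1)
    (hp : (2 : k) = 0) (φ : W.toAffine.Point →+ W.toAffine.Point)
    (hφ : ∀ (x y : k) (h : W.toAffine.Nonsingular x y),
      ∃ h' : W.toAffine.Nonsingular (x ^ 2) (y ^ 2), φ (Point.some x y h) = Point.some _ _ h')
    (x y : k) (h : W.toAffine.Nonsingular x y)
    (hg1 : x ≠ 0)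
    (hg2 : x ^ 3 + x ^ 2 + 1 ≠ 0)
    : φ (φ (Point.some x y h)) - (1 : ℤ) • φ (Point.some x y h) + (2 : ℤ) • Point.some x y h = 0 := by
  have hE : y ^ 2 + 1 * x * y + 0 * y = x ^ 3 + 1 * x ^ 2 + 0 * x + 1 := by
    have := (W.toAffine.equation_iff x y).mp h.1
    rwa [h1, h2, h3, h4, h6] at this
  obtain ⟨hD, eD⟩ := dbl_frac W.toAffine 1 1 0 0 h1 h2 h3 h4 h
    (y + x ^ 2) x (x ^ 4 + 1) (x ^ 2) (x ^ 4 * y + y + x ^ 6 + x ^ 2 + x) (x ^ 3)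
    hg1 (pow_ne_zero 2 hg1) (pow_ne_zero 3 hg1)
    (fun h0 => hg1 (by linear_combination (1) * h0 + (-y) * hp))
    (by linear_combination (2) * hE + (x ^ 2 * y + 1) * hp)
    (by linear_combination (-x ^ 2) * hE + (-x ^ 4 * y) * hp)
    (by linear_combination (x ^ 7 * y + x ^ 3 * y + x ^ 9 + x ^ 5 + x ^ 4) * hp)
  obtain ⟨hF1, eF1⟩ := hφ x y h
  obtain ⟨hF2, eF2⟩ := hφ _ _ hF1
  obtain ⟨hC, eC⟩ := chord_frac W.toAffine 1 1 0 h1 h2 h3 hF2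
    (x ^ 4 + 1) (x ^ 2) (x ^ 4 * y + y + x ^ 6 + x ^ 2 + x) (x ^ 3) (pow_ne_zero 2 hg1) (pow_ne_zero 3 hg1) hD
    (y + x ^ 3 + x ^ 2 + x) x (x ^ 2) 1 (y ^ 2) 1
    hg1 one_ne_zero one_ne_zero
    (fun h0 => (pow_ne_zero 2 hg2) (by linear_combination (1) * h0 + (x ^ 5 + x ^ 4 + x ^ 3 + x ^ 2 + 1) * hp))
    (by linear_combination (-x ^ 6 * y ^ 2 + x ^ 7 * y - x ^ 9 - 2 * x ^ 8 - x ^ 6) * hE + (x ^ 10 * y + 2 * x ^ 9 * y + x ^ 7 * y - x ^ 11 - x ^ 10 - x ^ 9 - 2 * x ^ 8 - x ^ 6) * hp)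
    (by linear_combination (-x ^ 2) * hE + (-x ^ 5 * y - x ^ 4 * y - x ^ 3 * y - x ^ 7 - x ^ 6 - 2 * x ^ 5 - x ^ 4) * hp)
    (by linear_combination (x * y ^ 2 - x ^ 2 * y + x ^ 4 + 2 * x ^ 3 + 2 * x) * hE + (-x ^ 5 * y - 2 * x ^ 4 * y - x ^ 2 * y + x ^ 6 + x ^ 5 + 2 * x ^ 4 + 3 * x ^ 3 + x) * hp)
  have key : φ (φ (Point.some x y h)) + (2 : ℤ) • Point.some x y h = (1 : ℤ) • φ (Point.some x y h) := by
    rw [← map_zsmul φ, two_zsmul_eq, one_zsmul_eq]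
    rw [eD, eF1, eF2, eC]
    exact some_eq_some W.toAffine _ _ (div_one _) (div_one _)
  rw [sub_add_eq_add_sub, key, sub_self]

/-- The Frobenius quadratic equation on `c2o1` (`p = 2`, trace `1`). -/
theorem quad_c2o1 {K : Type*} [Field K] [IsAlgClosed K] [DecidableEq K] (W : WeierstrassCurve K)
    (h1 : W.a₁ = 1) (h2 : W.a₂ = 1) (h3 : W.a₃ = 0) (h4 : W.a₄ = 0) (h6 : W.a₆ = 1)
    (hΔ : W.Δ ≠ 0) (hp : (2 : K) = 0) (φ : W.toAffine.Point →+ W.toAffine.Point)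
    (hφ : ∀ (x y : K) (h : W.toAffine.Nonsingular x y),
      ∃ h' : W.toAffine.Nonsingular (x ^ 2) (y ^ 2), φ (Point.some x y h) = Point.some _ _ h')
    (P : W.toAffine.Point) :
    φ (φ P) - (1 : ℤ) • φ P + (2 : ℤ) • P = 0 := by
  refine eq_zero_of_generic W.toAffine hΔ
    (φ.comp φ - (1 : ℤ) • φ + (2 : ℤ) • AddMonoidHom.id _)
    ((Polynomial.X : Polynomial K) * (Polynomial.X ^ 3 + Polynomial.X ^ 2 + 1 : Polynomial K))
    (Polynomial.Monic.ne_zero (Polynomial.Monic.mul (by monicity! : Polynomial.Monic (Polynomial.X : Polynomial K)) (by monicity! : Polynomial.Monic (Polynomial.X ^ 3 + Polynomial.X ^ 2 + 1 : Polynomial K)))) (fun x y h hx => ?_) P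
  have hx' := hx
  rw [Polynomial.eval_mul] at hx'
  have q2 := right_ne_zero_of_mul hx'
  replace hx' := left_ne_zero_of_mul hx'
  have q1 := hx'
  have e1 : Polynomial.eval x (Polynomial.X : Polynomial K) = x := by simp
  rw [e1] at q1
  have e2 : Polynomial.eval x (Polynomial.X ^ 3 + Polynomial.X ^ 2 + 1 : Polynomial K) = x ^ 3 + x ^ 2 + 1 := by simp
  rw [e2] at q2
  exact gen_c2o1 W h1 h2 h3 h4 h6 hp φ hφ x y h q1 q2

/-- generic point computation for `c2s00` (`p = 2`, `#E(𝔽_p) = 3`, trace `0`). -/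
theorem gen_c2s00 {k : Type*} [Field k] [DecidableEq k] (W : WeierstrassCurve k)
    (h1 : W.a₁ = 0) (h2 : W.a₂ = 0) (h3 : W.a₃ = 1) (h4 : W.a₄ = 0) (h6 : W.a₆ = 0)
    (hp : (2 : k) = 0) (φ : W.toAffine.Point →+ W.toAffine.Point)
    (hφ : ∀ (x y : k) (h : W.toAffine.Nonsingular x y),
      ∃ h' : W.toAffine.Nonsingular (x ^ 2) (y ^ 2), φ (Point.some x y h) = Point.some _ _ h')
    (x y : k) (h : W.toAffine.Nonsingular x y)
    : φ (φ (Point.some x y h)) - (0 : ℤ) • φ (Point.some x y h) + (2 : ℤ) • Point.some x y h = 0 := by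
  have hE : y ^ 2 + 0 * x * y + 1 * y = x ^ 3 + 0 * x ^ 2 + 0 * x + 0 := by
    have := (W.toAffine.equation_iff x y).mp h.1
    rwa [h1, h2, h3, h4, h6] at this
  obtain ⟨hD, eD⟩ := dbl_frac W.toAffine 0 0 1 0 h1 h2 h3 h4 h
    (x ^ 2) 1 ((x ^ 2) ^ 2) 1 (((-((y ^ 2) ^ 2)) - (0 * ((x ^ 2) ^ 2))) - 1) 1
    one_ne_zero one_ne_zero one_ne_zero
    (fun h0 => (one_ne_zero (α := k)) (by linear_combination (1) * h0 + (-y) * hp))
    (by linear_combination (x ^ 2 * y - x ^ 2) * hp)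
    (by linear_combination (x) * hp)
    (by linear_combination (-y ^ 2 + y - x ^ 3 - 1) * hE + (x ^ 3 * y + y - x ^ 3) * hp)
  obtain ⟨hF1, eF1⟩ := hφ x y h
  obtain ⟨hF2, eF2⟩ := hφ _ _ hF1
  have key : (2 : ℤ) • Point.some x y h = -φ (φ (Point.some x y h)) := by
    rw [two_zsmul_eq, eD, eF1, eF2, Point.neg_some]
    refine some_eq_some W.toAffine _ _ (div_one _) ?_
    rw [div_one, negY, h1, h3]
  rw [key]
  abel

/-- The Frobenius quadratic equation on `c2s00` (`p = 2`, trace `0`). -/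
theorem quad_c2s00 {K : Type*} [Field K] [IsAlgClosed K] [DecidableEq K] (W : WeierstrassCurve K)
    (h1 : W.a₁ = 0) (h2 : W.a₂ = 0) (h3 : W.a₃ = 1) (h4 : W.a₄ = 0) (h6 : W.a₆ = 0)
    (hΔ : W.Δ ≠ 0) (hp : (2 : K) = 0) (φ : W.toAffine.Point →+ W.toAffine.Point)
    (hφ : ∀ (x y : K) (h : W.toAffine.Nonsingular x y),
      ∃ h' : W.toAffine.Nonsingular (x ^ 2) (y ^ 2), φ (Point.some x y h) = Point.some _ _ h')
    (P : W.toAffine.Point) :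
    φ (φ P) - (0 : ℤ) • φ P + (2 : ℤ) • P = 0 := by
  refine eq_zero_of_generic W.toAffine hΔ
    (φ.comp φ - (0 : ℤ) • φ + (2 : ℤ) • AddMonoidHom.id _)
    (1 : Polynomial K)
    one_ne_zero (fun x y h hx => ?_) P
  exact gen_c2s00 W h1 h2 h3 h4 h6 hp φ hφ x y h 

/-- generic point computation for `c2s01` (`p = 2`, `#E(𝔽_p) = 3`, trace `0`). -/
theorem gen_c2s01 {k : Type*} [Field k] [DecidableEq k] (W : WeierstrassCurve k)
    (h1 : W.a₁ = 0) (h2 : W.a₂ = 0) (h3 : W.a₃ = 1) (h4 : W.a₄ = 0) (h6 : W.a₆ = 1)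
    (hp : (2 : k) = 0) (φ : W.toAffine.Point →+ W.toAffine.Point)
    (hφ : ∀ (x y : k) (h : W.toAffine.Nonsingular x y),
      ∃ h' : W.toAffine.Nonsingular (x ^ 2) (y ^ 2), φ (Point.some x y h) = Point.some _ _ h')
    (x y : k) (h : W.toAffine.Nonsingular x y)
    : φ (φ (Point.some x y h)) - (0 : ℤ) • φ (Point.some x y h) + (2 : ℤ) • Point.some x y h = 0 := by
  have hE : y ^ 2 + 0 * x * y + 1 * y = x ^ 3 + 0 * x ^ 2 + 0 * x + 1 := by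
    have := (W.toAffine.equation_iff x y).mp h.1
    rwa [h1, h2, h3, h4, h6] at this
  obtain ⟨hD, eD⟩ := dbl_frac W.toAffine 0 0 1 0 h1 h2 h3 h4 h
    (x ^ 2) 1 ((x ^ 2) ^ 2) 1 (((-((y ^ 2) ^ 2)) - (0 * ((x ^ 2) ^ 2))) - 1) 1
    one_ne_zero one_ne_zero one_ne_zero
    (fun h0 => (one_ne_zero (α := k)) (by linear_combination (1) * h0 + (-y) * hp))
    (by linear_combination (x ^ 2 * y - x ^ 2) * hp)
    (by linear_combination (x) * hp)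
    (by linear_combination (-y ^ 2 + y - x ^ 3 - 2) * hE + (x ^ 3 * y + 2 * y - 2 * x ^ 3 - 1) * hp)
  obtain ⟨hF1, eF1⟩ := hφ x y h
  obtain ⟨hF2, eF2⟩ := hφ _ _ hF1
  have key : (2 : ℤ) • Point.some x y h = -φ (φ (Point.some x y h)) := by
    rw [two_zsmul_eq, eD, eF1, eF2, Point.neg_some]
    refine some_eq_some W.toAffine _ _ (div_one _) ?_
    rw [div_one, negY, h1, h3]
  rw [key]
  abel

/-- The Frobenius quadratic equation on `c2s01` (`p = 2`, trace `0`). -/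
theorem quad_c2s01 {K : Type*} [Field K] [IsAlgClosed K] [DecidableEq K] (W : WeierstrassCurve K)
    (h1 : W.a₁ = 0) (h2 : W.a₂ = 0) (h3 : W.a₃ = 1) (h4 : W.a₄ = 0) (h6 : W.a₆ = 1)
    (hΔ : W.Δ ≠ 0) (hp : (2 : K) = 0) (φ : W.toAffine.Point →+ W.toAffine.Point)
    (hφ : ∀ (x y : K) (h : W.toAffine.Nonsingular x y),
      ∃ h' : W.toAffine.Nonsingular (x ^ 2) (y ^ 2), φ (Point.some x y h) = Point.some _ _ h')
    (P : W.toAffine.Point) :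
    φ (φ P) - (0 : ℤ) • φ P + (2 : ℤ) • P = 0 := by
  refine eq_zero_of_generic W.toAffine hΔ
    (φ.comp φ - (0 : ℤ) • φ + (2 : ℤ) • AddMonoidHom.id _)
    (1 : Polynomial K)
    one_ne_zero (fun x y h hx => ?_) P
  exact gen_c2s01 W h1 h2 h3 h4 h6 hp φ hφ x y h 

/-- generic point computation for `c2s10` (`p = 2`, `#E(𝔽_p) = 5`, trace `-2`). -/
theorem gen_c2s10 {k : Type*} [Field k] [DecidableEq k] (W : WeierstrassCurve k)
    (h1 : W.a₁ = 0) (h2 : W.a₂ = 0) (h3 : W.a₃ = 1) (h4 : W.a₄ = 1) (h6 : W.a₆ = 0)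
    (hp : (2 : k) = 0) (φ : W.toAffine.Point →+ W.toAffine.Point)
    (hφ : ∀ (x y : k) (h : W.toAffine.Nonsingular x y),
      ∃ h' : W.toAffine.Nonsingular (x ^ 2) (y ^ 2), φ (Point.some x y h) = Point.some _ _ h')
    (x y : k) (h : W.toAffine.Nonsingular x y)
    : φ (φ (Point.some x y h)) - (-2 : ℤ) • φ (Point.some x y h) + (2 : ℤ) • Point.some x y h = 0 := by
  have hE : y ^ 2 + 0 * x * y + 1 * y = x ^ 3 + 0 * x ^ 2 + 1 * x + 0 := by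
    have := (W.toAffine.equation_iff x y).mp h.1
    rwa [h1, h2, h3, h4, h6] at this
  obtain ⟨hD, eD⟩ := dbl_frac W.toAffine 0 0 1 1 h1 h2 h3 h4 h
    (x ^ 2 + 1) 1 (x ^ 4 + 1) 1 (y + x ^ 6 + x ^ 4 + x ^ 3 + x ^ 2 + x) 1
    one_ne_zero one_ne_zero one_ne_zero
    (fun h0 => (one_ne_zero (α := k)) (by linear_combination (1) * h0 + (-y) * hp))
    (by linear_combination (x ^ 2 * y + y - x ^ 2) * hp)
    (by linear_combination (-x ^ 2 + x) * hp)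
    (by linear_combination (y + x ^ 6 + x ^ 4 + x ^ 2 + 1) * hp)
  obtain ⟨hF1, eF1⟩ := hφ x y h
  obtain ⟨hF2, eF2⟩ := hφ _ _ hF1
  obtain ⟨hFm, eFm⟩ := hφ _ _ hD
  obtain ⟨hFm', eFm'⟩ := some_congr W.toAffine hFm (div_pow _ _ _) (div_pow _ _ _)
  obtain ⟨hN, eN⟩ := neg_frac W.toAffine 0 1 h1 h3 ((x ^ 4 + 1) ^ 2) (1 ^ 2) ((y + x ^ 6 + x ^ 4 + x ^ 3 + x ^ 2 + x) ^ 2) (1 ^ 2) (pow_ne_zero 2 one_ne_zero) (pow_ne_zero 2 one_ne_zero) hFm'
  obtain ⟨hC, eC⟩ := chord_frac W.toAffine 0 0 1 h1 h2 h3 hF2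
    (x ^ 4 + 1) 1 (y + x ^ 6 + x ^ 4 + x ^ 3 + x ^ 2 + x) 1 one_ne_zero one_ne_zero hD
    (x ^ 4) 1 ((x ^ 4 + 1) ^ 2) (1 ^ 2) ((((-((y + x ^ 6 + x ^ 4 + x ^ 3 + x ^ 2 + x) ^ 2)) * (1 ^ 2)) - ((0 * ((x ^ 4 + 1) ^ 2)) * (1 ^ 2))) - ((1 * (1 ^ 2)) * (1 ^ 2))) ((1 ^ 2) * (1 ^ 2))
    one_ne_zero (pow_ne_zero 2 one_ne_zero) (mul_ne_zero (pow_ne_zero 2 one_ne_zero) (pow_ne_zero 2 one_ne_zero))
    (fun h0 => (one_ne_zero (α := k)) (by linear_combination (1) * h0 + (1) * hp))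
    (by linear_combination (-y ^ 2 + y - x ^ 3 - x - 1) * hE + (x ^ 3 * y + x * y + y - x ^ 4) * hp)
    (by linear_combination (2 * x ^ 4 + 1) * hp)
    (by linear_combination (y ^ 2 - y + x ^ 3 + x) * hE + (-x ^ 6 * y - x ^ 4 * y - 2 * x ^ 3 * y - x ^ 2 * y - 2 * x * y - x ^ 10 - x ^ 9 - x ^ 8 - 2 * x ^ 7 - x ^ 6 - 2 * x ^ 5 - x ^ 3) * hp)
  have key : φ (φ (Point.some x y h)) + (2 : ℤ) • Point.some x y h = (-2 : ℤ) • φ (Point.some x y h) := by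
    rw [← map_zsmul φ, two_zsmul_eq, neg_two_zsmul_eq]
    rw [eD, map_neg, eFm, eFm', eN, eF1, eF2, eC]
  rw [sub_add_eq_add_sub, key, sub_self]

/-- The Frobenius quadratic equation on `c2s10` (`p = 2`, trace `-2`). -/
theorem quad_c2s10 {K : Type*} [Field K] [IsAlgClosed K] [DecidableEq K] (W : WeierstrassCurve K)
    (h1 : W.a₁ = 0) (h2 : W.a₂ = 0) (h3 : W.a₃ = 1) (h4 : W.a₄ = 1) (h6 : W.a₆ = 0)
    (hΔ : W.Δ ≠ 0) (hp : (2 : K) = 0) (φ : W.toAffine.Point →+ W.toAffine.Point)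
    (hφ : ∀ (x y : K) (h : W.toAffine.Nonsingular x y),
      ∃ h' : W.toAffine.Nonsingular (x ^ 2) (y ^ 2), φ (Point.some x y h) = Point.some _ _ h')
    (P : W.toAffine.Point) :
    φ (φ P) - (-2 : ℤ) • φ P + (2 : ℤ) • P = 0 := by
  refine eq_zero_of_generic W.toAffine hΔ
    (φ.comp φ - (-2 : ℤ) • φ + (2 : ℤ) • AddMonoidHom.id _)
    (1 : Polynomial K)
    one_ne_zero (fun x y h hx => ?_) P
  exact gen_c2s10 W h1 h2 h3 h4 h6 hp φ hφ x y h 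

/-- generic point computation for `c2s11` (`p = 2`, `#E(𝔽_p) = 1`, trace `2`). -/
theorem gen_c2s11 {k : Type*} [Field k] [DecidableEq k] (W : WeierstrassCurve k)
    (h1 : W.a₁ = 0) (h2 : W.a₂ = 0) (h3 : W.a₃ = 1) (h4 : W.a₄ = 1) (h6 : W.a₆ = 1)
    (hp : (2 : k) = 0) (φ : W.toAffine.Point →+ W.toAffine.Point)
    (hφ : ∀ (x y : k) (h : W.toAffine.Nonsingular x y),
      ∃ h' : W.toAffine.Nonsingular (x ^ 2) (y ^ 2), φ (Point.some x y h) = Point.some _ _ h')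
    (x y : k) (h : W.toAffine.Nonsingular x y)
    : φ (φ (Point.some x y h)) - (2 : ℤ) • φ (Point.some x y h) + (2 : ℤ) • Point.some x y h = 0 := by
  have hE : y ^ 2 + 0 * x * y + 1 * y = x ^ 3 + 0 * x ^ 2 + 1 * x + 1 := by
    have := (W.toAffine.equation_iff x y).mp h.1
    rwa [h1, h2, h3, h4, h6] at this
  obtain ⟨hD, eD⟩ := dbl_frac W.toAffine 0 0 1 1 h1 h2 h3 h4 h
    (x ^ 2 + 1) 1 (x ^ 4 + 1) 1 (y + x ^ 6 + x ^ 4 + x ^ 3 + x ^ 2 + x) 1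
    one_ne_zero one_ne_zero one_ne_zero
    (fun h0 => (one_ne_zero (α := k)) (by linear_combination (1) * h0 + (-y) * hp))
    (by linear_combination (x ^ 2 * y + y - x ^ 2) * hp)
    (by linear_combination (-x ^ 2 + x) * hp)
    (by linear_combination (y + x ^ 6 + x ^ 4 + x ^ 2 + 1) * hp)
  obtain ⟨hF1, eF1⟩ := hφ x y h
  obtain ⟨hF2, eF2⟩ := hφ _ _ hF1
  obtain ⟨hFm, eFm⟩ := hφ _ _ hD
  obtain ⟨hFm', eFm'⟩ := some_congr W.toAffine hFm (div_pow _ _ _) (div_pow _ _ _)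
  obtain ⟨hC, eC⟩ := chord_frac W.toAffine 0 0 1 h1 h2 h3 hF2
    (x ^ 4 + 1) 1 (y + x ^ 6 + x ^ 4 + x ^ 3 + x ^ 2 + x) 1 one_ne_zero one_ne_zero hD
    (x ^ 4) 1 ((x ^ 4 + 1) ^ 2) (1 ^ 2) ((y + x ^ 6 + x ^ 4 + x ^ 3 + x ^ 2 + x) ^ 2) (1 ^ 2)
    one_ne_zero (pow_ne_zero 2 one_ne_zero) (pow_ne_zero 2 one_ne_zero)
    (fun h0 => (one_ne_zero (α := k)) (by linear_combination (1) * h0 + (1) * hp))
    (by linear_combination (-y ^ 2 + y - x ^ 3 - x - 2) * hE + (x ^ 3 * y + x * y + 2 * y - x ^ 4 - x ^ 3 - x - 1) * hp)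
    (by linear_combination (2 * x ^ 4 + 1) * hp)
    (by linear_combination (y ^ 2 - y + x ^ 3 + x + 3) * hE + (x ^ 6 * y + x ^ 4 * y + x ^ 2 * y - 2 * y + x ^ 12 + x ^ 10 + x ^ 9 + 2 * x ^ 8 + 2 * x ^ 7 + 2 * x ^ 6 + 2 * x ^ 5 + 3 * x ^ 4 + 3 * x ^ 3 + x ^ 2 + 2 * x + 2) * hp)
  have key : φ (φ (Point.some x y h)) + (2 : ℤ) • Point.some x y h = (2 : ℤ) • φ (Point.some x y h) := by
    rw [← map_zsmul φ, two_zsmul_eq]
    rw [eD, eFm, eFm', eF1, eF2, eC]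
  rw [sub_add_eq_add_sub, key, sub_self]

/-- The Frobenius quadratic equation on `c2s11` (`p = 2`, trace `2`). -/
theorem quad_c2s11 {K : Type*} [Field K] [IsAlgClosed K] [DecidableEq K] (W : WeierstrassCurve K)
    (h1 : W.a₁ = 0) (h2 : W.a₂ = 0) (h3 : W.a₃ = 1) (h4 : W.a₄ = 1) (h6 : W.a₆ = 1)
    (hΔ : W.Δ ≠ 0) (hp : (2 : K) = 0) (φ : W.toAffine.Point →+ W.toAffine.Point)
    (hφ : ∀ (x y : K) (h : W.toAffine.Nonsingular x y),
      ∃ h' : W.toAffine.Nonsingular (x ^ 2) (y ^ 2), φ (Point.some x y h) = Point.some _ _ h')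
    (P : W.toAffine.Point) :
    φ (φ P) - (2 : ℤ) • φ P + (2 : ℤ) • P = 0 := by
  refine eq_zero_of_generic W.toAffine hΔ
    (φ.comp φ - (2 : ℤ) • φ + (2 : ℤ) • AddMonoidHom.id _)
    (1 : Polynomial K)
    one_ne_zero (fun x y h hx => ?_) P
  exact gen_c2s11 W h1 h2 h3 h4 h6 hp φ hφ x y h 

end Fermat.Agent.S58.FQS.Char2
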