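import Mathlib
import Fermat.Agent.S58.FQS.Basic

/-!
# S58 / [FQ-small] — the Frobenius quadratic equation on the normal forms in characteristic 3

Machine-generated certificates (owner: helper11).  For each Weierstrass normal form over `𝔽_3`
(`y² = x³ ± x² ± 1`) with `#E(𝔽_3) = 3 + 1 - a`:

* `gen_*`: for a generic affine point `P = (x, y)`, the explicit duplication and triplication and one chord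
  addition give `φ² P + 3 P = φ (a P)`; every step is a polynomial identity modulo the curve
  equation and `3`, closed by `linear_combination`;
* `quad_*`: the relation `φ² - a φ + 3 = 0` on all of `E(K)`, `K` algebraically closed
  (`Basic.eq_zero_of_generic`).
-/

set_option autoImplicit false
set_option linter.unusedVariables false

namespace Fermat.Agent.S58.FQS.Char3Ord

open WeierstrassCurve WeierstrassCurve.Affine Fermat.Agent.S58.FQS.Basic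

/-- generic point computation for `c3o11` (`p = 3`, `#E(𝔽_p) = 6`, trace `-2`). -/
theorem gen_c3o11 {k : Type*} [Field k] [DecidableEq k] (W : WeierstrassCurve k)
    (h1 : W.a₁ = 0) (h2 : W.a₂ = 1) (h3 : W.a₃ = 0) (h4 : W.a₄ = 0) (h6 : W.a₆ = 1)
    (hp : (3 : k) = 0) (φ : W.toAffine.Point →+ W.toAffine.Point)
    (hφ : ∀ (x y : k) (h : W.toAffine.Nonsingular x y),
      ∃ h' : W.toAffine.Nonsingular (x ^ 3) (y ^ 3), φ (Point.some x y h) = Point.some _ _ h')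
    (x y : k) (h : W.toAffine.Nonsingular x y)
    (hg1 : x - 1 ≠ 0)
    (hg2 : x ^ 2 - x - 1 ≠ 0)
    (hg3 : x + 1 ≠ 0)
    (hg4 : x ^ 2 + x - 1 ≠ 0)
    : φ (φ (Point.some x y h)) - (-2 : ℤ) • φ (Point.some x y h) + (3 : ℤ) • Point.some x y h = 0 := by
  have hE : y ^ 2 + 0 * x * y + 0 * y = x ^ 3 + 1 * x ^ 2 + 0 * x + 1 := by
    have := (W.toAffine.equation_iff x y).mp h.1
    rwa [h1, h2, h3, h4, h6] at this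
  obtain ⟨hD, eD⟩ := dbl_frac W.toAffine 0 1 0 0 h1 h2 h3 h4 h
    (x * y) ((x - 1) * (x ^ 2 - x - 1)) (x ^ 4 + x - 1) ((x - 1) * (x ^ 2 - x - 1)) (-x ^ 6 * y + x ^ 5 * y + x ^ 3 * y + x ^ 2 * y + x * y - y) (((x - 1) ^ 2) * ((x ^ 2 - x - 1) ^ 2))
    (mul_ne_zero hg1 hg2) (mul_ne_zero hg1 hg2) (mul_ne_zero (pow_ne_zero 2 hg1) (pow_ne_zero 2 hg2))
    (fun h0 => (mul_ne_zero hg1 hg2) (by linear_combination (-y) * h0 + (2) * hE + (x ^ 3 + 1) * hp))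
    (by linear_combination (2 * x) * hE + (-x ^ 5 + 2 * x ^ 4 + 2 * x ^ 3 - x ^ 2) * hp)
    (by linear_combination (-x ^ 5 + 2 * x ^ 4 - x ^ 2) * hE + (x ^ 10 - 5 * x ^ 9 + 7 * x ^ 8 + 2 * x ^ 7 - 12 * x ^ 6 + 6 * x ^ 5 + 6 * x ^ 4 - 5 * x ^ 3 - x ^ 2 + x) * hp)
    (by linear_combination (-x ^ 11 * y + 6 * x ^ 10 * y - 11 * x ^ 9 * y + x ^ 8 * y + 16 * x ^ 7 * y - 10 * x ^ 6 * y - 7 * x ^ 5 * y + 6 * x ^ 4 * y + x ^ 3 * y - x ^ 2 * y) * hp)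
  obtain ⟨hT, eT⟩ := chord_frac W.toAffine 0 1 0 h1 h2 h3 h
    (x ^ 4 + x - 1) ((x - 1) * (x ^ 2 - x - 1)) (-x ^ 6 * y + x ^ 5 * y + x ^ 3 * y + x ^ 2 * y + x * y - y) (((x - 1) ^ 2) * ((x ^ 2 - x - 1) ^ 2)) (mul_ne_zero hg1 hg2) (mul_ne_zero (pow_ne_zero 2 hg1) (pow_ne_zero 2 hg2)) hD
    (-x ^ 6 * y + x ^ 5 * y + x ^ 4 * y + x ^ 3 * y + x ^ 2 * y - x * y - y) ((((x + 1) ^ 3) * (x - 1)) * (x ^ 2 - x - 1)) (x ^ 9 - x ^ 3 + 1) ((x + 1) ^ 6) (x ^ 12 * y + x ^ 11 * y + x ^ 9 * y + x ^ 6 * y + x ^ 5 * y + x ^ 3 * y) ((x + 1) ^ 9)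
    (mul_ne_zero (mul_ne_zero (pow_ne_zero 3 hg3) hg1) hg2) (pow_ne_zero 6 hg3) (pow_ne_zero 9 hg3)
    (fun h0 => (pow_ne_zero 3 hg3) (by linear_combination (1) * h0 + (x ^ 3 + x ^ 2 + x) * hp))
    (by linear_combination (-x ^ 14 * y + 5 * x ^ 13 * y - 9 * x ^ 12 * y + 4 * x ^ 11 * y + 14 * x ^ 10 * y - 24 * x ^ 9 * y - 8 * x ^ 8 * y + 35 * x ^ 7 * y + 6 * x ^ 6 * y - 28 * x ^ 5 * y - 8 * x ^ 4 * y + 12 * x ^ 3 * y + 5 * x ^ 2 * y - 2 * x * y - y) * hp)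
    (by linear_combination (-x ^ 21 - 2 * x ^ 20 + 6 * x ^ 19 + 19 * x ^ 18 + 3 * x ^ 17 - 48 * x ^ 16 - 76 * x ^ 15 - 23 * x ^ 14 + 104 * x ^ 13 + 196 * x ^ 12 + 118 * x ^ 11 - 90 * x ^ 10 - 228 * x ^ 9 - 180 * x ^ 8 - 11 * x ^ 7 + 122 * x ^ 6 + 118 * x ^ 5 + 31 * x ^ 4 - 25 * x ^ 3 - 24 * x ^ 2 - 8 * x - 1) * hE + (-x ^ 23 - x ^ 22 + 12 * x ^ 21 + 29 * x ^ 20 - 14 * x ^ 19 - 134 * x ^ 18 - 156 * x ^ 17 + 119 * x ^ 16 + 469 * x ^ 15 + 325 * x ^ 14 - 322 * x ^ 13 - 634 * x ^ 12 - 162 * x ^ 11 + 391 * x ^ 10 + 313 * x ^ 9 - 92 * x ^ 8 - 217 * x ^ 7 - 59 * x ^ 6 + 61 * x ^ 5 + 54 * x ^ 4 + 17 * x ^ 3 + 2 * x ^ 2) * hp)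
    (by linear_combination (3 * x ^ 21 * y + 32 * x ^ 20 * y + 158 * x ^ 19 * y + 473 * x ^ 18 * y + 914 * x ^ 17 * y + 985 * x ^ 16 * y - 290 * x ^ 15 * y - 3703 * x ^ 14 * y - 8564 * x ^ 13 * y - 12117 * x ^ 12 * y - 11210 * x ^ 11 * y - 5332 * x ^ 10 * y + 2321 * x ^ 9 * y + 7427 * x ^ 8 * y + 8110 * x ^ 7 * y + 5761 * x ^ 6 * y + 2915 * x ^ 5 * y + 1057 * x ^ 4 * y + 264 * x ^ 3 * y + 41 * x ^ 2 * y + 3 * x * y) * hp)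
  obtain ⟨hF1, eF1⟩ := hφ x y h
  obtain ⟨hF2, eF2⟩ := hφ _ _ hF1
  obtain ⟨hFm, eFm⟩ := hφ _ _ hD
  obtain ⟨hFm', eFm'⟩ := some_congr W.toAffine hFm (div_pow _ _ _) (div_pow _ _ _)
  obtain ⟨hN, eN⟩ := neg_frac W.toAffine 0 0 h1 h3 ((x ^ 4 + x - 1) ^ 3) (((x - 1) * (x ^ 2 - x - 1)) ^ 3) ((-x ^ 6 * y + x ^ 5 * y + x ^ 3 * y + x ^ 2 * y + x * y - y) ^ 3) ((((x - 1) ^ 2) * ((x ^ 2 - x - 1) ^ 2)) ^ 3) (pow_ne_zero 3 (mul_ne_zero hg1 hg2)) (pow_ne_zero 3 (mul_ne_zero (pow_ne_zero 2 hg1) (pow_ne_zero 2 hg2))) hFm'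
  obtain ⟨hC, eC⟩ := chord_frac W.toAffine 0 1 0 h1 h2 h3 hF2
    (x ^ 9 - x ^ 3 + 1) ((x + 1) ^ 6) (x ^ 12 * y + x ^ 11 * y + x ^ 9 * y + x ^ 6 * y + x ^ 5 * y + x ^ 3 * y) ((x + 1) ^ 9) (pow_ne_zero 6 hg3) (pow_ne_zero 9 hg3) hT
    (x ^ 12 * y + x ^ 6 * y - y) ((((x + 1) ^ 3) * ((x - 1) ^ 2)) * ((x ^ 2 - x - 1) ^ 2)) ((x ^ 4 + x - 1) ^ 3) (((x - 1) * (x ^ 2 - x - 1)) ^ 3) ((((-((-x ^ 6 * y + x ^ 5 * y + x ^ 3 * y + x ^ 2 * y + x * y - y) ^ 3)) * (((x - 1) * (x ^ 2 - x - 1)) ^ 3)) - ((0 * ((x ^ 4 + x - 1) ^ 3)) * ((((x - 1) ^ 2) * ((x ^ 2 - x - 1) ^ 2)) ^ 3))) - ((0 * ((((x - 1) ^ 2) * ((x ^ 2 - x - 1) ^ 2)) ^ 3)) * (((x - 1) * (x ^ 2 - x - 1)) ^ 3))) (((((x - 1) ^ 2) * ((x ^ 2 - x - 1) ^ 2)) ^ 3) * (((x - 1) * (x ^ 2 - x - 1)) ^ 3))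
    (mul_ne_zero (mul_ne_zero (pow_ne_zero 3 hg3) (pow_ne_zero 2 hg1)) (pow_ne_zero 2 hg2)) (pow_ne_zero 3 (mul_ne_zero hg1 hg2)) (mul_ne_zero (pow_ne_zero 3 (mul_ne_zero (pow_ne_zero 2 hg1) (pow_ne_zero 2 hg2))) (pow_ne_zero 3 (mul_ne_zero hg1 hg2)))
    (fun h0 => (mul_ne_zero (mul_ne_zero (pow_ne_zero 3 hg1) (pow_ne_zero 3 hg4)) (pow_ne_zero 3 hg2)) (by linear_combination (1) * h0 + (-3 * x ^ 14 - 7 * x ^ 13 + 2 * x ^ 12 - 4 * x ^ 11 - 29 * x ^ 10 + 15 * x ^ 9 + 35 * x ^ 8 - 35 * x ^ 7 - 15 * x ^ 6 + 27 * x ^ 5 - x ^ 4 - 9 * x ^ 3 + 2 * x ^ 2 + x) * hp))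
    (by linear_combination (-x ^ 24 * y ^ 7 - 14 * x ^ 23 * y ^ 7 - 85 * x ^ 22 * y ^ 7 - 278 * x ^ 21 * y ^ 7 - 440 * x ^ 20 * y ^ 7 + 174 * x ^ 19 * y ^ 7 + 2447 * x ^ 18 * y ^ 7 + 5286 * x ^ 17 * y ^ 7 + 4233 * x ^ 16 * y ^ 7 - 4556 * x ^ 15 * y ^ 7 - 16762 * x ^ 14 * y ^ 7 - 20060 * x ^ 13 * y ^ 7 - 7072 * x ^ 12 * y ^ 7 + 13532 * x ^ 11 * y ^ 7 + 24582 * x ^ 10 * y ^ 7 + 18700 * x ^ 9 * y ^ 7 + 4233 * x ^ 8 * y ^ 7 - 6342 * x ^ 7 * y ^ 7 - 8497 * x ^ 6 * y ^ 7 - 5678 * x ^ 5 * y ^ 7 - 2488 * x ^ 4 * y ^ 7 - 746 * x ^ 3 * y ^ 7 - 149 * x ^ 2 * y ^ 7 - 18 * x * y ^ 7 - y ^ 7 - x ^ 27 * y ^ 5 - 15 * x ^ 26 * y ^ 5 - 99 * x ^ 25 * y ^ 5 - 364 * x ^ 24 * y ^ 5 - 732 * x ^ 23 * y ^ 5 - 351 * x ^ 22 * y ^ 5 + 2343 * x ^ 21 * y ^ 5 + 7293 * x ^ 20 * y ^ 5 + 9693 * x ^ 19 * y ^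 5 + 2124 * x ^ 18 * y ^ 5 - 16032 * x ^ 17 * y ^ 5 - 32589 * x ^ 16 * y ^ 5 - 31688 * x ^ 15 * y ^ 5 - 10302 * x ^ 14 * y ^ 5 + 18054 * x ^ 13 * y ^ 5 + 36210 * x ^ 12 * y ^ 5 + 36465 * x ^ 11 * y ^ 5 + 22473 * x ^ 10 * y ^ 5 + 3861 * x ^ 9 * y ^ 5 - 9942 * x ^ 8 * y ^ 5 - 14508 * x ^ 7 * y ^ 5 - 11731 * x ^ 6 * y ^ 5 - 6573 * x ^ 5 * y ^ 5 - 2655 * x ^ 4 * y ^ 5 - 765 * x ^ 3 * y ^ 5 - 150 * x ^ 2 * y ^ 5 - 18 * x * y ^ 5 - y ^ 5 - x ^ 30 * y ^ 3 - 16 * x ^ 29 * y ^ 3 - 114 * x ^ 28 * y ^ 3 - 464 * x ^ 27 * y ^ 3 - 1111 * x ^ 26 * y ^ 3 - 1182 * x ^ 25 * y ^ 3 + 1628 * x ^ 24 * y ^ 3 + 8904 * x ^ 23 * y ^ 3 + 16635 * x ^ 22 * y ^ 3 + 14160 * x ^ 21 * y ^ 3 - 6615 * x ^ 20 * y ^ 3 - 38928 * x ^ 19 * y ^ 3 - 62153 * x ^ 18 * y ^ 3 - 58022 * x ^ 17 * y ^ 3 - 24837 * x ^ 16 * y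 ^ 3 + 22576 * x ^ 15 * y ^ 3 + 62373 * x ^ 14 * y ^ 3 + 76992 * x ^ 13 * y ^ 3 + 62544 * x ^ 12 * y ^ 3 + 30384 * x ^ 11 * y ^ 3 - 1977 * x ^ 10 * y ^ 3 - 22378 * x ^ 9 * y ^ 3 - 28246 * x ^ 8 * y ^ 3 - 23736 * x ^ 7 * y ^ 3 - 15151 * x ^ 6 * y ^ 3 - 7488 * x ^ 5 * y ^ 3 - 2823 * x ^ 4 * y ^ 3 - 784 * x ^ 3 * y ^ 3 - 151 * x ^ 2 * y ^ 3 - 18 * x * y ^ 3 - y ^ 3 - x ^ 33 * y - 17 * x ^ 32 * y - 130 * x ^ 31 * y - 579 * x ^ 30 * y - 1591 * x ^ 29 * y - 2407 * x ^ 28 * y - 18 * x ^ 27 * y + 9421 * x ^ 26 * y + 24357 * x ^ 25 * y + 32423 * x ^ 24 * y + 16449 * x ^ 23 * y - 28908 * x ^ 22 * y - 86921 * x ^ 21 * y - 126790 * x ^ 20 * y - 121787 * x ^ 19 * y - 64414 * x ^ 18 * y + 26927 * x ^ 17 * y + 114528 * x ^ 16 * y + 162112 * x ^ 15 * y + 155301 * x ^ 14 * y + 105399 * x ^ 13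 * y + 38189 * x ^ 12 * y - 20240 * x ^ 11 * y - 53959 * x ^ 10 * y - 61265 * x ^ 9 * y - 50885 * x ^ 8 * y - 34047 * x ^ 7 * y - 18758 * x ^ 6 * y - 8423 * x ^ 5 * y - 2992 * x ^ 4 * y - 803 * x ^ 3 * y - 152 * x ^ 2 * y - 18 * x * y - y) * hE + (-x ^ 35 * y - 14 * x ^ 34 * y - 85 * x ^ 33 * y - 274 * x ^ 32 * y - 375 * x ^ 31 * y + 667 * x ^ 30 * y + 4751 * x ^ 29 * y + 12625 * x ^ 28 * y + 20713 * x ^ 27 * y + 20847 * x ^ 26 * y + 5383 * x ^ 25 * y - 26016 * x ^ 24 * y - 63614 * x ^ 23 * y - 90401 * x ^ 22 * y - 89497 * x ^ 21 * y - 54152 * x ^ 20 * y + 6037 * x ^ 19 * y + 69176 * x ^ 18 * y + 112571 * x ^ 17 * y + 122861 * x ^ 16 * y + 100257 * x ^ 15 * y + 56872 * x ^ 14 * y + 10065 * x ^ 13 * y - 25799 * x ^ 12 * y - 44215 * x ^ 11 * y - 46386 * x ^ 10 * y - 38108 * x ^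 9 * y - 26081 * x ^ 8 * y - 15172 * x ^ 7 * y - 7498 * x ^ 6 * y - 3085 * x ^ 5 * y - 1012 * x ^ 4 * y - 246 * x ^ 3 * y - 39 * x ^ 2 * y - 3 * x * y) * hp)
    (by linear_combination (-x ^ 39 + 9 * x ^ 37 + 3 * x ^ 36 - 33 * x ^ 35 - 21 * x ^ 34 + 58 * x ^ 33 + 57 * x ^ 32 - 33 * x ^ 31 - 68 * x ^ 30 - 57 * x ^ 29 + 3 * x ^ 28 + 134 * x ^ 27 + 105 * x ^ 26 - 117 * x ^ 25 - 152 * x ^ 24 + 51 * x ^ 23 + 111 * x ^ 22 - 32 * x ^ 21 - 75 * x ^ 20 + 21 * x ^ 19 + 66 * x ^ 18 + 57 * x ^ 17 - 3 * x ^ 16 - 134 * x ^ 15 - 105 * x ^ 14 + 117 * x ^ 13 + 152 * x ^ 12 - 51 * x ^ 11 - 111 * x ^ 10 + 34 * x ^ 9 + 75 * x ^ 8 - 39 * x ^ 7 - 72 * x ^ 6 + 9 * x ^ 5 + 45 * x ^ 4 + 13 * x ^ 3 - 9 * x ^ 2 - 6 * x - 1) * hE + (-x ^ 41 - 3 * x ^ 40 + 14 * x ^ 39 + 43 * x ^ 38 - 87 * x ^ 37 - 287 *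 x ^ 36 + 315 * x ^ 35 + 1211 * x ^ 34 - 707 * x ^ 33 - 3632 * x ^ 32 + 809 * x ^ 31 + 8068 * x ^ 30 + 574 * x ^ 29 - 13265 * x ^ 28 - 4503 * x ^ 27 + 15744 * x ^ 26 + 9890 * x ^ 25 - 12916 * x ^ 24 - 13728 * x ^ 23 + 6724 * x ^ 22 + 15132 * x ^ 21 - 832 * x ^ 20 - 16015 * x ^ 19 - 4517 * x ^ 18 + 15711 * x ^ 17 + 9559 * x ^ 16 - 11348 * x ^ 15 - 11217 * x ^ 14 + 4519 * x ^ 13 + 8104 * x ^ 12 + 63 * x ^ 11 - 3562 * x ^ 10 - 1090 * x ^ 9 + 824 * x ^ 8 + 571 * x ^ 7 - 12 * x ^ 6 - 126 * x ^ 5 - 40 * x ^ 4 + 6 * x ^ 3 + 6 * x ^ 2 + x) * hp)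
    (by linear_combination (x ^ 45 * y ^ 7 - 25 * x ^ 44 * y ^ 7 + 283 * x ^ 43 * y ^ 7 - 1889 * x ^ 42 * y ^ 7 + 8022 * x ^ 41 * y ^ 7 - 21070 * x ^ 40 * y ^ 7 + 25221 * x ^ 39 * y ^ 7 + 35997 * x ^ 38 * y ^ 7 - 206687 * x ^ 37 * y ^ 7 + 317655 * x ^ 36 * y ^ 7 + 88140 * x ^ 35 * y ^ 7 - 1096732 * x ^ 34 * y ^ 7 + 1412957 * x ^ 33 * y ^ 7 + 696031 * x ^ 32 * y ^ 7 - 3813981 * x ^ 31 * y ^ 7 + 2765691 * x ^ 30 * y ^ 7 + 3877466 * x ^ 29 * y ^ 7 - 7675202 * x ^ 28 * y ^ 7 + 560385 * x ^ 27 * y ^ 7 + 9466429 * x ^ 26 * y ^ 7 - 6755567 * x ^ 25 * y ^ 7 - 6181565 * x ^ 24 * y ^ 7 + 9865960 * x ^ 23 * y ^ 7 + 802360 * x ^ 22 * y ^ 7 - 8401965 * x ^ 21 * y ^ 7 + 2679677 * x ^ 20 * y ^ 7 + 4789785 * x ^ 19 * y ^ 7 - 3182179 * x ^ 18 * y ^ 7 - 1822678 * x ^ 17 * y ^ 7 + 2107534 * x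 ^ 16 * y ^ 7 + 386815 * x ^ 15 * y ^ 7 - 976833 * x ^ 14 * y ^ 7 + 19019 * x ^ 13 * y ^ 7 + 337701 * x ^ 12 * y ^ 7 - 49140 * x ^ 11 * y ^ 7 - 89180 * x ^ 10 * y ^ 7 + 20111 * x ^ 9 * y ^ 7 + 18109 * x ^ 8 * y ^ 7 - 4823 * x ^ 7 * y ^ 7 - 2807 * x ^ 6 * y ^ 7 + 742 * x ^ 5 * y ^ 7 + 322 * x ^ 4 * y ^ 7 - 69 * x ^ 3 * y ^ 7 - 25 * x ^ 2 * y ^ 7 + 3 * x * y ^ 7 + y ^ 7 + x ^ 48 * y ^ 5 - 24 * x ^ 47 * y ^ 5 + 258 * x ^ 46 * y ^ 5 - 1605 * x ^ 45 * y ^ 5 + 6108 * x ^ 44 * y ^ 5 - 12765 * x ^ 43 * y ^ 5 + 2262 * x ^ 42 * y ^ 5 + 69240 * x ^ 41 * y ^ 5 - 191760 * x ^ 40 * y ^ 5 + 136189 * x ^ 39 * y ^ 5 + 441792 * x ^ 38 * y ^ 5 - 1215279 * x ^ 37 * y ^ 5 + 633880 * x ^ 36 * y ^ 5 + 2197128 * x ^ 35 * y ^ 5 - 4214682 * x ^ 34 * y ^ 5 + 364667 * x ^ 33 * y ^ 5 + 7339188 * x ^ 32 *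 y ^ 5 - 7611717 * x ^ 31 * y ^ 5 - 4349126 * x ^ 30 * y ^ 5 + 13904280 * x ^ 29 * y ^ 5 - 4964340 * x ^ 28 * y ^ 5 - 12376747 * x ^ 27 * y ^ 5 + 13150824 * x ^ 26 * y ^ 5 + 3912753 * x ^ 25 * y ^ 5 - 13781170 * x ^ 24 * y ^ 5 + 4143672 * x ^ 23 * y ^ 5 + 8271822 * x ^ 22 * y ^ 5 - 6794359 * x ^ 21 * y ^ 5 - 2325180 * x ^ 20 * y ^ 5 + 5074641 * x ^ 19 * y ^ 5 - 687830 * x ^ 18 * y ^ 5 - 2412696 * x ^ 17 * y ^ 5 + 1149720 * x ^ 16 * y ^ 5 + 743535 * x ^ 15 * y ^ 5 - 688272 * x ^ 14 * y ^ 5 - 119301 * x ^ 13 * y ^ 5 + 268632 * x ^ 12 * y ^ 5 - 10920 * x ^ 11 * y ^ 5 - 75894 * x ^ 10 * y ^ 5 + 12481 * x ^ 9 * y ^ 5 + 16044 * x ^ 8 * y ^ 5 - 3759 * x ^ 7 * y ^ 5 - 2554 * x ^ 6 * y ^ 5 + 648 * x ^ 5 * y ^ 5 + 300 * x ^ 4 * y ^ 5 - 65 * x ^ 3 * y ^ 5 - 24 * x ^ 2 * y ^ 5 + 3 * x *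 y ^ 5 + y ^ 5 + x ^ 51 * y ^ 3 - 23 * x ^ 50 * y ^ 3 + 234 * x ^ 49 * y ^ 3 - 1346 * x ^ 48 * y ^ 3 + 4479 * x ^ 47 * y ^ 3 - 6399 * x ^ 46 * y ^ 3 - 12108 * x ^ 45 * y ^ 3 + 77610 * x ^ 44 * y ^ 3 - 135285 * x ^ 43 * y ^ 3 - 53309 * x ^ 42 * y ^ 3 + 647221 * x ^ 41 * y ^ 3 - 965247 * x ^ 40 * y ^ 3 - 445210 * x ^ 39 * y ^ 3 + 3272800 * x ^ 38 * y ^ 3 - 3232833 * x ^ 37 * y ^ 3 - 3216135 * x ^ 36 * y ^ 3 + 9900983 * x ^ 35 * y ^ 3 - 4487211 * x ^ 34 * y ^ 3 - 11596176 * x ^ 33 * y ^ 3 + 16894342 * x ^ 32 * y ^ 3 + 1328223 * x ^ 31 * y ^ 3 - 21690213 * x ^ 30 * y ^ 3 + 14678357 * x ^ 29 * y ^ 3 + 12099237 * x ^ 28 * y ^ 3 - 22245164 * x ^ 27 * y ^ 3 + 3513326 * x ^ 26 * y ^ 3 + 16328247 * x ^ 25 * y ^ 3 - 12303707 * x ^ 24 * y ^ 3 - 4975867 * x ^ 23 * y ^ 3 + 11021283 * x ^ 22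 * y ^ 3 - 2407548 * x ^ 21 * y ^ 3 - 5425706 * x ^ 20 * y ^ 3 + 3811665 * x ^ 19 * y ^ 3 + 1205425 * x ^ 18 * y ^ 3 - 2357433 * x ^ 17 * y ^ 3 + 342147 * x ^ 16 * y ^ 3 + 892866 * x ^ 15 * y ^ 3 - 430560 * x ^ 14 * y ^ 3 - 206115 * x ^ 13 * y ^ 3 + 205219 * x ^ 12 * y ^ 3 + 17605 * x ^ 11 * y ^ 3 - 63609 * x ^ 10 * y ^ 3 + 6168 * x ^ 9 * y ^ 3 + 14138 * x ^ 8 * y ^ 3 - 2811 * x ^ 7 * y ^ 3 - 2319 * x ^ 6 * y ^ 3 + 559 * x ^ 5 * y ^ 3 + 279 * x ^ 4 * y ^ 3 - 61 * x ^ 3 * y ^ 3 - 23 * x ^ 2 * y ^ 3 + 3 * x * y ^ 3 + y ^ 3 + x ^ 54 * y - 22 * x ^ 53 * y + 211 * x ^ 52 * y - 1111 * x ^ 51 * y + 3110 * x ^ 50 * y - 1686 * x ^ 49 * y - 19853 * x ^ 48 * y + 69981 * x ^ 47 * y - 64074 * x ^ 46 * y - 200701 * x ^ 45 * y + 671506 * x ^ 44 * y - 453202 * x ^ 43 * y - 1464161 * x ^ 42 *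 y + 3475528 * x ^ 41 * y - 925368 * x ^ 40 * y - 6896624 * x ^ 39 * y + 9962224 * x ^ 38 * y + 2180294 * x ^ 37 * y - 19308815 * x ^ 36 * y + 15211729 * x ^ 35 * y + 13737831 * x ^ 34 * y - 31982474 * x ^ 33 * y + 9904345 * x ^ 32 * y + 28122086 * x ^ 31 * y - 31884834 * x ^ 30 * y - 4033102 * x ^ 29 * y + 31988327 * x ^ 28 * y - 18284398 * x ^ 27 * y - 13771258 * x ^ 26 * y + 22450553 * x ^ 25 * y - 3744501 * x ^ 24 * y - 12854033 * x ^ 23 * y + 9496140 * x ^ 22 * y + 2599555 * x ^ 21 * y - 6653960 * x ^ 20 * y + 1847246 * x ^ 19 * y + 2472915 * x ^ 18 * y - 1954372 * x ^ 17 * y - 285886 * x ^ 16 * y + 935668 * x ^ 15 * y - 234168 * x ^ 14 * y - 275060 * x ^ 13 * y + 171111 * x ^ 12 * y + 46611 * x ^ 11 * y - 65161 * x ^ 10 * y - 1284 * x ^ 9 * y + 17253 * x ^ 8 * y - 1562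 * x ^ 7 * y - 3369 * x ^ 6 * y + 432 * x ^ 5 * y + 476 * x ^ 4 * y - 55 * x ^ 3 * y - 44 * x ^ 2 * y + 3 * x * y + 2 * y) * hE + (x ^ 56 * y - 25 * x ^ 55 * y + 283 * x ^ 54 * y - 1893 * x ^ 53 * y + 8113 * x ^ 52 * y - 22004 * x ^ 51 * y + 30860 * x ^ 50 * y + 14303 * x ^ 49 * y - 154192 * x ^ 48 * y + 252147 * x ^ 47 * y + 64212 * x ^ 46 * y - 856111 * x ^ 45 * y + 1059224 * x ^ 44 * y + 735695 * x ^ 43 * y - 3358501 * x ^ 42 * y + 2401888 * x ^ 41 * y + 3812512 * x ^ 40 * y - 8287811 * x ^ 39 * y + 2128292 * x ^ 38 * y + 10450532 * x ^ 37 * y - 12673911 * x ^ 36 * y - 2257176 * x ^ 35 * y + 17310896 * x ^ 34 * y - 11867620 * x ^ 33 * y - 8817109 * x ^ 32 * y + 18683615 * x ^ 31 * y - 5811228 * x ^ 30 * y - 12220429 * x ^ 29 * y + 13431034 * x ^ 28 * y + 397842 * x ^ 27 *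 y - 10185651 * x ^ 26 * y + 6236459 * x ^ 25 * y + 2865891 * x ^ 24 * y - 5603005 * x ^ 23 * y + 1537964 * x ^ 22 * y + 2266673 * x ^ 21 * y - 2014622 * x ^ 20 * y - 99347 * x ^ 19 * y + 990027 * x ^ 18 * y - 407054 * x ^ 17 * y - 235408 * x ^ 16 * y + 249425 * x ^ 15 * y - 5002 * x ^ 14 * y - 82550 * x ^ 13 * y + 25787 * x ^ 12 * y + 18498 * x ^ 11 * y - 11536 * x ^ 10 * y - 3278 * x ^ 9 * y + 3578 * x ^ 8 * y + 518 * x ^ 7 * y - 893 * x ^ 6 * y - 64 * x ^ 5 * y + 165 * x ^ 4 * y + 4 * x ^ 3 * y - 19 * x ^ 2 * y + y) * hp)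
  have key : φ (φ (Point.some x y h)) + (3 : ℤ) • Point.some x y h = (-2 : ℤ) • φ (Point.some x y h) := by
    rw [← map_zsmul φ, three_zsmul_eq, neg_two_zsmul_eq]
    rw [eD, eT, map_neg, eFm, eFm', eN, eF1, eF2, eC]
  rw [sub_add_eq_add_sub, key, sub_self]

/-- The Frobenius quadratic equation on `c3o11` (`p = 3`, trace `-2`). -/
theorem quad_c3o11 {K : Type*} [Field K] [IsAlgClosed K] [DecidableEq K] (W : WeierstrassCurve K)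
    (h1 : W.a₁ = 0) (h2 : W.a₂ = 1) (h3 : W.a₃ = 0) (h4 : W.a₄ = 0) (h6 : W.a₆ = 1)
    (hΔ : W.Δ ≠ 0) (hp : (3 : K) = 0) (φ : W.toAffine.Point →+ W.toAffine.Point)
    (hφ : ∀ (x y : K) (h : W.toAffine.Nonsingular x y),
      ∃ h' : W.toAffine.Nonsingular (x ^ 3) (y ^ 3), φ (Point.some x y h) = Point.some _ _ h')
    (P : W.toAffine.Point) :
    φ (φ P) - (-2 : ℤ) • φ P + (3 : ℤ) • P = 0 := by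
  refine eq_zero_of_generic W.toAffine hΔ
    (φ.comp φ - (-2 : ℤ) • φ + (3 : ℤ) • AddMonoidHom.id _)
    ((Polynomial.X - 1 : Polynomial K) * (Polynomial.X ^ 2 - Polynomial.X - 1 : Polynomial K) * (Polynomial.X + 1 : Polynomial K) * (Polynomial.X ^ 2 + Polynomial.X - 1 : Polynomial K))
    (Polynomial.Monic.ne_zero (Polynomial.Monic.mul (Polynomial.Monic.mul (Polynomial.Monic.mul (by monicity! : Polynomial.Monic (Polynomial.X - 1 : Polynomial K)) (by monicity! : Polynomial.Monic (Polynomial.X ^ 2 - Polynomial.X - 1 : Polynomial K))) (by monicity! : Polynomial.Monic (Polynomial.X + 1 : Polynomial K))) (by monicity! : Polynomial.Monic (Polynomial.X ^ 2 + Polynomial.X - 1 : Polynomial K)))) (fun x y h hx => ?_) P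
  have hx' := hx
  rw [Polynomial.eval_mul] at hx'
  have q4 := right_ne_zero_of_mul hx'
  replace hx' := left_ne_zero_of_mul hx'
  rw [Polynomial.eval_mul] at hx'
  have q3 := right_ne_zero_of_mul hx'
  replace hx' := left_ne_zero_of_mul hx'
  rw [Polynomial.eval_mul] at hx'
  have q2 := right_ne_zero_of_mul hx'
  replace hx' := left_ne_zero_of_mul hx'
  have q1 := hx'
  have e1 : Polynomial.eval x (Polynomial.X - 1 : Polynomial K) = x - 1 := by simp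
  rw [e1] at q1
  have e2 : Polynomial.eval x (Polynomial.X ^ 2 - Polynomial.X - 1 : Polynomial K) = x ^ 2 - x - 1 := by simp
  rw [e2] at q2
  have e3 : Polynomial.eval x (Polynomial.X + 1 : Polynomial K) = x + 1 := by simp
  rw [e3] at q3
  have e4 : Polynomial.eval x (Polynomial.X ^ 2 + Polynomial.X - 1 : Polynomial K) = x ^ 2 + x - 1 := by simp
  rw [e4] at q4
  exact gen_c3o11 W h1 h2 h3 h4 h6 hp φ hφ x y h q1 q2 q3 q4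

/-- generic point computation for `c3o1m` (`p = 3`, `#E(𝔽_p) = 3`, trace `1`). -/
theorem gen_c3o1m {k : Type*} [Field k] [DecidableEq k] (W : WeierstrassCurve k)
    (h1 : W.a₁ = 0) (h2 : W.a₂ = 1) (h3 : W.a₃ = 0) (h4 : W.a₄ = 0) (h6 : W.a₆ = (-1))
    (hp : (3 : k) = 0) (φ : W.toAffine.Point →+ W.toAffine.Point)
    (hφ : ∀ (x y : k) (h : W.toAffine.Nonsingular x y),
      ∃ h' : W.toAffine.Nonsingular (x ^ 3) (y ^ 3), φ (Point.some x y h) = Point.some _ _ h')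
    (x y : k) (h : W.toAffine.Nonsingular x y)
    (hg1 : x ^ 3 + x ^ 2 - 1 ≠ 0)
    (hg2 : x - 1 ≠ 0)
    (hg3 : x ^ 5 + x ^ 4 - x + 1 ≠ 0)
    : φ (φ (Point.some x y h)) - (1 : ℤ) • φ (Point.some x y h) + (3 : ℤ) • Point.some x y h = 0 := by
  have hE : y ^ 2 + 0 * x * y + 0 * y = x ^ 3 + 1 * x ^ 2 + 0 * x + (-1) := by
    have := (W.toAffine.equation_iff x y).mp h.1
    rwa [h1, h2, h3, h4, h6] at this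
  obtain ⟨hD, eD⟩ := dbl_frac W.toAffine 0 1 0 0 h1 h2 h3 h4 h
    (x * y) (x ^ 3 + x ^ 2 - 1) (x ^ 4 - x + 1) (x ^ 3 + x ^ 2 - 1) (-x ^ 6 * y + x ^ 5 * y - x ^ 3 * y - x ^ 2 * y - x * y - y) ((x ^ 3 + x ^ 2 - 1) ^ 2)
    hg1 hg1 (pow_ne_zero 2 hg1)
    (fun h0 => hg1 (by linear_combination (-y) * h0 + (2) * hE + (x ^ 3 + x ^ 2 - 1) * hp))
    (by linear_combination (2 * x) * hE + (-x ^ 5 - x ^ 4 + x ^ 2) * hp)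
    (by linear_combination (-x ^ 5 - x ^ 4 + x ^ 2) * hE + (x ^ 10 + 3 * x ^ 9 + 3 * x ^ 8 - 2 * x ^ 7 - 6 * x ^ 6 - 3 * x ^ 5 + 3 * x ^ 4 + 3 * x ^ 3 - x) * hp)
    (by linear_combination (x ^ 11 * y + 2 * x ^ 10 * y - 5 * x ^ 8 * y - 5 * x ^ 7 * y + x ^ 6 * y + 5 * x ^ 5 * y + 2 * x ^ 4 * y - x ^ 3 * y - x ^ 2 * y) * hp)
  obtain ⟨hT, eT⟩ := chord_frac W.toAffine 0 1 0 h1 h2 h3 h
    (x ^ 4 - x + 1) (x ^ 3 + x ^ 2 - 1) (-x ^ 6 * y + x ^ 5 * y - x ^ 3 * y - x ^ 2 * y - x * y - y) ((x ^ 3 + x ^ 2 - 1) ^ 2) hg1 (pow_ne_zero 2 hg1) hD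
    (-x ^ 6 * y + x ^ 5 * y + x ^ 4 * y - x ^ 3 * y - x ^ 2 * y + x * y - y) (((x - 1) ^ 3) * (x ^ 3 + x ^ 2 - 1)) (x ^ 9 + x ^ 3 - 1) ((x - 1) ^ 6) (x ^ 12 * y + x ^ 11 * y - x ^ 9 * y - x ^ 6 * y - x ^ 5 * y - x ^ 3 * y + x ^ 2 * y - y) ((x - 1) ^ 9)
    (mul_ne_zero (pow_ne_zero 3 hg2) hg1) (pow_ne_zero 6 hg2) (pow_ne_zero 9 hg2)
    (fun h0 => (pow_ne_zero 3 hg2) (by linear_combination (1) * h0 + (-x ^ 2 + x) * hp))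
    (by linear_combination (-x ^ 15 * y + 2 * x ^ 13 * y + 3 * x ^ 12 * y - 3 * x ^ 11 * y - 5 * x ^ 10 * y - 2 * x ^ 9 * y + 7 * x ^ 8 * y + 4 * x ^ 7 * y - 3 * x ^ 6 * y - 6 * x ^ 5 * y + 3 * x ^ 4 * y + 3 * x ^ 3 * y - x ^ 2 * y - 2 * x * y + y) * hp)
    (by linear_combination (-x ^ 21 + 7 * x ^ 20 - 18 * x ^ 19 + 15 * x ^ 18 + 15 * x ^ 17 - 23 * x ^ 16 - 44 * x ^ 15 + 107 * x ^ 14 - 46 * x ^ 13 - 64 * x ^ 12 + 42 * x ^ 11 + 94 * x ^ 10 - 154 * x ^ 9 + 72 * x ^ 8 + 25 * x ^ 7 - 25 * x ^ 6 - 38 * x ^ 5 + 75 * x ^ 4 - 61 * x ^ 3 + 29 * x ^ 2 - 8 * x + 1) * hE + (x ^ 23 - 3 * x ^ 22 - 5 * x ^ 21 + 32 * x ^ 20 - 46 * x ^ 19 + 21 * x ^ 18 - 34 * x ^ 17 + 157 * x ^ 16 - 271 * x ^ 15 + 227 * x ^ 14 - 145 * x ^ 13 + 262 * x ^ 12 - 505 * x ^ 11 + 547 * x ^ 10 - 343 * x ^ 9 + 218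 * x ^ 8 - 313 * x ^ 7 + 393 * x ^ 6 - 293 * x ^ 5 + 127 * x ^ 4 - 30 * x ^ 3 + 3 * x ^ 2) * hp)
    (by linear_combination (x ^ 23 * y - 8 * x ^ 22 * y + 24 * x ^ 21 * y - 18 * x ^ 20 * y - 93 * x ^ 19 * y + 348 * x ^ 18 * y - 545 * x ^ 17 * y + 187 * x ^ 16 * y + 1168 * x ^ 15 * y - 3319 * x ^ 14 * y + 5326 * x ^ 13 * y - 6354 * x ^ 12 * y + 6570 * x ^ 11 * y - 6774 * x ^ 10 * y + 7171 * x ^ 9 * y - 7066 * x ^ 8 * y + 5879 * x ^ 7 * y - 3943 * x ^ 6 * y + 2100 * x ^ 5 * y - 884 * x ^ 4 * y + 291 * x ^ 3 * y - 72 * x ^ 2 * y + 12 * x * y - y) * hp)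
  obtain ⟨hF1, eF1⟩ := hφ x y h
  obtain ⟨hF2, eF2⟩ := hφ _ _ hF1
  obtain ⟨hC, eC⟩ := chord_frac W.toAffine 0 1 0 h1 h2 h3 hF2
    (x ^ 9 + x ^ 3 - 1) ((x - 1) ^ 6) (x ^ 12 * y + x ^ 11 * y - x ^ 9 * y - x ^ 6 * y - x ^ 5 * y - x ^ 3 * y + x ^ 2 * y - y) ((x - 1) ^ 9) (pow_ne_zero 6 hg2) (pow_ne_zero 9 hg2) hT
    (x ^ 6 * y + x ^ 5 * y - x ^ 3 * y) ((x - 1) ^ 3) (x ^ 3) 1 (y ^ 3) 1
    (pow_ne_zero 3 hg2) one_ne_zero one_ne_zero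
    (fun h0 => (pow_ne_zero 3 hg3) (by linear_combination (1) * h0 + (3 * x ^ 14 - 4 * x ^ 13 + 7 * x ^ 12 - 6 * x ^ 11 + x ^ 10 + x ^ 9 + x ^ 8 + x ^ 7 - x ^ 6 - x ^ 5 + x ^ 4 + x ^ 2 - x) * hp))
    (by linear_combination (-x ^ 18 * y ^ 7 + 18 * x ^ 17 * y ^ 7 - 153 * x ^ 16 * y ^ 7 + 816 * x ^ 15 * y ^ 7 - 3060 * x ^ 14 * y ^ 7 + 8568 * x ^ 13 * y ^ 7 - 18564 * x ^ 12 * y ^ 7 + 31824 * x ^ 11 * y ^ 7 - 43758 * x ^ 10 * y ^ 7 + 48620 * x ^ 9 * y ^ 7 - 43758 * x ^ 8 * y ^ 7 + 31824 * x ^ 7 * y ^ 7 - 18564 * x ^ 6 * y ^ 7 + 8568 * x ^ 5 * y ^ 7 - 3060 * x ^ 4 * y ^ 7 + 816 * x ^ 3 * y ^ 7 - 153 * x ^ 2 * y ^ 7 + 18 * x * y ^ 7 - y ^ 7 - x ^ 21 * y ^ 5 + 17 * x ^ 20 * y ^ 5 - 135 * x ^ 19 * y ^ 5 + 664 * x ^ 18 * y ^ 5 - 2262 * x ^ 17 * y ^ 5 + 5661 * x ^ 16 * y ^ 5 - 10812 *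 x ^ 15 * y ^ 5 + 16320 * x ^ 14 * y ^ 5 - 20502 * x ^ 13 * y ^ 5 + 23426 * x ^ 12 * y ^ 5 - 26962 * x ^ 11 * y ^ 5 + 31824 * x ^ 10 * y ^ 5 - 35360 * x ^ 9 * y ^ 5 + 33762 * x ^ 8 * y ^ 5 - 26316 * x ^ 7 * y ^ 5 + 16320 * x ^ 6 * y ^ 5 - 7905 * x ^ 5 * y ^ 5 + 2925 * x ^ 4 * y ^ 5 - 799 * x ^ 3 * y ^ 5 + 152 * x ^ 2 * y ^ 5 - 18 * x * y ^ 5 + y ^ 5 - x ^ 24 * y ^ 3 + 16 * x ^ 23 * y ^ 3 - 118 * x ^ 22 * y ^ 3 + 530 * x ^ 21 * y ^ 3 - 1615 * x ^ 20 * y ^ 3 + 3534 * x ^ 19 * y ^ 3 - 5815 * x ^ 18 * y ^ 3 + 7770 * x ^ 17 * y ^ 3 - 9843 * x ^ 16 * y ^ 3 + 13736 * x ^ 15 * y ^ 3 - 19856 * x ^ 14 * y ^ 3 + 25364 * x ^ 13 * y ^ 3 - 26962 * x ^ 12 * y ^ 3 + 25364 * x ^ 11 * y ^ 3 - 24378 * x ^ 10 * y ^ 3 + 25364 * x ^ 9 * y ^ 3 - 25347 * x ^ 8 * y ^ 3 + 21336 * x ^ 7 * y ^ 3 - 14194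 * x ^ 6 * y ^ 3 + 7258 * x ^ 5 * y ^ 3 - 2791 * x ^ 4 * y ^ 3 + 782 * x ^ 3 * y ^ 3 - 151 * x ^ 2 * y ^ 3 + 18 * x * y ^ 3 - y ^ 3 - x ^ 27 * y + 15 * x ^ 26 * y - 102 * x ^ 25 * y + 413 * x ^ 24 * y - 1101 * x ^ 23 * y + 2037 * x ^ 22 * y - 2811 * x ^ 21 * y + 3570 * x ^ 20 * y - 5607 * x ^ 19 * y + 9708 * x ^ 18 * y - 13890 * x ^ 17 * y + 15351 * x ^ 16 * y - 15334 * x ^ 15 * y + 18258 * x ^ 14 * y - 24378 * x ^ 13 * y + 27948 * x ^ 12 * y - 25347 * x ^ 11 * y + 20367 * x ^ 10 * y - 18222 * x ^ 9 * y + 18411 * x ^ 8 * y - 16869 * x ^ 7 * y + 12185 * x ^ 6 * y - 6627 * x ^ 5 * y + 2658 * x ^ 4 * y - 765 * x ^ 3 * y + 150 * x ^ 2 * y - 18 * x * y + y) * hE + (x ^ 28 * y - 13 * x ^ 27 * y + 74 * x ^ 26 * y - 235 * x ^ 25 * y + 423 * x ^ 24 * y - 309 * x ^ 23 * y - 366 * x ^ 22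 * y + 1129 * x ^ 21 * y - 1126 * x ^ 20 * y + 778 * x ^ 19 * y - 1896 * x ^ 18 * y + 4766 * x ^ 17 * y - 6786 * x ^ 16 * y + 6210 * x ^ 15 * y - 5239 * x ^ 14 * y + 6509 * x ^ 13 * y - 8641 * x ^ 12 * y + 8556 * x ^ 11 * y - 6338 * x ^ 10 * y + 4606 * x ^ 9 * y - 4405 * x ^ 8 * y + 4417 * x ^ 7 * y - 3501 * x ^ 6 * y + 2014 * x ^ 5 * y - 818 * x ^ 4 * y + 225 * x ^ 3 * y - 38 * x ^ 2 * y + 3 * x * y) * hp)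
    (by linear_combination (-x ^ 18 + 4 * x ^ 17 - 4 * x ^ 16 - 2 * x ^ 15 + 14 * x ^ 13 - 15 * x ^ 12 + 2 * x ^ 10 + 10 * x ^ 9 - 13 * x ^ 8 + 6 * x ^ 7 - x ^ 6) * hE + (-3 * x ^ 20 + 22 * x ^ 19 - 75 * x ^ 18 + 163 * x ^ 17 - 258 * x ^ 16 + 309 * x ^ 15 - 275 * x ^ 14 + 188 * x ^ 13 - 144 * x ^ 12 + 187 * x ^ 11 - 251 * x ^ 10 + 234 * x ^ 9 - 97 * x ^ 8 - 96 * x ^ 7 + 228 * x ^ 6 - 235 * x ^ 5 + 154 * x ^ 4 - 66 * x ^ 3 + 17 * x ^ 2 - 2 * x) * hp)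
    (by linear_combination (x ^ 3 * y ^ 7 - 3 * x ^ 2 * y ^ 7 + 3 * x * y ^ 7 - y ^ 7 + x ^ 6 * y ^ 5 - 2 * x ^ 5 * y ^ 5 + x ^ 3 * y ^ 5 + 2 * x ^ 2 * y ^ 5 - 3 * x * y ^ 5 + y ^ 5 + x ^ 9 * y ^ 3 - x ^ 8 * y ^ 3 - 2 * x ^ 7 * y ^ 3 + 5 * x ^ 5 * y ^ 3 - x ^ 4 * y ^ 3 - 3 * x ^ 3 * y ^ 3 - x ^ 2 * y ^ 3 + 3 * x * y ^ 3 - y ^ 3 + x ^ 12 * y - 3 * x ^ 10 * y - 3 * x ^ 9 * y + 6 * x ^ 8 * y + 6 * x ^ 7 * y - 4 * x ^ 6 * y - 9 * x ^ 5 * y + 3 * x ^ 4 * y + 6 * x ^ 3 * y - 3 * x ^ 2 * y) * hE + (-x ^ 13 * y - 2 * x ^ 12 * y + x ^ 11 * y + 5 * x ^ 10 * y + 2 * x ^ 9 * y - 6 * x ^ 8 * y - 4 * x ^ 7 * y + 4 * x ^ 6 * y + 4 * x ^ 5 * y - 2 * x ^ 4 * y - 2 * x ^ 3 * y + x ^ 2 * y) * hp)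
  have key : φ (φ (Point.some x y h)) + (3 : ℤ) • Point.some x y h = (1 : ℤ) • φ (Point.some x y h) := by
    rw [← map_zsmul φ, three_zsmul_eq, one_zsmul_eq]
    rw [eD, eT, eF1, eF2, eC]
    exact some_eq_some W.toAffine _ _ (div_one _) (div_one _)
  rw [sub_add_eq_add_sub, key, sub_self]

/-- The Frobenius quadratic equation on `c3o1m` (`p = 3`, trace `1`). -/
theorem quad_c3o1m {K : Type*} [Field K] [IsAlgClosed K] [DecidableEq K] (W : WeierstrassCurve K)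
    (h1 : W.a₁ = 0) (h2 : W.a₂ = 1) (h3 : W.a₃ = 0) (h4 : W.a₄ = 0) (h6 : W.a₆ = (-1))
    (hΔ : W.Δ ≠ 0) (hp : (3 : K) = 0) (φ : W.toAffine.Point →+ W.toAffine.Point)
    (hφ : ∀ (x y : K) (h : W.toAffine.Nonsingular x y),
      ∃ h' : W.toAffine.Nonsingular (x ^ 3) (y ^ 3), φ (Point.some x y h) = Point.some _ _ h')
    (P : W.toAffine.Point) :
    φ (φ P) - (1 : ℤ) • φ P + (3 : ℤ) • P = 0 := by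
  refine eq_zero_of_generic W.toAffine hΔ
    (φ.comp φ - (1 : ℤ) • φ + (3 : ℤ) • AddMonoidHom.id _)
    ((Polynomial.X ^ 3 + Polynomial.X ^ 2 - 1 : Polynomial K) * (Polynomial.X - 1 : Polynomial K) * (Polynomial.X ^ 5 + Polynomial.X ^ 4 - Polynomial.X + 1 : Polynomial K))
    (Polynomial.Monic.ne_zero (Polynomial.Monic.mul (Polynomial.Monic.mul (by monicity! : Polynomial.Monic (Polynomial.X ^ 3 + Polynomial.X ^ 2 - 1 : Polynomial K)) (by monicity! : Polynomial.Monic (Polynomial.X - 1 : Polynomial K))) (by monicity! : Polynomial.Monic (Polynomial.X ^ 5 + Polynomial.X ^ 4 - Polynomial.X + 1 : Polynomial K)))) (fun x y h hx => ?_) P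
  have hx' := hx
  rw [Polynomial.eval_mul] at hx'
  have q3 := right_ne_zero_of_mul hx'
  replace hx' := left_ne_zero_of_mul hx'
  rw [Polynomial.eval_mul] at hx'
  have q2 := right_ne_zero_of_mul hx'
  replace hx' := left_ne_zero_of_mul hx'
  have q1 := hx'
  have e1 : Polynomial.eval x (Polynomial.X ^ 3 + Polynomial.X ^ 2 - 1 : Polynomial K) = x ^ 3 + x ^ 2 - 1 := by simp
  rw [e1] at q1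
  have e2 : Polynomial.eval x (Polynomial.X - 1 : Polynomial K) = x - 1 := by simp
  rw [e2] at q2
  have e3 : Polynomial.eval x (Polynomial.X ^ 5 + Polynomial.X ^ 4 - Polynomial.X + 1 : Polynomial K) = x ^ 5 + x ^ 4 - x + 1 := by simp
  rw [e3] at q3
  exact gen_c3o1m W h1 h2 h3 h4 h6 hp φ hφ x y h q1 q2 q3

/-- generic point computation for `c3om1` (`p = 3`, `#E(𝔽_p) = 5`, trace `-1`). -/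
theorem gen_c3om1 {k : Type*} [Field k] [DecidableEq k] (W : WeierstrassCurve k)
    (h1 : W.a₁ = 0) (h2 : W.a₂ = (-1)) (h3 : W.a₃ = 0) (h4 : W.a₄ = 0) (h6 : W.a₆ = 1)
    (hp : (3 : k) = 0) (φ : W.toAffine.Point →+ W.toAffine.Point)
    (hφ : ∀ (x y : k) (h : W.toAffine.Nonsingular x y),
      ∃ h' : W.toAffine.Nonsingular (x ^ 3) (y ^ 3), φ (Point.some x y h) = Point.some _ _ h')
    (x y : k) (h : W.toAffine.Nonsingular x y)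
    (hg1 : x ^ 3 - x ^ 2 + 1 ≠ 0)
    (hg2 : x + 1 ≠ 0)
    (hg3 : x ^ 5 - x ^ 4 - x - 1 ≠ 0)
    : φ (φ (Point.some x y h)) - (-1 : ℤ) • φ (Point.some x y h) + (3 : ℤ) • Point.some x y h = 0 := by
  have hE : y ^ 2 + 0 * x * y + 0 * y = x ^ 3 + (-1) * x ^ 2 + 0 * x + 1 := by
    have := (W.toAffine.equation_iff x y).mp h.1
    rwa [h1, h2, h3, h4, h6] at this
  obtain ⟨hD, eD⟩ := dbl_frac W.toAffine 0 (-1) 0 0 h1 h2 h3 h4 h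
    (-x * y) (x ^ 3 - x ^ 2 + 1) (x ^ 4 + x + 1) (x ^ 3 - x ^ 2 + 1) (-x ^ 6 * y - x ^ 5 * y + x ^ 3 * y - x ^ 2 * y + x * y - y) ((x ^ 3 - x ^ 2 + 1) ^ 2)
    hg1 hg1 (pow_ne_zero 2 hg1)
    (fun h0 => hg1 (by linear_combination (-y) * h0 + (2) * hE + (x ^ 3 - x ^ 2 + 1) * hp))
    (by linear_combination (-2 * x) * hE + (-x ^ 5 + x ^ 4 - x ^ 2) * hp)
    (by linear_combination (-x ^ 5 + x ^ 4 - x ^ 2) * hE + (x ^ 10 - 3 * x ^ 9 + 3 * x ^ 8 + 2 * x ^ 7 - 6 * x ^ 6 + 3 * x ^ 5 + 3 * x ^ 4 - 3 * x ^ 3 + x) * hp)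
    (by linear_combination (-x ^ 11 * y + 2 * x ^ 10 * y - 5 * x ^ 8 * y + 5 * x ^ 7 * y + x ^ 6 * y - 5 * x ^ 5 * y + 2 * x ^ 4 * y + x ^ 3 * y - x ^ 2 * y) * hp)
  obtain ⟨hT, eT⟩ := chord_frac W.toAffine 0 (-1) 0 h1 h2 h3 h
    (x ^ 4 + x + 1) (x ^ 3 - x ^ 2 + 1) (-x ^ 6 * y - x ^ 5 * y + x ^ 3 * y - x ^ 2 * y + x * y - y) ((x ^ 3 - x ^ 2 + 1) ^ 2) hg1 (pow_ne_zero 2 hg1) hD
    (x ^ 6 * y + x ^ 5 * y - x ^ 4 * y - x ^ 3 * y + x ^ 2 * y + x * y + y) (((x + 1) ^ 3) * (x ^ 3 - x ^ 2 + 1)) (x ^ 9 + x ^ 3 + 1) ((x + 1) ^ 6) (-x ^ 12 * y + x ^ 11 * y - x ^ 9 * y + x ^ 6 * y - x ^ 5 * y - x ^ 3 * y - x ^ 2 * y + y) ((x + 1) ^ 9)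
    (mul_ne_zero (pow_ne_zero 3 hg2) hg1) (pow_ne_zero 6 hg2) (pow_ne_zero 9 hg2)
    (fun h0 => (pow_ne_zero 3 hg2) (by linear_combination (-1) * h0 + (x ^ 2 + x) * hp))
    (by linear_combination (-x ^ 15 * y + 2 * x ^ 13 * y - 3 * x ^ 12 * y - 3 * x ^ 11 * y + 5 * x ^ 10 * y - 2 * x ^ 9 * y - 7 * x ^ 8 * y + 4 * x ^ 7 * y + 3 * x ^ 6 * y - 6 * x ^ 5 * y - 3 * x ^ 4 * y + 3 * x ^ 3 * y + x ^ 2 * y - 2 * x * y - y) * hp)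
    (by linear_combination (-x ^ 21 - 7 * x ^ 20 - 18 * x ^ 19 - 15 * x ^ 18 + 15 * x ^ 17 + 23 * x ^ 16 - 44 * x ^ 15 - 107 * x ^ 14 - 46 * x ^ 13 + 64 * x ^ 12 + 42 * x ^ 11 - 94 * x ^ 10 - 154 * x ^ 9 - 72 * x ^ 8 + 25 * x ^ 7 + 25 * x ^ 6 - 38 * x ^ 5 - 75 * x ^ 4 - 61 * x ^ 3 - 29 * x ^ 2 - 8 * x - 1) * hE + (-x ^ 23 - 3 * x ^ 22 + 5 * x ^ 21 + 32 * x ^ 20 + 46 * x ^ 19 + 21 * x ^ 18 + 34 * x ^ 17 + 157 * x ^ 16 + 271 * x ^ 15 + 227 * x ^ 14 + 145 * x ^ 13 + 262 * x ^ 12 + 505 * x ^ 11 + 547 * x ^ 10 + 343 * x ^ 9 + 218 * x ^ 8 + 313 * x ^ 7 + 393 * x ^ 6 + 293 * x ^ 5 + 127 * x ^ 4 + 30 * x ^ 3 + 3 * x ^ 2) * hp)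
    (by linear_combination (x ^ 23 * y + 8 * x ^ 22 * y + 24 * x ^ 21 * y + 18 * x ^ 20 * y - 93 * x ^ 19 * y - 348 * x ^ 18 * y - 545 * x ^ 17 * y - 187 * x ^ 16 * y + 1168 * x ^ 15 * y + 3319 * x ^ 14 * y + 5326 * x ^ 13 * y + 6354 * x ^ 12 * y + 6570 * x ^ 11 * y + 6774 * x ^ 10 * y + 7171 * x ^ 9 * y + 7066 * x ^ 8 * y + 5879 * x ^ 7 * y + 3943 * x ^ 6 * y + 2100 * x ^ 5 * y + 884 * x ^ 4 * y + 291 * x ^ 3 * y + 72 * x ^ 2 * y + 12 * x * y + y) * hp)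
  obtain ⟨hF1, eF1⟩ := hφ x y h
  obtain ⟨hF2, eF2⟩ := hφ _ _ hF1
  obtain ⟨hC, eC⟩ := chord_frac W.toAffine 0 (-1) 0 h1 h2 h3 hF2
    (x ^ 9 + x ^ 3 + 1) ((x + 1) ^ 6) (-x ^ 12 * y + x ^ 11 * y - x ^ 9 * y + x ^ 6 * y - x ^ 5 * y - x ^ 3 * y - x ^ 2 * y + y) ((x + 1) ^ 9) (pow_ne_zero 6 hg2) (pow_ne_zero 9 hg2) hT
    (x ^ 6 * y - x ^ 5 * y + x ^ 3 * y) ((x + 1) ^ 3) (x ^ 3) 1 (((-(y ^ 3)) - (0 * (x ^ 3))) - 0) 1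
    (pow_ne_zero 3 hg2) one_ne_zero one_ne_zero
    (fun h0 => (pow_ne_zero 3 hg3) (by linear_combination (1) * h0 + (-3 * x ^ 14 - 4 * x ^ 13 - 7 * x ^ 12 - 6 * x ^ 11 - x ^ 10 + x ^ 9 - x ^ 8 + x ^ 7 + x ^ 6 - x ^ 5 - x ^ 4 - x ^ 2 - x) * hp))
    (by linear_combination (-x ^ 18 * y ^ 7 - 18 * x ^ 17 * y ^ 7 - 153 * x ^ 16 * y ^ 7 - 816 * x ^ 15 * y ^ 7 - 3060 * x ^ 14 * y ^ 7 - 8568 * x ^ 13 * y ^ 7 - 18564 * x ^ 12 * y ^ 7 - 31824 * x ^ 11 * y ^ 7 - 43758 * x ^ 10 * y ^ 7 - 48620 * x ^ 9 * y ^ 7 - 43758 * x ^ 8 * y ^ 7 - 31824 * x ^ 7 * y ^ 7 - 18564 * x ^ 6 * y ^ 7 - 8568 * x ^ 5 * y ^ 7 - 3060 * x ^ 4 * y ^ 7 - 816 * x ^ 3 * y ^ 7 - 153 * x ^ 2 * y ^ 7 - 18 * x * y ^ 7 - y ^ 7 - x ^ 21 * y ^ 5 - 17 * x ^ 20 * y ^ 5 - 135 * x ^ 19 * y ^ 5 - 664 * x ^ 18 * y ^ 5 - 2262 *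 x ^ 17 * y ^ 5 - 5661 * x ^ 16 * y ^ 5 - 10812 * x ^ 15 * y ^ 5 - 16320 * x ^ 14 * y ^ 5 - 20502 * x ^ 13 * y ^ 5 - 23426 * x ^ 12 * y ^ 5 - 26962 * x ^ 11 * y ^ 5 - 31824 * x ^ 10 * y ^ 5 - 35360 * x ^ 9 * y ^ 5 - 33762 * x ^ 8 * y ^ 5 - 26316 * x ^ 7 * y ^ 5 - 16320 * x ^ 6 * y ^ 5 - 7905 * x ^ 5 * y ^ 5 - 2925 * x ^ 4 * y ^ 5 - 799 * x ^ 3 * y ^ 5 - 152 * x ^ 2 * y ^ 5 - 18 * x * y ^ 5 - y ^ 5 - x ^ 24 * y ^ 3 - 16 * x ^ 23 * y ^ 3 - 118 * x ^ 22 * y ^ 3 - 530 * x ^ 21 * y ^ 3 - 1615 * x ^ 20 * y ^ 3 - 3534 * x ^ 19 * y ^ 3 - 5815 * x ^ 18 * y ^ 3 - 7770 * x ^ 17 * y ^ 3 - 9843 * x ^ 16 * y ^ 3 - 13736 * x ^ 15 * y ^ 3 - 19856 * x ^ 14 * y ^ 3 - 25364 * x ^ 13 * y ^ 3 - 26962 * x ^ 12 * y ^ 3 - 25364 * x ^ 11 * y ^ 3 - 24378 * x ^ 10 * y ^ 3 - 25364 * x ^ 9 * y ^ 3 - 25347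 * x ^ 8 * y ^ 3 - 21336 * x ^ 7 * y ^ 3 - 14194 * x ^ 6 * y ^ 3 - 7258 * x ^ 5 * y ^ 3 - 2791 * x ^ 4 * y ^ 3 - 782 * x ^ 3 * y ^ 3 - 151 * x ^ 2 * y ^ 3 - 18 * x * y ^ 3 - y ^ 3 - x ^ 27 * y - 15 * x ^ 26 * y - 102 * x ^ 25 * y - 413 * x ^ 24 * y - 1101 * x ^ 23 * y - 2037 * x ^ 22 * y - 2811 * x ^ 21 * y - 3570 * x ^ 20 * y - 5607 * x ^ 19 * y - 9708 * x ^ 18 * y - 13890 * x ^ 17 * y - 15351 * x ^ 16 * y - 15334 * x ^ 15 * y - 18258 * x ^ 14 * y - 24378 * x ^ 13 * y - 27948 * x ^ 12 * y - 25347 * x ^ 11 * y - 20367 * x ^ 10 * y - 18222 * x ^ 9 * y - 18411 * x ^ 8 * y - 16869 * x ^ 7 * y - 12185 * x ^ 6 * y - 6627 * x ^ 5 * y - 2658 * x ^ 4 * y - 765 * x ^ 3 * y - 150 * x ^ 2 * y - 18 * x * y - y) * hE + (x ^ 28 * y + 13 * x ^ 27 * y + 74 * x ^ 26 * y + 235 * x ^ 25 * y + 423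 * x ^ 24 * y + 309 * x ^ 23 * y - 366 * x ^ 22 * y - 1129 * x ^ 21 * y - 1126 * x ^ 20 * y - 778 * x ^ 19 * y - 1896 * x ^ 18 * y - 4766 * x ^ 17 * y - 6786 * x ^ 16 * y - 6210 * x ^ 15 * y - 5239 * x ^ 14 * y - 6509 * x ^ 13 * y - 8641 * x ^ 12 * y - 8556 * x ^ 11 * y - 6338 * x ^ 10 * y - 4606 * x ^ 9 * y - 4405 * x ^ 8 * y - 4417 * x ^ 7 * y - 3501 * x ^ 6 * y - 2014 * x ^ 5 * y - 818 * x ^ 4 * y - 225 * x ^ 3 * y - 38 * x ^ 2 * y - 3 * x * y) * hp)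
    (by linear_combination (-x ^ 18 - 4 * x ^ 17 - 4 * x ^ 16 + 2 * x ^ 15 - 14 * x ^ 13 - 15 * x ^ 12 + 2 * x ^ 10 - 10 * x ^ 9 - 13 * x ^ 8 - 6 * x ^ 7 - x ^ 6) * hE + (3 * x ^ 20 + 22 * x ^ 19 + 75 * x ^ 18 + 163 * x ^ 17 + 258 * x ^ 16 + 309 * x ^ 15 + 275 * x ^ 14 + 188 * x ^ 13 + 144 * x ^ 12 + 187 * x ^ 11 + 251 * x ^ 10 + 234 * x ^ 9 + 97 * x ^ 8 - 96 * x ^ 7 - 228 * x ^ 6 - 235 * x ^ 5 - 154 * x ^ 4 - 66 * x ^ 3 - 17 * x ^ 2 - 2 * x) * hp)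
    (by linear_combination (x ^ 3 * y ^ 7 + 3 * x ^ 2 * y ^ 7 + 3 * x * y ^ 7 + y ^ 7 + x ^ 6 * y ^ 5 + 2 * x ^ 5 * y ^ 5 - x ^ 3 * y ^ 5 + 2 * x ^ 2 * y ^ 5 + 3 * x * y ^ 5 + y ^ 5 + x ^ 9 * y ^ 3 + x ^ 8 * y ^ 3 - 2 * x ^ 7 * y ^ 3 + 5 * x ^ 5 * y ^ 3 + x ^ 4 * y ^ 3 - 3 * x ^ 3 * y ^ 3 + x ^ 2 * y ^ 3 + 3 * x * y ^ 3 + y ^ 3 + x ^ 12 * y - 3 * x ^ 10 * y + 3 * x ^ 9 * y + 6 * x ^ 8 * y - 6 * x ^ 7 * y - 4 * x ^ 6 * y + 9 * x ^ 5 * y + 3 * x ^ 4 * y - 6 * x ^ 3 * y - 3 * x ^ 2 * y) * hE + (-x ^ 13 * y + 2 * x ^ 12 * y + x ^ 11 * y - 5 * x ^ 10 * y + 2 * x ^ 9 * y + 6 * x ^ 8 * y - 4 * x ^ 7 * y - 4 * x ^ 6 * y + 4 * x ^ 5 * y + 2 * x ^ 4 * y - 2 * x ^ 3 * y - x ^ 2 * y) * hp)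
  have key : φ (φ (Point.some x y h)) + (3 : ℤ) • Point.some x y h = (-1 : ℤ) • φ (Point.some x y h) := by
    rw [← map_zsmul φ, three_zsmul_eq, neg_one_zsmul_eq]
    rw [eD, eT, map_neg, eF1, eF2, eC, Point.neg_some]
    refine some_eq_some W.toAffine _ _ (div_one _) ?_
    rw [div_one, negY, h1, h3]
  rw [sub_add_eq_add_sub, key, sub_self]

/-- The Frobenius quadratic equation on `c3om1` (`p = 3`, trace `-1`). -/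
theorem quad_c3om1 {K : Type*} [Field K] [IsAlgClosed K] [DecidableEq K] (W : WeierstrassCurve K)
    (h1 : W.a₁ = 0) (h2 : W.a₂ = (-1)) (h3 : W.a₃ = 0) (h4 : W.a₄ = 0) (h6 : W.a₆ = 1)
    (hΔ : W.Δ ≠ 0) (hp : (3 : K) = 0) (φ : W.toAffine.Point →+ W.toAffine.Point)
    (hφ : ∀ (x y : K) (h : W.toAffine.Nonsingular x y),
      ∃ h' : W.toAffine.Nonsingular (x ^ 3) (y ^ 3), φ (Point.some x y h) = Point.some _ _ h')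
    (P : W.toAffine.Point) :
    φ (φ P) - (-1 : ℤ) • φ P + (3 : ℤ) • P = 0 := by
  refine eq_zero_of_generic W.toAffine hΔ
    (φ.comp φ - (-1 : ℤ) • φ + (3 : ℤ) • AddMonoidHom.id _)
    ((Polynomial.X ^ 3 - Polynomial.X ^ 2 + 1 : Polynomial K) * (Polynomial.X + 1 : Polynomial K) * (Polynomial.X ^ 5 - Polynomial.X ^ 4 - Polynomial.X - 1 : Polynomial K))
    (Polynomial.Monic.ne_zero (Polynomial.Monic.mul (Polynomial.Monic.mul (by monicity! : Polynomial.Monic (Polynomial.X ^ 3 - Polynomial.X ^ 2 + 1 : Polynomial K)) (by monicity! : Polynomial.Monic (Polynomial.X + 1 : Polynomial K))) (by monicity! : Polynomial.Monic (Polynomial.X ^ 5 - Polynomial.X ^ 4 - Polynomial.X - 1 : Polynomial K)))) (fun x y h hx => ?_) P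
  have hx' := hx
  rw [Polynomial.eval_mul] at hx'
  have q3 := right_ne_zero_of_mul hx'
  replace hx' := left_ne_zero_of_mul hx'
  rw [Polynomial.eval_mul] at hx'
  have q2 := right_ne_zero_of_mul hx'
  replace hx' := left_ne_zero_of_mul hx'
  have q1 := hx'
  have e1 : Polynomial.eval x (Polynomial.X ^ 3 - Polynomial.X ^ 2 + 1 : Polynomial K) = x ^ 3 - x ^ 2 + 1 := by simp
  rw [e1] at q1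
  have e2 : Polynomial.eval x (Polynomial.X + 1 : Polynomial K) = x + 1 := by simp
  rw [e2] at q2
  have e3 : Polynomial.eval x (Polynomial.X ^ 5 - Polynomial.X ^ 4 - Polynomial.X - 1 : Polynomial K) = x ^ 5 - x ^ 4 - x - 1 := by simp
  rw [e3] at q3
  exact gen_c3om1 W h1 h2 h3 h4 h6 hp φ hφ x y h q1 q2 q3

/-- generic point computation for `c3omm` (`p = 3`, `#E(𝔽_p) = 2`, trace `2`). -/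
theorem gen_c3omm {k : Type*} [Field k] [DecidableEq k] (W : WeierstrassCurve k)
    (h1 : W.a₁ = 0) (h2 : W.a₂ = (-1)) (h3 : W.a₃ = 0) (h4 : W.a₄ = 0) (h6 : W.a₆ = (-1))
    (hp : (3 : k) = 0) (φ : W.toAffine.Point →+ W.toAffine.Point)
    (hφ : ∀ (x y : k) (h : W.toAffine.Nonsingular x y),
      ∃ h' : W.toAffine.Nonsingular (x ^ 3) (y ^ 3), φ (Point.some x y h) = Point.some _ _ h')
    (x y : k) (h : W.toAffine.Nonsingular x y)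
    (hg1 : x + 1 ≠ 0)
    (hg2 : x ^ 2 + x - 1 ≠ 0)
    (hg3 : x - 1 ≠ 0)
    (hg4 : x ^ 2 - x - 1 ≠ 0)
    : φ (φ (Point.some x y h)) - (2 : ℤ) • φ (Point.some x y h) + (3 : ℤ) • Point.some x y h = 0 := by
  have hE : y ^ 2 + 0 * x * y + 0 * y = x ^ 3 + (-1) * x ^ 2 + 0 * x + (-1) := by
    have := (W.toAffine.equation_iff x y).mp h.1
    rwa [h1, h2, h3, h4, h6] at this
  obtain ⟨hD, eD⟩ := dbl_frac W.toAffine 0 (-1) 0 0 h1 h2 h3 h4 h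
    (-x * y) ((x + 1) * (x ^ 2 + x - 1)) (x ^ 4 - x - 1) ((x + 1) * (x ^ 2 + x - 1)) (-x ^ 6 * y - x ^ 5 * y - x ^ 3 * y + x ^ 2 * y - x * y - y) (((x + 1) ^ 2) * ((x ^ 2 + x - 1) ^ 2))
    (mul_ne_zero hg1 hg2) (mul_ne_zero hg1 hg2) (mul_ne_zero (pow_ne_zero 2 hg1) (pow_ne_zero 2 hg2))
    (fun h0 => (mul_ne_zero hg1 hg2) (by linear_combination (-y) * h0 + (2) * hE + (x ^ 3 - 1) * hp))
    (by linear_combination (-2 * x) * hE + (-x ^ 5 - 2 * x ^ 4 + 2 * x ^ 3 + x ^ 2) * hp)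
    (by linear_combination (-x ^ 5 - 2 * x ^ 4 + x ^ 2) * hE + (x ^ 10 + 5 * x ^ 9 + 7 * x ^ 8 - 2 * x ^ 7 - 12 * x ^ 6 - 6 * x ^ 5 + 6 * x ^ 4 + 5 * x ^ 3 - x ^ 2 - x) * hp)
    (by linear_combination (x ^ 11 * y + 6 * x ^ 10 * y + 11 * x ^ 9 * y + x ^ 8 * y - 16 * x ^ 7 * y - 10 * x ^ 6 * y + 7 * x ^ 5 * y + 6 * x ^ 4 * y - x ^ 3 * y - x ^ 2 * y) * hp)
  obtain ⟨hT, eT⟩ := chord_frac W.toAffine 0 (-1) 0 h1 h2 h3 h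
    (x ^ 4 - x - 1) ((x + 1) * (x ^ 2 + x - 1)) (-x ^ 6 * y - x ^ 5 * y - x ^ 3 * y + x ^ 2 * y - x * y - y) (((x + 1) ^ 2) * ((x ^ 2 + x - 1) ^ 2)) (mul_ne_zero hg1 hg2) (mul_ne_zero (pow_ne_zero 2 hg1) (pow_ne_zero 2 hg2)) hD
    (x ^ 6 * y + x ^ 5 * y - x ^ 4 * y + x ^ 3 * y - x ^ 2 * y - x * y + y) (((x + 1) * ((x - 1) ^ 3)) * (x ^ 2 + x - 1)) (x ^ 9 - x ^ 3 - 1) ((x - 1) ^ 6) (-x ^ 12 * y + x ^ 11 * y + x ^ 9 * y - x ^ 6 * y + x ^ 5 * y + x ^ 3 * y) ((x - 1) ^ 9)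
    (mul_ne_zero (mul_ne_zero hg1 (pow_ne_zero 3 hg3)) hg2) (pow_ne_zero 6 hg3) (pow_ne_zero 9 hg3)
    (fun h0 => (pow_ne_zero 3 hg3) (by linear_combination (-1) * h0 + (x ^ 3 - x ^ 2 + x) * hp))
    (by linear_combination (x ^ 14 * y + 5 * x ^ 13 * y + 9 * x ^ 12 * y + 4 * x ^ 11 * y - 14 * x ^ 10 * y - 24 * x ^ 9 * y + 8 * x ^ 8 * y + 35 * x ^ 7 * y - 6 * x ^ 6 * y - 28 * x ^ 5 * y + 8 * x ^ 4 * y + 12 * x ^ 3 * y - 5 * x ^ 2 * y - 2 * x * y + y) * hp)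
    (by linear_combination (-x ^ 21 + 2 * x ^ 20 + 6 * x ^ 19 - 19 * x ^ 18 + 3 * x ^ 17 + 48 * x ^ 16 - 76 * x ^ 15 + 23 * x ^ 14 + 104 * x ^ 13 - 196 * x ^ 12 + 118 * x ^ 11 + 90 * x ^ 10 - 228 * x ^ 9 + 180 * x ^ 8 - 11 * x ^ 7 - 122 * x ^ 6 + 118 * x ^ 5 - 31 * x ^ 4 - 25 * x ^ 3 + 24 * x ^ 2 - 8 * x + 1) * hE + (x ^ 23 - x ^ 22 - 12 * x ^ 21 + 29 * x ^ 20 + 14 * x ^ 19 - 134 * x ^ 18 + 156 * x ^ 17 + 119 * x ^ 16 - 469 * x ^ 15 + 325 * x ^ 14 + 322 * x ^ 13 - 634 * x ^ 12 + 162 * x ^ 11 + 391 * x ^ 10 - 313 * x ^ 9 - 92 * x ^ 8 + 217 * x ^ 7 - 59 * x ^ 6 - 61 * x ^ 5 + 54 * x ^ 4 - 17 * x ^ 3 + 2 * x ^ 2) * hp)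
    (by linear_combination (3 * x ^ 21 * y - 32 * x ^ 20 * y + 158 * x ^ 19 * y - 473 * x ^ 18 * y + 914 * x ^ 17 * y - 985 * x ^ 16 * y - 290 * x ^ 15 * y + 3703 * x ^ 14 * y - 8564 * x ^ 13 * y + 12117 * x ^ 12 * y - 11210 * x ^ 11 * y + 5332 * x ^ 10 * y + 2321 * x ^ 9 * y - 7427 * x ^ 8 * y + 8110 * x ^ 7 * y - 5761 * x ^ 6 * y + 2915 * x ^ 5 * y - 1057 * x ^ 4 * y + 264 * x ^ 3 * y - 41 * x ^ 2 * y + 3 * x * y) * hp)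
  obtain ⟨hF1, eF1⟩ := hφ x y h
  obtain ⟨hF2, eF2⟩ := hφ _ _ hF1
  obtain ⟨hFm, eFm⟩ := hφ _ _ hD
  obtain ⟨hFm', eFm'⟩ := some_congr W.toAffine hFm (div_pow _ _ _) (div_pow _ _ _)
  obtain ⟨hC, eC⟩ := chord_frac W.toAffine 0 (-1) 0 h1 h2 h3 hF2
    (x ^ 9 - x ^ 3 - 1) ((x - 1) ^ 6) (-x ^ 12 * y + x ^ 11 * y + x ^ 9 * y - x ^ 6 * y + x ^ 5 * y + x ^ 3 * y) ((x - 1) ^ 9) (pow_ne_zero 6 hg3) (pow_ne_zero 9 hg3) hT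
    (x ^ 12 * y + x ^ 6 * y - y) ((((x + 1) ^ 2) * ((x - 1) ^ 3)) * ((x ^ 2 + x - 1) ^ 2)) ((x ^ 4 - x - 1) ^ 3) (((x + 1) * (x ^ 2 + x - 1)) ^ 3) ((-x ^ 6 * y - x ^ 5 * y - x ^ 3 * y + x ^ 2 * y - x * y - y) ^ 3) ((((x + 1) ^ 2) * ((x ^ 2 + x - 1) ^ 2)) ^ 3)
    (mul_ne_zero (mul_ne_zero (pow_ne_zero 2 hg1) (pow_ne_zero 3 hg3)) (pow_ne_zero 2 hg2)) (pow_ne_zero 3 (mul_ne_zero hg1 hg2)) (pow_ne_zero 3 (mul_ne_zero (pow_ne_zero 2 hg1) (pow_ne_zero 2 hg2)))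
    (fun h0 => (mul_ne_zero (mul_ne_zero (pow_ne_zero 3 hg1) (pow_ne_zero 3 hg2)) (pow_ne_zero 3 hg4)) (by linear_combination (1) * h0 + (3 * x ^ 14 - 7 * x ^ 13 - 2 * x ^ 12 - 4 * x ^ 11 + 29 * x ^ 10 + 15 * x ^ 9 - 35 * x ^ 8 - 35 * x ^ 7 + 15 * x ^ 6 + 27 * x ^ 5 + x ^ 4 - 9 * x ^ 3 - 2 * x ^ 2 + x) * hp))
    (by linear_combination (-x ^ 24 * y ^ 7 + 14 * x ^ 23 * y ^ 7 - 85 * x ^ 22 * y ^ 7 + 278 * x ^ 21 * y ^ 7 - 440 * x ^ 20 * y ^ 7 - 174 * x ^ 19 * y ^ 7 + 2447 * x ^ 18 * y ^ 7 - 5286 * x ^ 17 * y ^ 7 + 4233 * x ^ 16 * y ^ 7 + 4556 * x ^ 15 * y ^ 7 - 16762 * x ^ 14 * y ^ 7 + 20060 * x ^ 13 * y ^ 7 - 7072 * x ^ 12 * y ^ 7 - 13532 * x ^ 11 * y ^ 7 + 24582 * x ^ 10 * y ^ 7 - 18700 * x ^ 9 * y ^ 7 + 4233 * x ^ 8 * y ^ 7 + 6342 * x ^ 7 * y ^ 7 - 8497 * x ^ 6 * y ^ 7 + 5678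 * x ^ 5 * y ^ 7 - 2488 * x ^ 4 * y ^ 7 + 746 * x ^ 3 * y ^ 7 - 149 * x ^ 2 * y ^ 7 + 18 * x * y ^ 7 - y ^ 7 - x ^ 27 * y ^ 5 + 15 * x ^ 26 * y ^ 5 - 99 * x ^ 25 * y ^ 5 + 364 * x ^ 24 * y ^ 5 - 732 * x ^ 23 * y ^ 5 + 351 * x ^ 22 * y ^ 5 + 2343 * x ^ 21 * y ^ 5 - 7293 * x ^ 20 * y ^ 5 + 9693 * x ^ 19 * y ^ 5 - 2124 * x ^ 18 * y ^ 5 - 16032 * x ^ 17 * y ^ 5 + 32589 * x ^ 16 * y ^ 5 - 31688 * x ^ 15 * y ^ 5 + 10302 * x ^ 14 * y ^ 5 + 18054 * x ^ 13 * y ^ 5 - 36210 * x ^ 12 * y ^ 5 + 36465 * x ^ 11 * y ^ 5 - 22473 * x ^ 10 * y ^ 5 + 3861 * x ^ 9 * y ^ 5 + 9942 * x ^ 8 * y ^ 5 - 14508 * x ^ 7 * y ^ 5 + 11731 * x ^ 6 * y ^ 5 - 6573 * x ^ 5 * y ^ 5 + 2655 * x ^ 4 * y ^ 5 - 765 * x ^ 3 * y ^ 5 + 150 * x ^ 2 * y ^ 5 - 18 * x * y ^ 5 + y ^ 5 - x ^ 30 * y ^ 3 + 16 * x ^ 29 * y ^ 3 - 114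 * x ^ 28 * y ^ 3 + 464 * x ^ 27 * y ^ 3 - 1111 * x ^ 26 * y ^ 3 + 1182 * x ^ 25 * y ^ 3 + 1628 * x ^ 24 * y ^ 3 - 8904 * x ^ 23 * y ^ 3 + 16635 * x ^ 22 * y ^ 3 - 14160 * x ^ 21 * y ^ 3 - 6615 * x ^ 20 * y ^ 3 + 38928 * x ^ 19 * y ^ 3 - 62153 * x ^ 18 * y ^ 3 + 58022 * x ^ 17 * y ^ 3 - 24837 * x ^ 16 * y ^ 3 - 22576 * x ^ 15 * y ^ 3 + 62373 * x ^ 14 * y ^ 3 - 76992 * x ^ 13 * y ^ 3 + 62544 * x ^ 12 * y ^ 3 - 30384 * x ^ 11 * y ^ 3 - 1977 * x ^ 10 * y ^ 3 + 22378 * x ^ 9 * y ^ 3 - 28246 * x ^ 8 * y ^ 3 + 23736 * x ^ 7 * y ^ 3 - 15151 * x ^ 6 * y ^ 3 + 7488 * x ^ 5 * y ^ 3 - 2823 * x ^ 4 * y ^ 3 + 784 * x ^ 3 * y ^ 3 - 151 * x ^ 2 * y ^ 3 + 18 * x * y ^ 3 - y ^ 3 - x ^ 33 * y + 17 * x ^ 32 * y - 130 * x ^ 31 * y + 579 * x ^ 30 * y - 1591 * x ^ 29 * y + 2407 * x ^ 28 * y - 18 *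 x ^ 27 * y - 9421 * x ^ 26 * y + 24357 * x ^ 25 * y - 32423 * x ^ 24 * y + 16449 * x ^ 23 * y + 28908 * x ^ 22 * y - 86921 * x ^ 21 * y + 126790 * x ^ 20 * y - 121787 * x ^ 19 * y + 64414 * x ^ 18 * y + 26927 * x ^ 17 * y - 114528 * x ^ 16 * y + 162112 * x ^ 15 * y - 155301 * x ^ 14 * y + 105399 * x ^ 13 * y - 38189 * x ^ 12 * y - 20240 * x ^ 11 * y + 53959 * x ^ 10 * y - 61265 * x ^ 9 * y + 50885 * x ^ 8 * y - 34047 * x ^ 7 * y + 18758 * x ^ 6 * y - 8423 * x ^ 5 * y + 2992 * x ^ 4 * y - 803 * x ^ 3 * y + 152 * x ^ 2 * y - 18 * x * y + y) * hE + (x ^ 35 * y - 14 * x ^ 34 * y + 85 * x ^ 33 * y - 274 * x ^ 32 * y + 375 * x ^ 31 * y + 667 * x ^ 30 * y - 4751 * x ^ 29 * y + 12625 * x ^ 28 * y - 20713 * x ^ 27 * y + 20847 * x ^ 26 * y - 5383 * x ^ 25 * y - 26016 * x ^ 24 * y + 63614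 * x ^ 23 * y - 90401 * x ^ 22 * y + 89497 * x ^ 21 * y - 54152 * x ^ 20 * y - 6037 * x ^ 19 * y + 69176 * x ^ 18 * y - 112571 * x ^ 17 * y + 122861 * x ^ 16 * y - 100257 * x ^ 15 * y + 56872 * x ^ 14 * y - 10065 * x ^ 13 * y - 25799 * x ^ 12 * y + 44215 * x ^ 11 * y - 46386 * x ^ 10 * y + 38108 * x ^ 9 * y - 26081 * x ^ 8 * y + 15172 * x ^ 7 * y - 7498 * x ^ 6 * y + 3085 * x ^ 5 * y - 1012 * x ^ 4 * y + 246 * x ^ 3 * y - 39 * x ^ 2 * y + 3 * x * y) * hp)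
    (by linear_combination (-x ^ 39 + 9 * x ^ 37 - 3 * x ^ 36 - 33 * x ^ 35 + 21 * x ^ 34 + 58 * x ^ 33 - 57 * x ^ 32 - 33 * x ^ 31 + 68 * x ^ 30 - 57 * x ^ 29 - 3 * x ^ 28 + 134 * x ^ 27 - 105 * x ^ 26 - 117 * x ^ 25 + 152 * x ^ 24 + 51 * x ^ 23 - 111 * x ^ 22 - 32 * x ^ 21 + 75 * x ^ 20 + 21 * x ^ 19 - 66 * x ^ 18 + 57 * x ^ 17 + 3 * x ^ 16 - 134 * x ^ 15 + 105 * x ^ 14 + 117 * x ^ 13 - 152 * x ^ 12 - 51 * x ^ 11 + 111 * x ^ 10 + 34 * x ^ 9 - 75 * x ^ 8 - 39 * x ^ 7 + 72 * x ^ 6 + 9 * x ^ 5 - 45 * x ^ 4 + 13 * x ^ 3 + 9 * x ^ 2 - 6 * x + 1) * hE + (x ^ 41 - 3 * x ^ 40 - 14 * x ^ 39 + 43 * x ^ 38 + 87 * x ^ 37 - 287 * x ^ 36 - 315 * x ^ 35 + 1211 * x ^ 34 + 707 * x ^ 33 - 3632 * x ^ 32 - 809 * x ^ 31 + 8068 * x ^ 30 - 574 * x ^ 29 - 13265 * x ^ 28 + 4503 * x ^ 27 + 15744 *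 x ^ 26 - 9890 * x ^ 25 - 12916 * x ^ 24 + 13728 * x ^ 23 + 6724 * x ^ 22 - 15132 * x ^ 21 - 832 * x ^ 20 + 16015 * x ^ 19 - 4517 * x ^ 18 - 15711 * x ^ 17 + 9559 * x ^ 16 + 11348 * x ^ 15 - 11217 * x ^ 14 - 4519 * x ^ 13 + 8104 * x ^ 12 - 63 * x ^ 11 - 3562 * x ^ 10 + 1090 * x ^ 9 + 824 * x ^ 8 - 571 * x ^ 7 - 12 * x ^ 6 + 126 * x ^ 5 - 40 * x ^ 4 - 6 * x ^ 3 + 6 * x ^ 2 - x) * hp)
    (by linear_combination (x ^ 36 * y ^ 7 + 19 * x ^ 35 * y ^ 7 + 157 * x ^ 34 * y ^ 7 + 714 * x ^ 33 * y ^ 7 + 1771 * x ^ 32 * y ^ 7 + 1331 * x ^ 31 * y ^ 7 - 5478 * x ^ 30 * y ^ 7 - 17567 * x ^ 29 * y ^ 7 - 12969 * x ^ 28 * y ^ 7 + 32494 * x ^ 27 * y ^ 7 + 77297 * x ^ 26 * y ^ 7 + 16865 * x ^ 25 * y ^ 7 - 135537 * x ^ 24 * y ^ 7 - 150034 * x ^ 23 * y ^ 7 + 91474 * x ^ 22 * y ^ 7 + 268356 * x ^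 21 * y ^ 7 + 51326 * x ^ 20 * y ^ 7 - 264594 * x ^ 19 * y ^ 7 - 174548 * x ^ 18 * y ^ 7 + 157938 * x ^ 17 * y ^ 7 + 193182 * x ^ 16 * y ^ 7 - 48708 * x ^ 15 * y ^ 7 - 133518 * x ^ 14 * y ^ 7 - 4686 * x ^ 13 * y ^ 7 + 64911 * x ^ 12 * y ^ 7 + 13167 * x ^ 11 * y ^ 7 - 23199 * x ^ 10 * y ^ 7 - 7150 * x ^ 9 * y ^ 7 + 6215 * x ^ 8 * y ^ 7 + 2255 * x ^ 7 * y ^ 7 - 1254 * x ^ 6 * y ^ 7 - 451 * x ^ 5 * y ^ 7 + 187 * x ^ 4 * y ^ 7 + 54 * x ^ 3 * y ^ 7 - 19 * x ^ 2 * y ^ 7 - 3 * x * y ^ 7 + y ^ 7 + x ^ 39 * y ^ 5 + 18 * x ^ 38 * y ^ 5 + 138 * x ^ 37 * y ^ 5 + 556 * x ^ 36 * y ^ 5 + 1038 * x ^ 35 * y ^ 5 - 597 * x ^ 34 * y ^ 5 - 7523 * x ^ 33 * y ^ 5 - 13860 * x ^ 32 * y ^ 5 + 3267 * x ^ 31 * y ^ 5 + 50941 * x ^ 30 * y ^ 5 + 62370 * x ^ 29 * y ^ 5 - 47463 * x ^ 28 * y ^ 5 - 184896 * x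 ^ 27 * y ^ 5 - 91794 * x ^ 26 * y ^ 5 + 224643 * x ^ 25 * y ^ 5 + 312419 * x ^ 24 * y ^ 5 - 66996 * x ^ 23 * y ^ 5 - 407394 * x ^ 22 * y ^ 5 - 178310 * x ^ 21 * y ^ 5 + 281160 * x ^ 20 * y ^ 5 + 299838 * x ^ 19 * y ^ 5 - 67342 * x ^ 18 * y ^ 5 - 242748 * x ^ 17 * y ^ 5 - 64350 * x ^ 16 * y ^ 5 + 118305 * x ^ 15 * y ^ 5 + 81774 * x ^ 14 * y ^ 5 - 31680 * x ^ 13 * y ^ 5 - 48862 * x ^ 12 * y ^ 5 + 198 * x ^ 11 * y ^ 5 + 19239 * x ^ 10 * y ^ 5 + 3641 * x ^ 9 * y ^ 5 - 5412 * x ^ 8 * y ^ 5 - 1617 * x ^ 7 * y ^ 5 + 1121 * x ^ 6 * y ^ 5 + 378 * x ^ 5 * y ^ 5 - 171 * x ^ 4 * y ^ 5 - 50 * x ^ 3 * y ^ 5 + 18 * x ^ 2 * y ^ 5 + 3 * x * y ^ 5 - y ^ 5 + x ^ 42 * y ^ 3 + 17 * x ^ 41 * y ^ 3 + 120 * x ^ 40 * y ^ 3 + 417 * x ^ 39 * y ^ 3 + 464 * x ^ 38 * y ^ 3 - 1773 * x ^ 37 * y ^ 3 - 7482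 * x ^ 36 * y ^ 3 - 7375 * x ^ 35 * y ^ 3 + 17724 * x ^ 34 * y ^ 3 + 55197 * x ^ 33 * y ^ 3 + 25289 * x ^ 32 * y ^ 3 - 113100 * x ^ 31 * y ^ 3 - 188374 * x ^ 30 * y ^ 3 + 30732 * x ^ 29 * y ^ 3 + 363900 * x ^ 28 * y ^ 3 + 272672 * x ^ 27 * y ^ 3 - 287621 * x ^ 26 * y ^ 3 - 565041 * x ^ 25 * y ^ 3 - 83335 * x ^ 24 * y ^ 3 + 526466 * x ^ 23 * y ^ 3 + 426072 * x ^ 22 * y ^ 3 - 188870 * x ^ 21 * y ^ 3 - 456566 * x ^ 20 * y ^ 3 - 121440 * x ^ 19 * y ^ 3 + 249997 * x ^ 18 * y ^ 3 + 206217 * x ^ 17 * y ^ 3 - 49104 * x ^ 16 * y ^ 3 - 135487 * x ^ 15 * y ^ 3 - 32714 * x ^ 14 * y ^ 3 + 50721 * x ^ 13 * y ^ 3 + 33264 * x ^ 12 * y ^ 3 - 9251 * x ^ 11 * y ^ 3 - 15444 * x ^ 10 * y ^ 3 - 903 * x ^ 9 * y ^ 3 + 4669 * x ^ 8 * y ^ 3 + 1068 * x ^ 7 * y ^ 3 - 1000 * x ^ 6 * y ^ 3 - 310 * x ^ 5 *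 y ^ 3 + 156 * x ^ 4 * y ^ 3 + 46 * x ^ 3 * y ^ 3 - 17 * x ^ 2 * y ^ 3 - 3 * x * y ^ 3 + y ^ 3 + x ^ 45 * y + 16 * x ^ 44 * y + 103 * x ^ 43 * y + 296 * x ^ 42 * y + 30 * x ^ 41 * y - 2357 * x ^ 40 * y - 6126 * x ^ 39 * y - 357 * x ^ 38 * y + 26872 * x ^ 37 * y + 44954 * x ^ 36 * y - 22543 * x ^ 35 * y - 156150 * x ^ 34 * y - 130519 * x ^ 33 * y + 193870 * x ^ 32 * y + 446491 * x ^ 31 * y + 97297 * x ^ 30 * y - 591280 * x ^ 29 * y - 641841 * x ^ 28 * y + 208849 * x ^ 27 * y + 898086 * x ^ 26 * y + 465693 * x ^ 25 * y - 531769 * x ^ 24 * y - 795763 * x ^ 23 * y - 91831 * x ^ 22 * y + 561297 * x ^ 21 * y + 414563 * x ^ 20 * y - 133280 * x ^ 19 * y - 338293 * x ^ 18 * y - 105374 * x ^ 17 * y + 133691 * x ^ 16 * y + 120028 * x ^ 15 * y - 9667 * x ^ 14 * y - 58022 * x ^ 13 * y - 19899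 * x ^ 12 * y + 15104 * x ^ 11 * y + 13251 * x ^ 10 * y - 1135 * x ^ 9 * y - 4943 * x ^ 8 * y - 644 * x ^ 7 * y + 1304 * x ^ 6 * y + 258 * x ^ 5 * y - 251 * x ^ 4 * y - 43 * x ^ 3 * y + 32 * x ^ 2 * y + 3 * x * y - 2 * y) * hE + (-x ^ 47 * y - 19 * x ^ 46 * y - 157 * x ^ 45 * y - 718 * x ^ 44 * y - 1838 * x ^ 43 * y - 1815 * x ^ 42 * y + 3567 * x ^ 41 * y + 13434 * x ^ 40 * y + 9772 * x ^ 39 * y - 26269 * x ^ 38 * y - 60205 * x ^ 37 * y - 8185 * x ^ 36 * y + 121634 * x ^ 35 * y + 143630 * x ^ 34 * y - 71385 * x ^ 33 * y - 298470 * x ^ 32 * y - 170171 * x ^ 31 * y + 250505 * x ^ 30 * y + 427959 * x ^ 29 * y + 68414 * x ^ 28 * y - 404108 * x ^ 27 * y - 383929 * x ^ 26 * y + 86435 * x ^ 25 * y + 396060 * x ^ 24 * y + 209469 * x ^ 23 * y - 157705 * x ^ 22 * y - 254053 * x ^ 21 *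 y - 56662 * x ^ 20 * y + 125130 * x ^ 19 * y + 107541 * x ^ 18 * y - 7637 * x ^ 17 * y - 59705 * x ^ 16 * y - 27657 * x ^ 15 * y + 13407 * x ^ 14 * y + 17728 * x ^ 13 * y + 2146 * x ^ 12 * y - 5366 * x ^ 11 * y - 2476 * x ^ 10 * y + 853 * x ^ 9 * y + 942 * x ^ 8 * y - 71 * x ^ 7 * y - 285 * x ^ 6 * y + 7 * x ^ 5 * y + 75 * x ^ 4 * y - x ^ 3 * y - 13 * x ^ 2 * y + y) * hp)
  have key : φ (φ (Point.some x y h)) + (3 : ℤ) • Point.some x y h = (2 : ℤ) • φ (Point.some x y h) := by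
    rw [← map_zsmul φ, three_zsmul_eq, two_zsmul_eq]
    rw [eD, eT, eFm, eFm', eF1, eF2, eC]
  rw [sub_add_eq_add_sub, key, sub_self]

/-- The Frobenius quadratic equation on `c3omm` (`p = 3`, trace `2`). -/
theorem quad_c3omm {K : Type*} [Field K] [IsAlgClosed K] [DecidableEq K] (W : WeierstrassCurve K)
    (h1 : W.a₁ = 0) (h2 : W.a₂ = (-1)) (h3 : W.a₃ = 0) (h4 : W.a₄ = 0) (h6 : W.a₆ = (-1))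
    (hΔ : W.Δ ≠ 0) (hp : (3 : K) = 0) (φ : W.toAffine.Point →+ W.toAffine.Point)
    (hφ : ∀ (x y : K) (h : W.toAffine.Nonsingular x y),
      ∃ h' : W.toAffine.Nonsingular (x ^ 3) (y ^ 3), φ (Point.some x y h) = Point.some _ _ h')
    (P : W.toAffine.Point) :
    φ (φ P) - (2 : ℤ) • φ P + (3 : ℤ) • P = 0 := by
  refine eq_zero_of_generic W.toAffine hΔ
    (φ.comp φ - (2 : ℤ) • φ + (3 : ℤ) • AddMonoidHom.id _)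
    ((Polynomial.X + 1 : Polynomial K) * (Polynomial.X ^ 2 + Polynomial.X - 1 : Polynomial K) * (Polynomial.X - 1 : Polynomial K) * (Polynomial.X ^ 2 - Polynomial.X - 1 : Polynomial K))
    (Polynomial.Monic.ne_zero (Polynomial.Monic.mul (Polynomial.Monic.mul (Polynomial.Monic.mul (by monicity! : Polynomial.Monic (Polynomial.X + 1 : Polynomial K)) (by monicity! : Polynomial.Monic (Polynomial.X ^ 2 + Polynomial.X - 1 : Polynomial K))) (by monicity! : Polynomial.Monic (Polynomial.X - 1 : Polynomial K))) (by monicity! : Polynomial.Monic (Polynomial.X ^ 2 - Polynomial.X - 1 : Polynomial K)))) (fun x y h hx => ?_) P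
  have hx' := hx
  rw [Polynomial.eval_mul] at hx'
  have q4 := right_ne_zero_of_mul hx'
  replace hx' := left_ne_zero_of_mul hx'
  rw [Polynomial.eval_mul] at hx'
  have q3 := right_ne_zero_of_mul hx'
  replace hx' := left_ne_zero_of_mul hx'
  rw [Polynomial.eval_mul] at hx'
  have q2 := right_ne_zero_of_mul hx'
  replace hx' := left_ne_zero_of_mul hx'
  have q1 := hx'
  have e1 : Polynomial.eval x (Polynomial.X + 1 : Polynomial K) = x + 1 := by simp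
  rw [e1] at q1
  have e2 : Polynomial.eval x (Polynomial.X ^ 2 + Polynomial.X - 1 : Polynomial K) = x ^ 2 + x - 1 := by simp
  rw [e2] at q2
  have e3 : Polynomial.eval x (Polynomial.X - 1 : Polynomial K) = x - 1 := by simp
  rw [e3] at q3
  have e4 : Polynomial.eval x (Polynomial.X ^ 2 - Polynomial.X - 1 : Polynomial K) = x ^ 2 - x - 1 := by simp
  rw [e4] at q4
  exact gen_c3omm W h1 h2 h3 h4 h6 hp φ hφ x y h q1 q2 q3 q4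

end Fermat.Agent.S58.FQS.Char3Ord
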