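import Mathlib
import Fermat.Agent.S58.FQS.Basic

/-!
# S58 / [FQ-small] — the Frobenius quadratic equation on the normal forms in characteristic 3

Machine-generated certificates (owner: helper11).  For each Weierstrass normal form over `𝔽_3`
(`y² = x³ + x`, `y² = x³ - x + a₆`) with `#E(𝔽_3) = 3 + 1 - a`:

* `gen_*`: for a generic affine point `P = (x, y)`, the explicit duplication and triplication and one chord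
  addition give `φ² P + 3 P = φ (a P)`; every step is a polynomial identity modulo the curve
  equation and `3`, closed by `linear_combination`;
* `quad_*`: the relation `φ² - a φ + 3 = 0` on all of `E(K)`, `K` algebraically closed
  (`Basic.eq_zero_of_generic`).
-/

set_option autoImplicit false
set_option linter.unusedVariables false

namespace Fermat.Agent.S58.FQS.Char3SS

open WeierstrassCurve WeierstrassCurve.Affine Fermat.Agent.S58.FQS.Basic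

/-- generic point computation for `c3s1` (`p = 3`, `#E(𝔽_p) = 4`, trace `0`). -/
theorem gen_c3s1 {k : Type*} [Field k] [DecidableEq k] (W : WeierstrassCurve k)
    (h1 : W.a₁ = 0) (h2 : W.a₂ = 0) (h3 : W.a₃ = 0) (h4 : W.a₄ = 1) (h6 : W.a₆ = 0)
    (hp : (3 : k) = 0) (φ : W.toAffine.Point →+ W.toAffine.Point)
    (hφ : ∀ (x y : k) (h : W.toAffine.Nonsingular x y),
      ∃ h' : W.toAffine.Nonsingular (x ^ 3) (y ^ 3), φ (Point.some x y h) = Point.some _ _ h')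
    (x y : k) (h : W.toAffine.Nonsingular x y)
    (hg1 : x ≠ 0)
    (hg2 : x ^ 2 + 1 ≠ 0)
    : φ (φ (Point.some x y h)) - (0 : ℤ) • φ (Point.some x y h) + (3 : ℤ) • Point.some x y h = 0 := by
  have hE : y ^ 2 + 0 * x * y + 0 * y = x ^ 3 + 0 * x ^ 2 + 1 * x + 0 := by
    have := (W.toAffine.equation_iff x y).mp h.1
    rwa [h1, h2, h3, h4, h6] at this
  obtain ⟨hD, eD⟩ := dbl_frac W.toAffine 0 0 0 1 h1 h2 h3 h4 h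
    (-y) (x * (x ^ 2 + 1)) (x ^ 4 + x ^ 2 + 1) (x * (x ^ 2 + 1)) (-x ^ 6 * y + x ^ 4 * y - x ^ 2 * y + y) ((x ^ 2) * ((x ^ 2 + 1) ^ 2))
    (mul_ne_zero hg1 hg2) (mul_ne_zero hg1 hg2) (mul_ne_zero (pow_ne_zero 2 hg1) (pow_ne_zero 2 hg2))
    (fun h0 => (mul_ne_zero hg1 hg2) (by linear_combination (-y) * h0 + (2) * hE + (x ^ 3 + x) * hp))
    (by linear_combination (-2) * hE + (-x ^ 5 - 2 * x ^ 3 - x) * hp)
    (by linear_combination (-x ^ 3 - x) * hE + (x ^ 10 + 3 * x ^ 8 + 3 * x ^ 6 + x ^ 4) * hp)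
    (by linear_combination (x ^ 10 * y + 2 * x ^ 8 * y + x ^ 6 * y) * hp)
  obtain ⟨hT, eT⟩ := chord_frac W.toAffine 0 0 0 h1 h2 h3 h
    (x ^ 4 + x ^ 2 + 1) (x * (x ^ 2 + 1)) (-x ^ 6 * y + x ^ 4 * y - x ^ 2 * y + y) ((x ^ 2) * ((x ^ 2 + 1) ^ 2)) (mul_ne_zero hg1 hg2) (mul_ne_zero (pow_ne_zero 2 hg1) (pow_ne_zero 2 hg2)) hD
    (x ^ 6 * y - x ^ 4 * y + x ^ 2 * y + y) (x * (x ^ 2 + 1)) ((x ^ 3) ^ 3) 1 (((-((y ^ 3) ^ 3)) - (0 * ((x ^ 3) ^ 3))) - 0) 1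
    (mul_ne_zero hg1 hg2) one_ne_zero one_ne_zero
    (fun h0 => (one_ne_zero (α := k)) (by linear_combination (-1) * h0))
    (by linear_combination (-x ^ 12 * y - 2 * x ^ 10 * y - 2 * x ^ 8 * y - 2 * x ^ 6 * y - x ^ 4 * y) * hp)
    (by linear_combination (-x ^ 15 + x ^ 13 - x ^ 11 - 3 * x ^ 9 + x ^ 7 - x ^ 5 - 3 * x ^ 3 - x) * hE + (x ^ 16 + x ^ 14 - x ^ 12 + 2 * x ^ 8 + x ^ 6) * hp)
    (by linear_combination (-x ^ 3 * y ^ 7 - x * y ^ 7 - x ^ 6 * y ^ 5 - 2 * x ^ 4 * y ^ 5 - x ^ 2 * y ^ 5 - x ^ 9 * y ^ 3 - 3 * x ^ 7 * y ^ 3 - 3 * x ^ 5 * y ^ 3 - x ^ 3 * y ^ 3 - x ^ 12 * y - 4 * x ^ 10 * y - 6 * x ^ 8 * y - 4 * x ^ 6 * y - x ^ 4 * y) * hE + (-2 * x ^ 13 * y - 3 * x ^ 11 * y - 3 * x ^ 9 * y - 2 * x ^ 7 * y) * hp)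
  obtain ⟨hF1, eF1⟩ := hφ x y h
  obtain ⟨hF2, eF2⟩ := hφ _ _ hF1
  have key : (3 : ℤ) • Point.some x y h = -φ (φ (Point.some x y h)) := by
    rw [three_zsmul_eq, eD, eT, eF1, eF2, Point.neg_some]
    refine some_eq_some W.toAffine _ _ (div_one _) ?_
    rw [div_one, negY, h1, h3]
  rw [key]
  abel

/-- The Frobenius quadratic equation on `c3s1` (`p = 3`, trace `0`). -/
theorem quad_c3s1 {K : Type*} [Field K] [IsAlgClosed K] [DecidableEq K] (W : WeierstrassCurve K)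
    (h1 : W.a₁ = 0) (h2 : W.a₂ = 0) (h3 : W.a₃ = 0) (h4 : W.a₄ = 1) (h6 : W.a₆ = 0)
    (hΔ : W.Δ ≠ 0) (hp : (3 : K) = 0) (φ : W.toAffine.Point →+ W.toAffine.Point)
    (hφ : ∀ (x y : K) (h : W.toAffine.Nonsingular x y),
      ∃ h' : W.toAffine.Nonsingular (x ^ 3) (y ^ 3), φ (Point.some x y h) = Point.some _ _ h')
    (P : W.toAffine.Point) :
    φ (φ P) - (0 : ℤ) • φ P + (3 : ℤ) • P = 0 := by
  refine eq_zero_of_generic W.toAffine hΔ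
    (φ.comp φ - (0 : ℤ) • φ + (3 : ℤ) • AddMonoidHom.id _)
    ((Polynomial.X : Polynomial K) * (Polynomial.X ^ 2 + 1 : Polynomial K))
    (Polynomial.Monic.ne_zero (Polynomial.Monic.mul (by monicity! : Polynomial.Monic (Polynomial.X : Polynomial K)) (by monicity! : Polynomial.Monic (Polynomial.X ^ 2 + 1 : Polynomial K)))) (fun x y h hx => ?_) P
  have hx' := hx
  rw [Polynomial.eval_mul] at hx'
  have q2 := right_ne_zero_of_mul hx'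
  replace hx' := left_ne_zero_of_mul hx'
  have q1 := hx'
  have e1 : Polynomial.eval x (Polynomial.X : Polynomial K) = x := by simp
  rw [e1] at q1
  have e2 : Polynomial.eval x (Polynomial.X ^ 2 + 1 : Polynomial K) = x ^ 2 + 1 := by simp
  rw [e2] at q2
  exact gen_c3s1 W h1 h2 h3 h4 h6 hp φ hφ x y h q1 q2

/-- generic point computation for `c3sm0` (`p = 3`, `#E(𝔽_p) = 4`, trace `0`). -/
theorem gen_c3sm0 {k : Type*} [Field k] [DecidableEq k] (W : WeierstrassCurve k)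
    (h1 : W.a₁ = 0) (h2 : W.a₂ = 0) (h3 : W.a₃ = 0) (h4 : W.a₄ = (-1)) (h6 : W.a₆ = 0)
    (hp : (3 : k) = 0) (φ : W.toAffine.Point →+ W.toAffine.Point)
    (hφ : ∀ (x y : k) (h : W.toAffine.Nonsingular x y),
      ∃ h' : W.toAffine.Nonsingular (x ^ 3) (y ^ 3), φ (Point.some x y h) = Point.some _ _ h')
    (x y : k) (h : W.toAffine.Nonsingular x y)
    (hg1 : x ≠ 0)
    (hg2 : x + 1 ≠ 0)
    (hg3 : x - 1 ≠ 0)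
    : φ (φ (Point.some x y h)) - (0 : ℤ) • φ (Point.some x y h) + (3 : ℤ) • Point.some x y h = 0 := by
  have hE : y ^ 2 + 0 * x * y + 0 * y = x ^ 3 + 0 * x ^ 2 + (-1) * x + 0 := by
    have := (W.toAffine.equation_iff x y).mp h.1
    rwa [h1, h2, h3, h4, h6] at this
  obtain ⟨hD, eD⟩ := dbl_frac W.toAffine 0 0 0 (-1) h1 h2 h3 h4 h
    y ((x * (x + 1)) * (x - 1)) (x ^ 4 - x ^ 2 + 1) ((x * (x + 1)) * (x - 1)) (-x ^ 6 * y - x ^ 4 * y - x ^ 2 * y - y) (((x ^ 2) * ((x + 1) ^ 2)) * ((x - 1) ^ 2))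
    (mul_ne_zero (mul_ne_zero hg1 hg2) hg3) (mul_ne_zero (mul_ne_zero hg1 hg2) hg3) (mul_ne_zero (mul_ne_zero (pow_ne_zero 2 hg1) (pow_ne_zero 2 hg2)) (pow_ne_zero 2 hg3))
    (fun h0 => (mul_ne_zero (mul_ne_zero hg1 hg2) hg3) (by linear_combination (-y) * h0 + (2) * hE + (x ^ 3 - x) * hp))
    (by linear_combination (2) * hE + (-x ^ 5 + 2 * x ^ 3 - x) * hp)
    (by linear_combination (-x ^ 3 + x) * hE + (x ^ 10 - 3 * x ^ 8 + 3 * x ^ 6 - x ^ 4) * hp)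
    (by linear_combination (-x ^ 10 * y + 2 * x ^ 8 * y - x ^ 6 * y) * hp)
  obtain ⟨hT, eT⟩ := chord_frac W.toAffine 0 0 0 h1 h2 h3 h
    (x ^ 4 - x ^ 2 + 1) ((x * (x + 1)) * (x - 1)) (-x ^ 6 * y - x ^ 4 * y - x ^ 2 * y - y) (((x ^ 2) * ((x + 1) ^ 2)) * ((x - 1) ^ 2)) (mul_ne_zero (mul_ne_zero hg1 hg2) hg3) (mul_ne_zero (mul_ne_zero (pow_ne_zero 2 hg1) (pow_ne_zero 2 hg2)) (pow_ne_zero 2 hg3)) hD
    (x ^ 6 * y + x ^ 4 * y + x ^ 2 * y - y) ((x * (x + 1)) * (x - 1)) ((x ^ 3) ^ 3) 1 (((-((y ^ 3) ^ 3)) - (0 * ((x ^ 3) ^ 3))) - 0) 1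
    (mul_ne_zero (mul_ne_zero hg1 hg2) hg3) one_ne_zero one_ne_zero
    (fun h0 => (one_ne_zero (α := k)) (by linear_combination (-1) * h0))
    (by linear_combination (-x ^ 12 * y + 2 * x ^ 10 * y - 2 * x ^ 8 * y + 2 * x ^ 6 * y - x ^ 4 * y) * hp)
    (by linear_combination (-x ^ 15 - x ^ 13 - x ^ 11 + 3 * x ^ 9 + x ^ 7 + x ^ 5 - 3 * x ^ 3 + x) * hE + (-x ^ 16 + x ^ 14 + x ^ 12 - 2 * x ^ 8 + x ^ 6) * hp)
    (by linear_combination (-x ^ 3 * y ^ 7 + x * y ^ 7 - x ^ 6 * y ^ 5 + 2 * x ^ 4 * y ^ 5 - x ^ 2 * y ^ 5 - x ^ 9 * y ^ 3 + 3 * x ^ 7 * y ^ 3 - 3 * x ^ 5 * y ^ 3 + x ^ 3 * y ^ 3 - x ^ 12 * y + 4 * x ^ 10 * y - 6 * x ^ 8 * y + 4 * x ^ 6 * y - x ^ 4 * y) * hE + (2 * x ^ 13 * y - 3 * x ^ 11 * y + 3 * x ^ 9 * y - 2 * x ^ 7 * y) * hp)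
  obtain ⟨hF1, eF1⟩ := hφ x y h
  obtain ⟨hF2, eF2⟩ := hφ _ _ hF1
  have key : (3 : ℤ) • Point.some x y h = -φ (φ (Point.some x y h)) := by
    rw [three_zsmul_eq, eD, eT, eF1, eF2, Point.neg_some]
    refine some_eq_some W.toAffine _ _ (div_one _) ?_
    rw [div_one, negY, h1, h3]
  rw [key]
  abel

/-- The Frobenius quadratic equation on `c3sm0` (`p = 3`, trace `0`). -/
theorem quad_c3sm0 {K : Type*} [Field K] [IsAlgClosed K] [DecidableEq K] (W : WeierstrassCurve K)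
    (h1 : W.a₁ = 0) (h2 : W.a₂ = 0) (h3 : W.a₃ = 0) (h4 : W.a₄ = (-1)) (h6 : W.a₆ = 0)
    (hΔ : W.Δ ≠ 0) (hp : (3 : K) = 0) (φ : W.toAffine.Point →+ W.toAffine.Point)
    (hφ : ∀ (x y : K) (h : W.toAffine.Nonsingular x y),
      ∃ h' : W.toAffine.Nonsingular (x ^ 3) (y ^ 3), φ (Point.some x y h) = Point.some _ _ h')
    (P : W.toAffine.Point) :
    φ (φ P) - (0 : ℤ) • φ P + (3 : ℤ) • P = 0 := by
  refine eq_zero_of_generic W.toAffine hΔ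
    (φ.comp φ - (0 : ℤ) • φ + (3 : ℤ) • AddMonoidHom.id _)
    ((Polynomial.X : Polynomial K) * (Polynomial.X + 1 : Polynomial K) * (Polynomial.X - 1 : Polynomial K))
    (Polynomial.Monic.ne_zero (Polynomial.Monic.mul (Polynomial.Monic.mul (by monicity! : Polynomial.Monic (Polynomial.X : Polynomial K)) (by monicity! : Polynomial.Monic (Polynomial.X + 1 : Polynomial K))) (by monicity! : Polynomial.Monic (Polynomial.X - 1 : Polynomial K)))) (fun x y h hx => ?_) P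
  have hx' := hx
  rw [Polynomial.eval_mul] at hx'
  have q3 := right_ne_zero_of_mul hx'
  replace hx' := left_ne_zero_of_mul hx'
  rw [Polynomial.eval_mul] at hx'
  have q2 := right_ne_zero_of_mul hx'
  replace hx' := left_ne_zero_of_mul hx'
  have q1 := hx'
  have e1 : Polynomial.eval x (Polynomial.X : Polynomial K) = x := by simp
  rw [e1] at q1
  have e2 : Polynomial.eval x (Polynomial.X + 1 : Polynomial K) = x + 1 := by simp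
  rw [e2] at q2
  have e3 : Polynomial.eval x (Polynomial.X - 1 : Polynomial K) = x - 1 := by simp
  rw [e3] at q3
  exact gen_c3sm0 W h1 h2 h3 h4 h6 hp φ hφ x y h q1 q2 q3

/-- generic point computation for `c3sm1` (`p = 3`, `#E(𝔽_p) = 7`, trace `-3`). -/
theorem gen_c3sm1 {k : Type*} [Field k] [DecidableEq k] (W : WeierstrassCurve k)
    (h1 : W.a₁ = 0) (h2 : W.a₂ = 0) (h3 : W.a₃ = 0) (h4 : W.a₄ = (-1)) (h6 : W.a₆ = 1)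
    (hp : (3 : k) = 0) (φ : W.toAffine.Point →+ W.toAffine.Point)
    (hφ : ∀ (x y : k) (h : W.toAffine.Nonsingular x y),
      ∃ h' : W.toAffine.Nonsingular (x ^ 3) (y ^ 3), φ (Point.some x y h) = Point.some _ _ h')
    (x y : k) (h : W.toAffine.Nonsingular x y)
    (hg1 : x ^ 3 - x + 1 ≠ 0)
    : φ (φ (Point.some x y h)) - (-3 : ℤ) • φ (Point.some x y h) + (3 : ℤ) • Point.some x y h = 0 := by
  have hE : y ^ 2 + 0 * x * y + 0 * y = x ^ 3 + 0 * x ^ 2 + (-1) * x + 1 := by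
    have := (W.toAffine.equation_iff x y).mp h.1
    rwa [h1, h2, h3, h4, h6] at this
  obtain ⟨hD, eD⟩ := dbl_frac W.toAffine 0 0 0 (-1) h1 h2 h3 h4 h
    y (x ^ 3 - x + 1) (x ^ 4 - x ^ 2 + x + 1) (x ^ 3 - x + 1) (-x ^ 6 * y - x ^ 4 * y + x ^ 3 * y - x ^ 2 * y - x * y + y) ((x ^ 3 - x + 1) ^ 2)
    hg1 hg1 (pow_ne_zero 2 hg1)
    (fun h0 => hg1 (by linear_combination (-y) * h0 + (2) * hE + (x ^ 3 - x + 1) * hp))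
    (by linear_combination (2) * hE + (-x ^ 5 + 2 * x ^ 3 - x ^ 2 - x + 1) * hp)
    (by linear_combination (-x ^ 3 + x - 1) * hE + (x ^ 10 - 3 * x ^ 8 + 3 * x ^ 7 + 3 * x ^ 6 - 6 * x ^ 5 + 2 * x ^ 4 + 3 * x ^ 3 - 3 * x ^ 2 + x) * hp)
    (by linear_combination (-x ^ 10 * y + x ^ 9 * y + 2 * x ^ 8 * y - 5 * x ^ 7 * y + 2 * x ^ 6 * y + 5 * x ^ 5 * y - 7 * x ^ 4 * y + 2 * x ^ 3 * y + 3 * x ^ 2 * y - 3 * x * y + y) * hp)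
  obtain ⟨hT, eT⟩ := chord_frac W.toAffine 0 0 0 h1 h2 h3 h
    (x ^ 4 - x ^ 2 + x + 1) (x ^ 3 - x + 1) (-x ^ 6 * y - x ^ 4 * y + x ^ 3 * y - x ^ 2 * y - x * y + y) ((x ^ 3 - x + 1) ^ 2) hg1 (pow_ne_zero 2 hg1) hD
    (x ^ 6 * y + x ^ 4 * y - x ^ 3 * y + x ^ 2 * y + x * y) (x ^ 3 - x + 1) (x ^ 9 - 1) 1 (-x ^ 12 * y + x ^ 10 * y - x ^ 9 * y + x ^ 6 * y - x ^ 4 * y + x * y - y) 1
    hg1 one_ne_zero one_ne_zero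
    (fun h0 => (one_ne_zero (α := k)) (by linear_combination (-1) * h0))
    (by linear_combination (-x ^ 12 * y + 2 * x ^ 10 * y - 2 * x ^ 9 * y - 2 * x ^ 8 * y + 2 * x ^ 7 * y + x ^ 6 * y - 2 * x ^ 5 * y - x ^ 4 * y + 2 * x ^ 3 * y - x ^ 2 * y) * hp)
    (by linear_combination (-x ^ 15 - x ^ 13 + x ^ 12 - x ^ 11 - 4 * x ^ 10 + 2 * x ^ 9 - 3 * x ^ 8 + 4 * x ^ 7 - 5 * x ^ 6 - 2 * x ^ 5 + 3 * x ^ 4 - x ^ 3 - x ^ 2) * hE + (-x ^ 16 + x ^ 15 + x ^ 14 - 4 * x ^ 13 + 2 * x ^ 12 + x ^ 11 - x ^ 10 - 5 * x ^ 8 + 7 * x ^ 7 - 7 * x ^ 5 + 4 * x ^ 4 + 2 * x ^ 3 - 3 * x ^ 2 + x) * hp)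
    (by linear_combination (x ^ 13 * y - x ^ 12 * y + x ^ 10 * y - x ^ 7 * y - x ^ 2 * y) * hp)
  obtain ⟨hF1, eF1⟩ := hφ x y h
  obtain ⟨hF2, eF2⟩ := hφ _ _ hF1
  obtain ⟨hFm, eFm⟩ := hφ _ _ hT
  obtain ⟨hFm', eFm'⟩ := some_congr W.toAffine hFm (div_pow _ _ _) (div_pow _ _ _)
  obtain ⟨hN, eN⟩ := neg_frac W.toAffine 0 0 h1 h3 ((x ^ 9 - 1) ^ 3) (1 ^ 3) ((-x ^ 12 * y + x ^ 10 * y - x ^ 9 * y + x ^ 6 * y - x ^ 4 * y + x * y - y) ^ 3) (1 ^ 3) (pow_ne_zero 3 one_ne_zero) (pow_ne_zero 3 one_ne_zero) hFm'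
  obtain ⟨hC, eC⟩ := chord_frac W.toAffine 0 0 0 h1 h2 h3 hF2
    (x ^ 9 - 1) 1 (-x ^ 12 * y + x ^ 10 * y - x ^ 9 * y + x ^ 6 * y - x ^ 4 * y + x * y - y) 1 one_ne_zero one_ne_zero hT
    (-x ^ 12 * y + x ^ 10 * y - x ^ 9 * y + x ^ 6 * y - x ^ 4 * y + x * y - y) 1 ((x ^ 9 - 1) ^ 3) (1 ^ 3) ((((-((-x ^ 12 * y + x ^ 10 * y - x ^ 9 * y + x ^ 6 * y - x ^ 4 * y + x * y - y) ^ 3)) * (1 ^ 3)) - ((0 * ((x ^ 9 - 1) ^ 3)) * (1 ^ 3))) - ((0 * (1 ^ 3)) * (1 ^ 3))) ((1 ^ 3) * (1 ^ 3))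
    one_ne_zero (pow_ne_zero 3 one_ne_zero) (mul_ne_zero (pow_ne_zero 3 one_ne_zero) (pow_ne_zero 3 one_ne_zero))
    (fun h0 => (one_ne_zero (α := k)) (by linear_combination (1) * h0))
    (by linear_combination (-y ^ 7 - x ^ 3 * y ^ 5 + x * y ^ 5 - y ^ 5 - x ^ 6 * y ^ 3 + 2 * x ^ 4 * y ^ 3 - 2 * x ^ 3 * y ^ 3 - x ^ 2 * y ^ 3 + 2 * x * y ^ 3 - y ^ 3 - x ^ 9 * y + 3 * x ^ 7 * y - 3 * x ^ 6 * y - 3 * x ^ 5 * y + 6 * x ^ 4 * y - 2 * x ^ 3 * y - 3 * x ^ 2 * y + 3 * x * y - y) * hE + (-x ^ 12 * y + 2 * x ^ 10 * y - 2 * x ^ 9 * y - 2 * x ^ 8 * y + 4 * x ^ 7 * y - 4 * x ^ 5 * y + 3 * x ^ 4 * y - 2 * x ^ 2 * y + 2 * x * y - y) * hp)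
    (by linear_combination (-x ^ 24 + 2 * x ^ 22 - 2 * x ^ 21 - x ^ 20 + 2 * x ^ 19 + x ^ 18 - 4 * x ^ 16 + 2 * x ^ 15 + 2 * x ^ 14 - 3 * x ^ 12 - 2 * x ^ 11 + 6 * x ^ 10 - 2 * x ^ 9 - x ^ 8 - 2 * x ^ 7 + 2 * x ^ 6 + 2 * x ^ 5 - 2 * x ^ 4 - x ^ 2 + 2 * x - 1) * hE + (x ^ 25 - x ^ 24 - x ^ 23 + 2 * x ^ 22 - x ^ 20 - x ^ 19 + 2 * x ^ 17 - 2 * x ^ 16 - x ^ 15 + 3 * x ^ 13 - x ^ 12 - 3 * x ^ 11 + 2 * x ^ 10 + 2 * x ^ 9 + x ^ 8 - 2 * x ^ 7 + x ^ 5 - x ^ 2 + x - 1) * hp)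
    (by linear_combination (y ^ 7 + x ^ 3 * y ^ 5 - x * y ^ 5 + y ^ 5 + x ^ 6 * y ^ 3 - 2 * x ^ 4 * y ^ 3 + 2 * x ^ 3 * y ^ 3 + x ^ 2 * y ^ 3 - 2 * x * y ^ 3 + y ^ 3 + x ^ 36 * y - 3 * x ^ 34 * y + 3 * x ^ 33 * y + 3 * x ^ 32 * y - 6 * x ^ 31 * y - x ^ 30 * y + 3 * x ^ 29 * y + 6 * x ^ 28 * y - 5 * x ^ 27 * y - 9 * x ^ 26 * y + 9 * x ^ 25 * y + 6 * x ^ 24 * y - 18 * x ^ 22 * y + 6 * x ^ 21 * y + 18 * x ^ 20 * y - 9 * x ^ 19 * y - 7 * x ^ 18 * y - 9 * x ^ 17 * y + 21 * x ^ 16 * y - 12 * x ^ 14 * y - 3 * x ^ 13 * y + 4 * x ^ 12 * y + 15 * x ^ 11 * y - 15 * x ^ 10 * y + x ^ 9 * y + 3 * x ^ 7 * y + 3 * x ^ 6 * y - 3 * x ^ 5 * y - 3 * x ^ 4 * y + x ^ 3 * y + 6 * x ^ 2 * y - 6 * x * y + 2 * y) * hE + (-x ^ 37 * y + x ^ 36 * y + 2 * x ^ 35 * y - 4 * x ^ 34 * y + 4 * x ^ 32 * y - 2 * x ^ 30 * y - 4 * x ^ 29 * y + 6 * x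 ^ 28 * y + 4 * x ^ 27 * y - 6 * x ^ 26 * y - 5 * x ^ 25 * y + 3 * x ^ 24 * y + 12 * x ^ 23 * y - 10 * x ^ 22 * y - 7 * x ^ 21 * y + 6 * x ^ 20 * y + 6 * x ^ 19 * y + x ^ 18 * y - 14 * x ^ 17 * y + 6 * x ^ 16 * y + 6 * x ^ 15 * y + 2 * x ^ 14 * y - 8 * x ^ 13 * y - 3 * x ^ 12 * y + 10 * x ^ 11 * y - 4 * x ^ 10 * y + x ^ 9 * y - 2 * x ^ 8 * y - x ^ 7 * y + 2 * x ^ 6 * y + 2 * x ^ 5 * y - 3 * x ^ 4 * y - x ^ 3 * y + 4 * x ^ 2 * y - 3 * x * y + y) * hp)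
  have key : φ (φ (Point.some x y h)) + (3 : ℤ) • Point.some x y h = (-3 : ℤ) • φ (Point.some x y h) := by
    rw [← map_zsmul φ, three_zsmul_eq, neg_three_zsmul_eq]
    rw [eD, eT, map_neg, eFm, eFm', eN, eF1, eF2, eC]
  rw [sub_add_eq_add_sub, key, sub_self]

/-- The Frobenius quadratic equation on `c3sm1` (`p = 3`, trace `-3`). -/
theorem quad_c3sm1 {K : Type*} [Field K] [IsAlgClosed K] [DecidableEq K] (W : WeierstrassCurve K)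
    (h1 : W.a₁ = 0) (h2 : W.a₂ = 0) (h3 : W.a₃ = 0) (h4 : W.a₄ = (-1)) (h6 : W.a₆ = 1)
    (hΔ : W.Δ ≠ 0) (hp : (3 : K) = 0) (φ : W.toAffine.Point →+ W.toAffine.Point)
    (hφ : ∀ (x y : K) (h : W.toAffine.Nonsingular x y),
      ∃ h' : W.toAffine.Nonsingular (x ^ 3) (y ^ 3), φ (Point.some x y h) = Point.some _ _ h')
    (P : W.toAffine.Point) :
    φ (φ P) - (-3 : ℤ) • φ P + (3 : ℤ) • P = 0 := by
  refine eq_zero_of_generic W.toAffine hΔ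
    (φ.comp φ - (-3 : ℤ) • φ + (3 : ℤ) • AddMonoidHom.id _)
    ((Polynomial.X ^ 3 - Polynomial.X + 1 : Polynomial K))
    (Polynomial.Monic.ne_zero (by monicity! : Polynomial.Monic (Polynomial.X ^ 3 - Polynomial.X + 1 : Polynomial K))) (fun x y h hx => ?_) P
  have hx' := hx
  have q1 := hx'
  have e1 : Polynomial.eval x (Polynomial.X ^ 3 - Polynomial.X + 1 : Polynomial K) = x ^ 3 - x + 1 := by simp
  rw [e1] at q1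
  exact gen_c3sm1 W h1 h2 h3 h4 h6 hp φ hφ x y h q1

/-- generic point computation for `c3smm` (`p = 3`, `#E(𝔽_p) = 1`, trace `3`). -/
theorem gen_c3smm {k : Type*} [Field k] [DecidableEq k] (W : WeierstrassCurve k)
    (h1 : W.a₁ = 0) (h2 : W.a₂ = 0) (h3 : W.a₃ = 0) (h4 : W.a₄ = (-1)) (h6 : W.a₆ = (-1))
    (hp : (3 : k) = 0) (φ : W.toAffine.Point →+ W.toAffine.Point)
    (hφ : ∀ (x y : k) (h : W.toAffine.Nonsingular x y),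
      ∃ h' : W.toAffine.Nonsingular (x ^ 3) (y ^ 3), φ (Point.some x y h) = Point.some _ _ h')
    (x y : k) (h : W.toAffine.Nonsingular x y)
    (hg1 : x ^ 3 - x - 1 ≠ 0)
    : φ (φ (Point.some x y h)) - (3 : ℤ) • φ (Point.some x y h) + (3 : ℤ) • Point.some x y h = 0 := by
  have hE : y ^ 2 + 0 * x * y + 0 * y = x ^ 3 + 0 * x ^ 2 + (-1) * x + (-1) := by
    have := (W.toAffine.equation_iff x y).mp h.1
    rwa [h1, h2, h3, h4, h6] at this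
  obtain ⟨hD, eD⟩ := dbl_frac W.toAffine 0 0 0 (-1) h1 h2 h3 h4 h
    y (x ^ 3 - x - 1) (x ^ 4 - x ^ 2 - x + 1) (x ^ 3 - x - 1) (-x ^ 6 * y - x ^ 4 * y - x ^ 3 * y - x ^ 2 * y + x * y + y) ((x ^ 3 - x - 1) ^ 2)
    hg1 hg1 (pow_ne_zero 2 hg1)
    (fun h0 => hg1 (by linear_combination (-y) * h0 + (2) * hE + (x ^ 3 - x - 1) * hp))
    (by linear_combination (2) * hE + (-x ^ 5 + 2 * x ^ 3 + x ^ 2 - x - 1) * hp)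
    (by linear_combination (-x ^ 3 + x + 1) * hE + (x ^ 10 - 3 * x ^ 8 - 3 * x ^ 7 + 3 * x ^ 6 + 6 * x ^ 5 + 2 * x ^ 4 - 3 * x ^ 3 - 3 * x ^ 2 - x) * hp)
    (by linear_combination (-x ^ 10 * y - x ^ 9 * y + 2 * x ^ 8 * y + 5 * x ^ 7 * y + 2 * x ^ 6 * y - 5 * x ^ 5 * y - 7 * x ^ 4 * y - 2 * x ^ 3 * y + 3 * x ^ 2 * y + 3 * x * y + y) * hp)
  obtain ⟨hT, eT⟩ := chord_frac W.toAffine 0 0 0 h1 h2 h3 h
    (x ^ 4 - x ^ 2 - x + 1) (x ^ 3 - x - 1) (-x ^ 6 * y - x ^ 4 * y - x ^ 3 * y - x ^ 2 * y + x * y + y) ((x ^ 3 - x - 1) ^ 2) hg1 (pow_ne_zero 2 hg1) hD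
    (x ^ 6 * y + x ^ 4 * y + x ^ 3 * y + x ^ 2 * y - x * y) (x ^ 3 - x - 1) (x ^ 9 + 1) 1 (-x ^ 12 * y + x ^ 10 * y + x ^ 9 * y + x ^ 6 * y - x ^ 4 * y - x * y - y) 1
    hg1 one_ne_zero one_ne_zero
    (fun h0 => (one_ne_zero (α := k)) (by linear_combination (-1) * h0))
    (by linear_combination (-x ^ 12 * y + 2 * x ^ 10 * y + 2 * x ^ 9 * y - 2 * x ^ 8 * y - 2 * x ^ 7 * y + x ^ 6 * y + 2 * x ^ 5 * y - x ^ 4 * y - 2 * x ^ 3 * y - x ^ 2 * y) * hp)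
    (by linear_combination (-x ^ 15 - x ^ 13 - x ^ 12 - x ^ 11 + 4 * x ^ 10 + 2 * x ^ 9 + 3 * x ^ 8 + 4 * x ^ 7 + 5 * x ^ 6 - 2 * x ^ 5 - 3 * x ^ 4 - x ^ 3 + x ^ 2) * hE + (-x ^ 16 - x ^ 15 + x ^ 14 + 4 * x ^ 13 + 2 * x ^ 12 - x ^ 11 - x ^ 10 - 5 * x ^ 8 - 7 * x ^ 7 + 7 * x ^ 5 + 4 * x ^ 4 - 2 * x ^ 3 - 3 * x ^ 2 - x) * hp)
    (by linear_combination (x ^ 13 * y + x ^ 12 * y - x ^ 10 * y - x ^ 7 * y + x ^ 2 * y) * hp)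
  obtain ⟨hF1, eF1⟩ := hφ x y h
  obtain ⟨hF2, eF2⟩ := hφ _ _ hF1
  obtain ⟨hFm, eFm⟩ := hφ _ _ hT
  obtain ⟨hFm', eFm'⟩ := some_congr W.toAffine hFm (div_pow _ _ _) (div_pow _ _ _)
  obtain ⟨hC, eC⟩ := chord_frac W.toAffine 0 0 0 h1 h2 h3 hF2
    (x ^ 9 + 1) 1 (-x ^ 12 * y + x ^ 10 * y + x ^ 9 * y + x ^ 6 * y - x ^ 4 * y - x * y - y) 1 one_ne_zero one_ne_zero hT
    (x ^ 12 * y - x ^ 10 * y - x ^ 9 * y - x ^ 6 * y + x ^ 4 * y + x * y + y) 1 ((x ^ 9 + 1) ^ 3) (1 ^ 3) ((-x ^ 12 * y + x ^ 10 * y + x ^ 9 * y + x ^ 6 * y - x ^ 4 * y - x * y - y) ^ 3) (1 ^ 3)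
    one_ne_zero (pow_ne_zero 3 one_ne_zero) (pow_ne_zero 3 one_ne_zero)
    (fun h0 => (one_ne_zero (α := k)) (by linear_combination (-1) * h0))
    (by linear_combination (-y ^ 7 - x ^ 3 * y ^ 5 + x * y ^ 5 + y ^ 5 - x ^ 6 * y ^ 3 + 2 * x ^ 4 * y ^ 3 + 2 * x ^ 3 * y ^ 3 - x ^ 2 * y ^ 3 - 2 * x * y ^ 3 - y ^ 3 - x ^ 9 * y + 3 * x ^ 7 * y + 3 * x ^ 6 * y - 3 * x ^ 5 * y - 6 * x ^ 4 * y - 2 * x ^ 3 * y + 3 * x ^ 2 * y + 3 * x * y + y) * hE + (-x ^ 12 * y + 2 * x ^ 10 * y + 2 * x ^ 9 * y - 2 * x ^ 8 * y - 4 * x ^ 7 * y + 4 * x ^ 5 * y + 3 * x ^ 4 * y - 2 * x ^ 2 * y - 2 * x * y - y) * hp)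
    (by linear_combination (-x ^ 24 + 2 * x ^ 22 + 2 * x ^ 21 - x ^ 20 - 2 * x ^ 19 + x ^ 18 - 4 * x ^ 16 - 2 * x ^ 15 + 2 * x ^ 14 - 3 * x ^ 12 + 2 * x ^ 11 + 6 * x ^ 10 + 2 * x ^ 9 - x ^ 8 + 2 * x ^ 7 + 2 * x ^ 6 - 2 * x ^ 5 - 2 * x ^ 4 - x ^ 2 - 2 * x - 1) * hE + (x ^ 25 + x ^ 24 - x ^ 23 - 2 * x ^ 22 + x ^ 20 - x ^ 19 + 2 * x ^ 17 + 2 * x ^ 16 - x ^ 15 + 3 * x ^ 13 + x ^ 12 - 3 * x ^ 11 - 2 * x ^ 10 + 2 * x ^ 9 - x ^ 8 - 2 * x ^ 7 + x ^ 5 + x ^ 2 + x + 1) * hp)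
    (by linear_combination (y ^ 7 + x ^ 3 * y ^ 5 - x * y ^ 5 - y ^ 5 + x ^ 6 * y ^ 3 - 2 * x ^ 4 * y ^ 3 - 2 * x ^ 3 * y ^ 3 + x ^ 2 * y ^ 3 + 2 * x * y ^ 3 + y ^ 3 - x ^ 36 * y + 3 * x ^ 34 * y + 3 * x ^ 33 * y - 3 * x ^ 32 * y - 6 * x ^ 31 * y + x ^ 30 * y + 3 * x ^ 29 * y - 6 * x ^ 28 * y - 5 * x ^ 27 * y + 9 * x ^ 26 * y + 9 * x ^ 25 * y - 6 * x ^ 24 * y + 18 * x ^ 22 * y + 6 * x ^ 21 * y - 18 * x ^ 20 * y - 9 * x ^ 19 * y + 7 * x ^ 18 * y - 9 * x ^ 17 * y - 21 * x ^ 16 * y + 12 * x ^ 14 * y - 3 * x ^ 13 * y - 4 * x ^ 12 * y + 15 * x ^ 11 * y + 15 * x ^ 10 * y + x ^ 9 * y + 3 * x ^ 7 * y - 3 * x ^ 6 * y - 3 * x ^ 5 * y + 3 * x ^ 4 * y + x ^ 3 * y - 6 * x ^ 2 * y - 6 * x * y - 2 * y) * hE + (x ^ 37 * y + x ^ 36 * y - 2 * x ^ 35 * y - 4 * x ^ 34 * y + 4 * x ^ 32 * y - 2 * x ^ 30 * y + 4 * x ^ 29 * y + 6 * x ^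 28 * y - 4 * x ^ 27 * y - 6 * x ^ 26 * y + 5 * x ^ 25 * y + 3 * x ^ 24 * y - 12 * x ^ 23 * y - 10 * x ^ 22 * y + 7 * x ^ 21 * y + 6 * x ^ 20 * y - 6 * x ^ 19 * y + x ^ 18 * y + 14 * x ^ 17 * y + 6 * x ^ 16 * y - 6 * x ^ 15 * y + 2 * x ^ 14 * y + 8 * x ^ 13 * y - 3 * x ^ 12 * y - 10 * x ^ 11 * y - 4 * x ^ 10 * y - x ^ 9 * y - 2 * x ^ 8 * y + x ^ 7 * y + 2 * x ^ 6 * y - 2 * x ^ 5 * y - 3 * x ^ 4 * y + x ^ 3 * y + 4 * x ^ 2 * y + 3 * x * y + y) * hp)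
  have key : φ (φ (Point.some x y h)) + (3 : ℤ) • Point.some x y h = (3 : ℤ) • φ (Point.some x y h) := by
    rw [← map_zsmul φ, three_zsmul_eq]
    rw [eD, eT, eFm, eFm', eF1, eF2, eC]
  rw [sub_add_eq_add_sub, key, sub_self]

/-- The Frobenius quadratic equation on `c3smm` (`p = 3`, trace `3`). -/
theorem quad_c3smm {K : Type*} [Field K] [IsAlgClosed K] [DecidableEq K] (W : WeierstrassCurve K)
    (h1 : W.a₁ = 0) (h2 : W.a₂ = 0) (h3 : W.a₃ = 0) (h4 : W.a₄ = (-1)) (h6 : W.a₆ = (-1))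
    (hΔ : W.Δ ≠ 0) (hp : (3 : K) = 0) (φ : W.toAffine.Point →+ W.toAffine.Point)
    (hφ : ∀ (x y : K) (h : W.toAffine.Nonsingular x y),
      ∃ h' : W.toAffine.Nonsingular (x ^ 3) (y ^ 3), φ (Point.some x y h) = Point.some _ _ h')
    (P : W.toAffine.Point) :
    φ (φ P) - (3 : ℤ) • φ P + (3 : ℤ) • P = 0 := by
  refine eq_zero_of_generic W.toAffine hΔ
    (φ.comp φ - (3 : ℤ) • φ + (3 : ℤ) • AddMonoidHom.id _)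
    ((Polynomial.X ^ 3 - Polynomial.X - 1 : Polynomial K))
    (Polynomial.Monic.ne_zero (by monicity! : Polynomial.Monic (Polynomial.X ^ 3 - Polynomial.X - 1 : Polynomial K))) (fun x y h hx => ?_) P
  have hx' := hx
  have q1 := hx'
  have e1 : Polynomial.eval x (Polynomial.X ^ 3 - Polynomial.X - 1 : Polynomial K) = x ^ 3 - x - 1 := by simp
  rw [e1] at q1
  exact gen_c3smm W h1 h2 h3 h4 h6 hp φ hφ x y h q1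

end Fermat.Agent.S58.FQS.Char3SS
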