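import Mathlib
import Fermat.Prelude.Def_EllipticCurve_FrobeniusTrace
import Fermat.Agent.P7.RedFix
import Fermat.Agent.S58.FrobQuadSmall

/-!
# S58 / [ES-W] for every good prime, hypothesis form — the Eichler–Shimura relation on `W[m]` from
a reduction map, WITHOUT the restriction `5 ≤ ℓ`

This is `S58.FrobQuadRed.frob_quad_torsion_of_red` / `frob_quad_point_of_red` (helper40) verbatim,
with the Frobenius quadratic equation on the reduced curve taken from
`FrobQuadSmall.frob_quadratic_all` (every prime `ℓ`, including `2` and `3`) instead of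
`FrobQuadGen.frob_quadratic_general` (`ℓ ≥ 5`).  Owner of this file: helper11.

Let `W` be an integral Weierstrass model, `ℓ` a good prime, `A` a valuation subring of `ℚ̄` over
`ℓ` with residue field `k`, and `σ` a Frobenius element at `A`.  Suppose given a *reduction map*:
an injective additive map `red : W(ℚ̄)[m] → W̃(k)` which sends an affine point `(x, y)` to
`(x̄, ȳ)`.  Then `σ² P - a_ℓ(W) σ P + ℓ P = 0` for every `P ∈ W(ℚ̄)[m]`.
-/

set_option autoImplicit false

namespace Fermat.Agent.S58.FQS.RedAll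

open WeierstrassCurve WeierstrassCurve.Affine WeierstrassCurve.Affine.Point
open Fermat.Agent.S52.M2 Fermat.Agent.P7.VCAdd Fermat.Agent.P7.RedFix

noncomputable section

local notation "Qb" => AlgebraicClosure ℚ

/-- **[ES-W] from a reduction map, every good prime `ℓ` (including `2` and `3`).** -/
theorem frob_quad_torsion_of_red_all (W : WeierstrassCurve ℤ) {m ℓ : ℕ} (hℓ : ℓ.Prime)
    (hgood : W.IsGoodPrimeFor ℓ) (A : ValuationSubring Qb) (hA : A.LiesOverPrime ℓ)
    (σ : Qb ≃ₐ[ℚ] Qb) (hσ : A.IsFrobeniusAt σ ℓ)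
    [DecidableEq (IsLocalRing.ResidueField A)]
    (red : Submodule.torsionBy ℤ ((W.map (Int.castRingHom ℚ)).toAffine⁄Qb).Point m →+
      (W.map (Int.castRingHom (IsLocalRing.ResidueField A))).toAffine.Point)
    (hinj : Function.Injective red)
    (hcoord : ∀ (P : Submodule.torsionBy ℤ ((W.map (Int.castRingHom ℚ)).toAffine⁄Qb).Point m)
      (x y : Qb) (h : ((W.map (Int.castRingHom ℚ)).toAffine⁄Qb).Nonsingular x y),
      (P : ((W.map (Int.castRingHom ℚ)).toAffine⁄Qb).Point) = Point.some x y h →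
      ∃ (hx : x ∈ A) (hy : y ∈ A)
        (h' : (W.map (Int.castRingHom (IsLocalRing.ResidueField A))).toAffine.Nonsingular
          (IsLocalRing.residue A ⟨x, hx⟩) (IsLocalRing.residue A ⟨y, hy⟩)),
        red P = Point.some _ _ h')
    (P : Submodule.torsionBy ℤ ((W.map (Int.castRingHom ℚ)).toAffine⁄Qb).Point m) :
    σ • σ • P - W.apOfModel ℓ • σ • P + (ℓ : ℤ) • P = 0 := by
  have : Fact ℓ.Prime := ⟨hℓ⟩
  -- the residue field has characteristic `ℓ`
  have hℓk : ((ℓ : ℕ) : IsLocalRing.ResidueField A) = 0 := by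
    have h1 : ((ℓ : ℕ) : IsLocalRing.ResidueField A) = IsLocalRing.residue A ((ℓ : ℕ) : A) := by
      rw [map_natCast]
    rw [h1, IsLocalRing.residue_eq_zero_iff, ← ValuationSubring.coe_mem_nonunits_iff]
    exact_mod_cast hA
  have hchar : CharP (IsLocalRing.ResidueField A) ℓ := (CharP.charP_iff_prime_eq_zero hℓ).mpr hℓk
  let alg : Algebra (ZMod ℓ) (IsLocalRing.ResidueField A) :=
    ZMod.algebra (IsLocalRing.ResidueField A) ℓ
  have hint : ∀ n : ℤ, ¬ (ℓ : ℤ) ∣ n → ((n : ℤ) : IsLocalRing.ResidueField A) ≠ 0 := fun n hn =>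
    residue_intCast_ne_zero A (Fermat.Agent.Lib.FrobAlt.val_intCast_eq_one A hℓ hA hn)
  -- the curves
  set E0 : WeierstrassCurve (ZMod ℓ) := W.reductionMod ℓ with hE0
  have hcomp : (algebraMap (ZMod ℓ) (IsLocalRing.ResidueField A)).comp (Int.castRingHom (ZMod ℓ)) =
      Int.castRingHom (IsLocalRing.ResidueField A) := RingHom.ext_int _ _
  have hcurve : W.map (Int.castRingHom (IsLocalRing.ResidueField A)) =
      E0.map (algebraMap (ZMod ℓ) (IsLocalRing.ResidueField A)) := by
    rw [hE0, WeierstrassCurve.reductionMod, WeierstrassCurve.map_map, hcomp]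
  have hΔ0 : E0.Δ ≠ 0 := by
    rw [hE0, WeierstrassCurve.reductionMod, WeierstrassCurve.map_Δ]
    intro h0
    have h1 := congrArg (algebraMap (ZMod ℓ) (IsLocalRing.ResidueField A)) h0
    rw [← RingHom.comp_apply, hcomp, _root_.map_zero] at h1
    exact hint _ hgood h1
  -- the algebraic closure of the residue field
  let K := AlgebraicClosure (IsLocalRing.ResidueField A)
  let hdecK : DecidableEq K := Classical.decEq K
  let ι : IsLocalRing.ResidueField A →ₐ[ZMod ℓ] K :=
    IsScalarTower.toAlgHom (ZMod ℓ) (IsLocalRing.ResidueField A) K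
  -- the chain of maps
  let c1 : (W.map (Int.castRingHom (IsLocalRing.ResidueField A))).toAffine.Point ≃+
      (E0.map (algebraMap (ZMod ℓ) (IsLocalRing.ResidueField A))).toAffine.Point :=
    congrPt hcurve
  let c2 : (E0.toAffine⁄(IsLocalRing.ResidueField A)).Point →+ (E0.toAffine⁄K).Point :=
    Point.map (W' := E0.toAffine) ι
  have hc2inj : Function.Injective c2 := Point.map_injective (W' := E0.toAffine) ι
  let ψ : Submodule.torsionBy ℤ ((W.map (Int.castRingHom ℚ)).toAffine⁄Qb).Point m →+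
      (E0.toAffine⁄K).Point := c2.comp (c1.toAddMonoidHom.comp red)
  have hψdef : ∀ T, ψ T = c2 (c1 (red T)) := fun _ => rfl
  have hψinj : Function.Injective ψ := fun T T' h => by
    rw [hψdef, hψdef] at h
    exact hinj (c1.injective (hc2inj h))
  -- the Frobenius element
  let g : A.decompositionSubgroup ℚ := ⟨σ, hσ.mem_decompositionSubgroup⟩
  have hgres : ∀ a : A, IsLocalRing.residue A (g • a) = IsLocalRing.residue A a ^ ℓ := fun a => by
    rw [IsLocalRing.ResidueField.residue_smul]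
    exact hσ.smul_residue_eq _
  -- `ψ` intertwines `σ` and the Frobenius endomorphism
  have hψσ : ∀ T : Submodule.torsionBy ℤ ((W.map (Int.castRingHom ℚ)).toAffine⁄Qb).Point m,
      ψ (σ • T) = frobPt ℓ E0 K (ψ T) := by
    intro T
    obtain ⟨Q, hQ⟩ := T
    rcases Q with _ | ⟨x, y, h⟩
    · have h0 : (⟨Point.zero, hQ⟩ : Submodule.torsionBy ℤ
          ((W.map (Int.castRingHom ℚ)).toAffine⁄Qb).Point m) = 0 := rfl
      rw [h0, smul_zero, _root_.map_zero, _root_.map_zero]
    · obtain ⟨hx, hy, h', e'⟩ := hcoord ⟨Point.some x y h, hQ⟩ x y h rfl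
      have hσT : ((σ • (⟨Point.some x y h, hQ⟩ : Submodule.torsionBy ℤ
          ((W.map (Int.castRingHom ℚ)).toAffine⁄Qb).Point m) :
          Submodule.torsionBy ℤ ((W.map (Int.castRingHom ℚ)).toAffine⁄Qb).Point m) :
          ((W.map (Int.castRingHom ℚ)).toAffine⁄Qb).Point) =
          σ • (Point.some x y h : ((W.map (Int.castRingHom ℚ)).toAffine⁄Qb).Point) := rfl
      rw [algEquiv_smul_def, Point.map_some] at hσT
      obtain ⟨hx', hy', h'', e''⟩ := hcoord _ _ _ _ hσT
      have ex : IsLocalRing.residue A ⟨σ x, hx'⟩ = IsLocalRing.residue A ⟨x, hx⟩ ^ ℓ :=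
        hgres ⟨x, hx⟩
      have ey : IsLocalRing.residue A ⟨σ y, hy'⟩ = IsLocalRing.residue A ⟨y, hy⟩ ^ ℓ :=
        hgres ⟨y, hy⟩
      rw [hψdef, hψdef, e'', e']
      simp only [c1, c2, congrPt_some, frobPt]
      refine Fermat.Agent.S52.VC.some_congr _ _ ?_ ?_
      · show ι (IsLocalRing.residue A ⟨σ x, hx'⟩) =
          (ι (IsLocalRing.residue A ⟨x, hx⟩)) ^ Fintype.card (ZMod ℓ)
        rw [ex, map_pow, ZMod.card]
      · show ι (IsLocalRing.residue A ⟨σ y, hy'⟩) =
          (ι (IsLocalRing.residue A ⟨y, hy⟩)) ^ Fintype.card (ZMod ℓ)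
        rw [ey, map_pow, ZMod.card]
  -- conclusion
  have key := Fermat.Agent.S58.FrobQuadSmall.frob_quadratic_all ℓ E0 hΔ0 K (ψ P)
  have hap : W.apOfModel ℓ = (ℓ : ℤ) + 1 - (Nat.card E0.toAffine.Point : ℤ) := by
    rw [WeierstrassCurve.apOfModel, WeierstrassCurve.traceOfFrobenius, WeierstrassCurve.card,
      Nat.card_zmod]
  apply hψinj
  rw [_root_.map_zero, map_add, map_sub, map_zsmul, map_zsmul, hψσ, hψσ, hap]
  exact key

/-- The same relation for a point `P` with `m • P = 0` (the form consumed by the transfer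
lemmas). -/
theorem frob_quad_point_of_red_all (W : WeierstrassCurve ℤ) {m ℓ : ℕ} (hℓ : ℓ.Prime)
    (hgood : W.IsGoodPrimeFor ℓ) (A : ValuationSubring Qb) (hA : A.LiesOverPrime ℓ)
    (σ : Qb ≃ₐ[ℚ] Qb) (hσ : A.IsFrobeniusAt σ ℓ)
    [DecidableEq (IsLocalRing.ResidueField A)]
    (red : Submodule.torsionBy ℤ ((W.map (Int.castRingHom ℚ)).toAffine⁄Qb).Point m →+
      (W.map (Int.castRingHom (IsLocalRing.ResidueField A))).toAffine.Point)
    (hinj : Function.Injective red)
    (hcoord : ∀ (P : Submodule.torsionBy ℤ ((W.map (Int.castRingHom ℚ)).toAffine⁄Qb).Point m)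
      (x y : Qb) (h : ((W.map (Int.castRingHom ℚ)).toAffine⁄Qb).Nonsingular x y),
      (P : ((W.map (Int.castRingHom ℚ)).toAffine⁄Qb).Point) = Point.some x y h →
      ∃ (hx : x ∈ A) (hy : y ∈ A)
        (h' : (W.map (Int.castRingHom (IsLocalRing.ResidueField A))).toAffine.Nonsingular
          (IsLocalRing.residue A ⟨x, hx⟩) (IsLocalRing.residue A ⟨y, hy⟩)),
        red P = Point.some _ _ h')
    (P : ((W.map (Int.castRingHom ℚ)).toAffine⁄Qb).Point) (hP : m • P = 0) :
    σ • σ • P - W.apOfModel ℓ • σ • P + (ℓ : ℤ) • P = 0 := by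
  have hmem : P ∈ Submodule.torsionBy ℤ ((W.map (Int.castRingHom ℚ)).toAffine⁄Qb).Point m := by
    rw [Submodule.mem_torsionBy_iff, natCast_zsmul]
    exact hP
  have key := frob_quad_torsion_of_red_all W hℓ hgood A hA σ hσ red hinj hcoord ⟨P, hmem⟩
  exact congrArg Subtype.val key

end

end Fermat.Agent.S58.FQS.RedAll
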